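import Fermat.Agent.GAL.AN.Defs

/-!
# GAL / AN-4 : linear disjointness  `FL ℂ M ∩ iotaS (ℚ̄((q))) = iotaS (FL ℚ̄ M)`
-/

set_option autoImplicit false

open ModularCurve AlgebraicCurve CongruenceSubgroup UpperHalfPlane IntermediateField
open Fermat.Agent.S24
open scoped MatrixGroups

noncomputable section

namespace Fermat.Agent.GAL.AN

theorem iotaS_coeffEmb (f : LaurentSeries ℚ) : iotaS (coeffEmb Qb f) = coeffEmb ℂ f := by
  rw [iotaS, coeffEmb, coeffMap_coeffMap, coeffEmb]
  exact coeffMap_congr (RingHom.ext_rat _ _) f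

theorem iotaS_algebraMap (a : Qb) :
    iotaS (algebraMap Qb (LaurentSeries Qb) a) = algebraMap ℂ (LaurentSeries ℂ) (iota a) := by
  rw [iotaS, algebraMap_laurentSeries_eq_single, algebraMap_laurentSeries_eq_single,
    coeffMap_single]

theorem iotaS_mem_FL (M : ℕ) {x : LaurentSeries Qb} (hx : x ∈ FL Qb M) : iotaS x ∈ FL ℂ M := by
  rw [mem_laurentBaseChange_iff] at hx
  induction hx using Subfield.closure_induction with
  | mem y hy =>
      rcases hy with ⟨a, rfl⟩ | ⟨z, hz, rfl⟩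
      · rw [iotaS_algebraMap]
        exact (FL ℂ M).algebraMap_mem _
      · rw [iotaS_coeffEmb]
        exact coeffEmb_mem_laurentBaseChange ℂ hz
  | one => simp
  | add x y _ _ hx hy => simpa using add_mem hx hy
  | neg x _ hx => simpa using neg_mem hx
  | inv x _ hx => simpa using inv_mem hx
  | mul x y _ _ hx hy => simpa using mul_mem hx hy

/-- apply a `ℚ̄`-linear functional `ℂ → ℚ̄` to all coefficients. -/
def lamS (lam : ℂ →ₗ[Qb] Qb) (z : LaurentSeries ℂ) : LaurentSeries Qb := z.map lam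

@[simp] theorem lamS_coeff (lam : ℂ →ₗ[Qb] Qb) (z : LaurentSeries ℂ) (k : ℤ) :
    (lamS lam z).coeff k = lam (z.coeff k) := rfl

theorem lamS_zero (lam : ℂ →ₗ[Qb] Qb) : lamS lam 0 = 0 := by
  ext k; simp

theorem lamS_add (lam : ℂ →ₗ[Qb] Qb) (z z' : LaurentSeries ℂ) :
    lamS lam (z + z') = lamS lam z + lamS lam z' := by
  ext k; simp

theorem lamS_mul_iotaS (lam : ℂ →ₗ[Qb] Qb) (c : ℂ) (u : LaurentSeries Qb) :
    lamS lam (algebraMap ℂ (LaurentSeries ℂ) c * iotaS u) =
      algebraMap Qb (LaurentSeries Qb) (lam c) * u := by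
  ext k
  rw [lamS_coeff, algebraMap_laurentSeries_eq_single, algebraMap_laurentSeries_eq_single,
    HahnSeries.coeff_single_mul, HahnSeries.coeff_single_mul, sub_zero, iotaS, coeffMap_coeff,
    mul_comm, ← algebraMap_Kb_complex, ← Algebra.smul_def, map_smul, smul_eq_mul, mul_comm]

/-- the `ℂ`-span (for the module structure coming from the algebra structure). -/
abbrev spanC (F₀ : IntermediateField ℚ (LaurentSeries ℚ)) :
    @Submodule ℂ (LaurentSeries ℂ) _ _ Algebra.toModule :=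
  @Submodule.span ℂ (LaurentSeries ℂ) _ _ Algebra.toModule
    (⇑(coeffEmb ℂ) '' (F₀ : Set (LaurentSeries ℚ)))

/-- the `ℂ`-algebra generated by the rational function field is its `ℂ`-span. -/
theorem adjoin_eq_span_coeffEmb (F₀ : IntermediateField ℚ (LaurentSeries ℚ)) :
    Subalgebra.toSubmodule (Algebra.adjoin ℂ (⇑(coeffEmb ℂ) '' (F₀ : Set (LaurentSeries ℚ)))) =
      spanC F₀ := by
  apply Algebra.adjoin_eq_span_of_subset
  intro y hy
  refine @Submodule.subset_span ℂ (LaurentSeries ℂ) _ _ Algebra.toModule _ _ ?_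
  induction hy using Submonoid.closure_induction with
  | mem y hy => exact hy
  | one => exact ⟨1, one_mem _, map_one _⟩
  | mul y y' _ _ hy hy' =>
    obtain ⟨a, ha, rfl⟩ := hy
    obtain ⟨b, hb, rfl⟩ := hy'
    exact ⟨a * b, mul_mem ha hb, map_mul _ _ _⟩

theorem lamS_span (M : ℕ) (lam : ℂ →ₗ[Qb] Qb) (x : LaurentSeries Qb) {B : LaurentSeries ℂ}
    (hB : B ∈ spanC (modularFunctionFieldFull M)) :
    lamS lam B ∈ FL Qb M ∧ lamS lam (iotaS x * B) = x * lamS lam B := by
  induction hB using Submodule.closure_induction with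
  | zero =>
    rw [mul_zero, lamS_zero, mul_zero]
    exact ⟨zero_mem _, rfl⟩
  | add B B' _ _ hB hB' =>
    rw [mul_add, lamS_add, lamS_add, hB.2, hB'.2, mul_add]
    exact ⟨add_mem hB.1 hB'.1, rfl⟩
  | smul_mem c B hB =>
    obtain ⟨f, hf, rfl⟩ := hB
    rw [Algebra.smul_def, ← iotaS_coeffEmb, mul_left_comm, ← map_mul, lamS_mul_iotaS,
      lamS_mul_iotaS, mul_left_comm]
    exact ⟨mul_mem ((FL Qb M).algebraMap_mem _) (coeffEmb_mem_laurentBaseChange Qb hf), rfl⟩

theorem mem_FL_of_iotaS_mem (M : ℕ) {x : LaurentSeries Qb} (hx : iotaS x ∈ FL ℂ M) :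
    x ∈ FL Qb M := by
  obtain ⟨A, hA, B, hB, hAB⟩ := IntermediateField.mem_adjoin_iff_div.1 hx
  rcases eq_or_ne B 0 with rfl | hB0
  · rw [div_zero] at hAB
    have : x = 0 := by
      have hinj : Function.Injective iotaS := (iotaS : LaurentSeries Qb →+* LaurentSeries ℂ).injective
      exact hinj (by rw [hAB, map_zero])
    rw [this]
    exact zero_mem _
  have hA' := (SetLike.ext_iff.1 (adjoin_eq_span_coeffEmb (modularFunctionFieldFull M)) A).1 hA
  have hB' := (SetLike.ext_iff.1 (adjoin_eq_span_coeffEmb (modularFunctionFieldFull M)) B).1 hB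
  obtain ⟨k, hk⟩ : ∃ k : ℤ, B.coeff k ≠ 0 := by
    by_contra hcon
    push Not at hcon
    exact hB0 (HahnSeries.ext (funext hcon))
  obtain ⟨lam, hlam⟩ : ∃ lam : ℂ →ₗ[Qb] Qb, lam (B.coeff k) ≠ 0 := by
    by_contra hcon
    push Not at hcon
    exact hk ((Module.forall_dual_apply_eq_zero_iff Qb (B.coeff k)).1 hcon)
  have h1 : iotaS x * B = A := by rw [hAB, div_mul_cancel₀ _ hB0]
  have h2 := (lamS_span M lam x hB').2
  rw [h1] at h2
  have h3 : lamS lam B ≠ 0 := by
    intro h0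
    apply hlam
    rw [← lamS_coeff, h0, HahnSeries.coeff_zero]
  rw [eq_div_of_mul_eq h3 h2.symm]
  exact div_mem (lamS_span M lam x hA').1 (lamS_span M lam x hB').1

end Fermat.Agent.GAL.AN
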