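import Fermat.Agent.GAL.Defs
import Fermat.Agent.GAL.HeckeCoh

/-!
# GAL / AN : the structure `AnPackage` (verbatim from helper1's `Master.lean`), sorry free.
Import this file (not `Master.lean`) to talk about `HPar` and `AnPackage`.
-/

set_option autoImplicit false

open ModularCurve AlgebraicCurve CongruenceSubgroup
open scoped MatrixGroups

noncomputable section

namespace Fermat.Agent.GAL

/-- `Hom_par(Γ₀(M), ℤ/n)`. -/
abbrev HPar (M n : ℕ) : Submodule (ZMod n) (Additive (Gamma0 M) →+ ZMod n) :=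
  Period.parabolicHoms (ZMod n) (Gamma0 M) (ZMod n)

/-- The output of the analytic blocks: the group `Van` of those `h ∈ ℚ̄((q))ˣ` which are
`q`-expansions of meromorphic functions `H` on `ℍ` (meromorphic at the cusps) with
`H ∘ γ = e(P(γ)/n) H`, `P ∈ Hom_par(Γ₀(M), ℤ/n)`; `chr h = P`. -/
structure AnPackage (M n : ℕ) where
  Van : Subgroup (LaurentSeries Qb)ˣ
  chr : Van →* Multiplicative (HPar M n)
  FL_le : ∀ u : (LaurentSeries Qb)ˣ, (u : LaurentSeries Qb) ∈ FL Qb M → u ∈ Van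
  isKum : ∀ u ∈ Van, IsKum Qb M n ((u : (LaurentSeries Qb)ˣ) : LaurentSeries Qb)
  chr_eq_one_iff : ∀ u : Van, chr u = 1 ↔ ((u : (LaurentSeries Qb)ˣ) : LaurentSeries Qb) ∈ FL Qb M
  chr_surjective : Function.Surjective chr
  hecke_mem : ∀ (ℓ : ℕ) [NeZero ℓ], ℓ.Prime → ¬ ℓ ∣ M → ∀ u ∈ Van, Units.map (heckeS Qb ℓ) u ∈ Van
  chr_hecke : ∀ (ℓ : ℕ) [NeZero ℓ] (hℓ : ℓ.Prime) (hℓM : ¬ ℓ ∣ M) (u : Van),
    ((Multiplicative.toAdd (chr ⟨_, hecke_mem ℓ hℓ hℓM u u.2⟩) : HPar M n) :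
        Additive (Gamma0 M) →+ ZMod n) =
      heckeCoh M ℓ ((Multiplicative.toAdd (chr u) : HPar M n) : Additive (Gamma0 M) →+ ZMod n)

end Fermat.Agent.GAL
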