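import Fermat.Agent.GAL.AN.Main
import Fermat.Agent.GR.CB.Defs

/-! # GAL / AN-10 : the `p`-power family `GR.CB.AnFamily M p` (contract of CoreBuild with AN) -/

set_option autoImplicit false

open ModularCurve AlgebraicCurve CongruenceSubgroup
open scoped MatrixGroups

noncomputable section

namespace Fermat.Agent.GAL.AN

/-- the concrete family of analytic packages of exponents `p ^ m`. -/
def anFamily (M p : ℕ) [NeZero M] (hp : p ≠ 0) (hM : AdmLevel M) : GR.CB.AnFamily M p where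
  An m := haveI : NeZero (p ^ m) := ⟨pow_ne_zero m hp⟩; anPackage M (p ^ m) hM
  pow_mem m u hu :=
    haveI : NeZero (p ^ m) := ⟨pow_ne_zero m hp⟩
    haveI : NeZero p := ⟨hp⟩
    haveI : NeZero (p ^ m * p) := ⟨pow_ne_zero (m + 1) hp⟩
    pow_mem_Van (n := p ^ m) (k := p) u hu
  chr_pow m u hu γ :=
    haveI : NeZero (p ^ m) := ⟨pow_ne_zero m hp⟩
    haveI : NeZero p := ⟨hp⟩
    haveI : NeZero (p ^ m * p) := ⟨pow_ne_zero (m + 1) hp⟩
    congrArg (fun f : Additive (Gamma0 M) →+ ZMod (p ^ m) => f γ)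
      (chrFun_pow (n := p ^ m) (k := p) ⟨u, hu⟩)

theorem exists_anFamily (M p : ℕ) [NeZero M] (hp : p ≠ 0) (hM : AdmLevel M) :
    Nonempty (GR.CB.AnFamily M p) := ⟨anFamily M p hp hM⟩

end Fermat.Agent.GAL.AN
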