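import Fermat.Agent.GAL.AN.HeckeAct

/-! # GAL / AN-8b : `heckeFun ℓ a` is a character function for `heckeCoh M ℓ P`. -/

set_option autoImplicit false

open ModularCurve AlgebraicCurve CongruenceSubgroup UpperHalfPlane IntermediateField
open Fermat.Agent.S24
open scoped MatrixGroups

noncomputable section

namespace Fermat.Agent.GAL.AN

theorem isCharFun_heckeFun (M n ℓ : ℕ) [NeZero M] [NeZero n] [NeZero ℓ] (hℓ : ℓ.Prime)
    (hℓM : ¬ ℓ ∣ M) (a : MerMod M) (P Q : HPar M n) (ha : IsCharFun M n a P)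
    (hQ : (Q : Additive (Gamma0 M) →+ ZMod n) = heckeCoh M ℓ (P : Additive (Gamma0 M) →+ ZMod n))
    (hmem : heckeFun ℓ a.1 ∈ MerMod M) : IsCharFun M n ⟨heckeFun ℓ a.1, hmem⟩ Q := by
  intro γ τ
  rw [hQ]
  exact heckeFun_smul M n ℓ hℓ hℓM a P ha γ τ

end Fermat.Agent.GAL.AN
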