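/-
GAL / AN-1 : Eisenstein series with bounded weights
`wEis c k z = ∑_v c(v) (v₀ z + v₁)^(-k)`.
-/
import Mathlib

set_option autoImplicit false

namespace Fermat.Agent.GAL.AN

open UpperHalfPlane ModularForm EisensteinSeries Filter Topology ModularGroup
open scoped MatrixGroups Manifold Matrix

noncomputable section

/-- weighted Eisenstein series. -/
def wEis (c : (Fin 2 → ℤ) → ℂ) (k : ℤ) (z : ℍ) : ℂ := ∑' v, c v * eisSummand k v z

/-- right multiplication by `g` as a permutation of `ℤ²`. -/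
def vecMulEquiv (g : SL(2, ℤ)) : (Fin 2 → ℤ) ≃ (Fin 2 → ℤ) where
  toFun v := v ᵥ* (g : Matrix (Fin 2) (Fin 2) ℤ)
  invFun v := v ᵥ* ((g⁻¹ : SL(2, ℤ)) : Matrix (Fin 2) (Fin 2) ℤ)
  left_inv v := by
    show (v ᵥ* (g : Matrix (Fin 2) (Fin 2) ℤ)) ᵥ* ((g⁻¹ : SL(2, ℤ)) : Matrix (Fin 2) (Fin 2) ℤ) = v
    rw [Matrix.vecMul_vecMul, ← Matrix.SpecialLinearGroup.coe_mul, mul_inv_cancel]
    simp
  right_inv v := by
    show (v ᵥ* ((g⁻¹ : SL(2, ℤ)) : Matrix (Fin 2) (Fin 2) ℤ)) ᵥ* (g : Matrix (Fin 2) (Fin 2) ℤ) = v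
    rw [Matrix.vecMul_vecMul, ← Matrix.SpecialLinearGroup.coe_mul, inv_mul_cancel]
    simp

theorem wEis_slash (c : (Fin 2 → ℤ) → ℂ) (k : ℤ) (g : SL(2, ℤ)) :
    wEis c k ∣[k] g
      = wEis (fun v => c (v ᵥ* ((g⁻¹ : SL(2, ℤ)) : Matrix (Fin 2) (Fin 2) ℤ))) k := by
  ext1 z
  simp_rw [SL_slash_apply, zpow_neg,
    mul_inv_eq_iff_eq_mul₀ (zpow_ne_zero _ <| denom_ne_zero _ z), wEis, eisSummand_SL2_apply]
  rw [← tsum_mul_right]
  rw [← (vecMulEquiv g).tsum_eq (fun w => c (w ᵥ* ((g⁻¹ : SL(2, ℤ)) : Matrix (Fin 2) (Fin 2) ℤ))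
    * eisSummand k w z * _)]
  refine tsum_congr fun v => ?_
  have h1 : (vecMulEquiv g v) ᵥ* ((g⁻¹ : SL(2, ℤ)) : Matrix (Fin 2) (Fin 2) ℤ) = v :=
    (vecMulEquiv g).left_inv v
  rw [h1]
  show _ = c v * eisSummand k (v ᵥ* (g : Matrix (Fin 2) (Fin 2) ℤ)) z * _
  ring

section bounded

variable {c : (Fin 2 → ℤ) → ℂ} {C : ℝ} {k : ℤ}

theorem summable_norm_wEis (hc : ∀ v, ‖c v‖ ≤ C) (hk : 3 ≤ k) (z : ℍ) :
    Summable fun v => ‖c v * eisSummand k v z‖ := by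
  refine ((summable_norm_eisSummand hk z).mul_left C).of_nonneg_of_le (fun _ => norm_nonneg _) ?_
  intro v
  rw [norm_mul]
  exact mul_le_mul_of_nonneg_right (hc v) (norm_nonneg _)

theorem norm_wEis_le (hc : ∀ v, ‖c v‖ ≤ C) (hk : 3 ≤ k) (z : ℍ) :
    ‖wEis c k z‖ ≤ C * ∑' v, ‖eisSummand k v z‖ := by
  refine (norm_tsum_le_tsum_norm (summable_norm_wEis hc hk z)).trans ?_
  rw [← tsum_mul_left]
  refine (summable_norm_wEis hc hk z).tsum_le_tsum (fun v => ?_)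
    ((summable_norm_eisSummand hk z).mul_left C)
  rw [norm_mul]
  exact mul_le_mul_of_nonneg_right (hc v) (norm_nonneg _)

theorem wEis_tendstoLocallyUniformly (hc : ∀ v, ‖c v‖ ≤ C) (hk : 3 ≤ k) :
    TendstoLocallyUniformly (fun (s : Finset (Fin 2 → ℤ)) ↦ (∑ x ∈ s, c x * eisSummand k x ·))
      (wEis c k ·) Filter.atTop := by
  have hk' : (2 : ℝ) < k := by norm_cast
  have p_sum : Summable fun x : Fin 2 → ℤ ↦ ‖x‖ ^ (-k) :=
    mod_cast (summable_one_div_norm_rpow hk')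
  simp only [tendstoLocallyUniformly_iff_forall_isCompact, wEis]
  intro K hK
  obtain ⟨A, B, hB, HABK⟩ := subset_verticalStrip_of_isCompact hK
  refine (tendstoUniformlyOn_tsum (hu := (p_sum.mul_left <| r ⟨⟨A, B⟩, hB⟩ ^ (-k : ℝ)).mul_left C)
    (fun p z hz ↦ ?_)).mono HABK
  rw [norm_mul]
  have hC : 0 ≤ C := (norm_nonneg _).trans (hc 0)
  refine mul_le_mul (hc p) ?_ (norm_nonneg _) hC
  simpa only [eisSummand, one_div, ← zpow_neg, norm_zpow, ← Real.rpow_intCast,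
    Int.cast_neg] using summand_bound_of_mem_verticalStrip (by positivity) p hB hz

theorem wEis_mdiff (hc : ∀ v, ‖c v‖ ≤ C) (hk : 3 ≤ k) : MDiff (wEis c k) := by
  intro τ
  suffices DifferentiableAt ℂ (↑ₕ(wEis c k)) τ.1 by
    convert!
      MDifferentiableAt.comp τ (DifferentiableAt.mdifferentiableAt this) τ.mdifferentiable_coe
    exact funext fun z ↦ (comp_ofComplex (wEis c k) z).symm
  refine DifferentiableOn.differentiableAt ?_ (isOpen_upperHalfPlaneSet.mem_nhds τ.2)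
  have hloc : TendstoLocallyUniformlyOn (fun (s : Finset (Fin 2 → ℤ)) ↦
      ↑ₕ(fun (z : ℍ) ↦ ∑ x ∈ s, c x * eisSummand k x z)) (↑ₕ(wEis c k))
          Filter.atTop {z : ℂ | 0 < z.im} := by
    rw [← upperHalfPlaneSet, ← range_coe, ← Set.image_univ]
    apply TendstoLocallyUniformlyOn.comp (s := ⊤) _ _ _ (OpenPartialHomeomorph.continuousOn_symm _)
    · simp only [Set.top_eq_univ, tendstoLocallyUniformlyOn_univ]
      apply wEis_tendstoLocallyUniformly hc hk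
    · simp only [IsOpenEmbedding.toOpenPartialHomeomorph_target, Set.top_eq_univ,
        Set.mapsTo_range_iff, Set.mem_univ, forall_const]
  refine hloc.differentiableOn (Eventually.of_forall fun s ↦ ?_) isOpen_upperHalfPlaneSet
  have : (↑ₕ(fun (z : ℍ) ↦ ∑ x ∈ s, c x * eisSummand k x z))
      = fun w => ∑ x ∈ s, c x * (↑ₕ(eisSummand k x)) w := by
    funext w
    simp [Function.comp]
  rw [this]
  exact DifferentiableOn.fun_sum fun x _ ↦
    (eisSummand_extension_differentiableOn k x).const_mul (c x)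

theorem tsum_norm_eisSummand_smul_T (k : ℤ) (n : ℤ) (z : ℍ) :
    ∑' v, ‖eisSummand k v ((T ^ n : SL(2, ℤ)) • z)‖ = ∑' v, ‖eisSummand k v z‖ := by
  simp_rw [eisSummand_SL2_apply]
  have hd : denom ((T ^ n : SL(2, ℤ)) : GL (Fin 2) ℝ) z = 1 := by
    rw [ModularGroup.denom_apply, ModularGroup.coe_T_zpow]
    simp
  simp_rw [hd, one_zpow, one_mul]
  exact (vecMulEquiv (T ^ n)).tsum_eq (fun v => ‖eisSummand k v z‖)

theorem wEis_bdd (hc : ∀ v, ‖c v‖ ≤ C) (hk : 3 ≤ k) : IsBoundedAtImInfty (wEis c k) := by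
  rw [UpperHalfPlane.isBoundedAtImInfty_iff]
  refine ⟨C * ∑' (x : Fin 2 → ℤ), r ⟨⟨1, 2⟩, Nat.ofNat_pos⟩ ^ (-k) * ‖x‖ ^ (-k), 2, ?_⟩
  intro z hz
  obtain ⟨n, hn⟩ := (ModularGroup_T_zpow_mem_verticalStrip z (N := 1) one_pos)
  have hC : 0 ≤ C := (norm_nonneg _).trans (hc 0)
  refine (norm_wEis_le hc hk z).trans (mul_le_mul_of_nonneg_left ?_ hC)
  have hn' : (T ^ n : SL(2, ℤ)) • z ∈ verticalStrip 1 z.im := by simpa using hn
  rw [← tsum_norm_eisSummand_smul_T k n z]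
  have hk' : (2 : ℝ) < k := by norm_cast
  apply (summable_norm_eisSummand hk _).tsum_le_tsum _
  · exact_mod_cast (summable_one_div_norm_rpow hk').mul_left <| r ⟨⟨1, 2⟩, Nat.ofNat_pos⟩ ^ (-k)
  · intro x
    simp_rw [eisSummand, norm_zpow]
    exact_mod_cast
      summand_bound_of_mem_verticalStrip (lt_trans two_pos hk').le x two_pos
      (verticalStrip_anti_right 1 hz hn')

theorem tendsto_eisSummand_of_ne (k : ℤ) (hk : 0 < k) (v : Fin 2 → ℤ) (hv : v 0 ≠ 0) :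
    Tendsto (fun z : ℍ => eisSummand k v z) atImInfty (𝓝 0) := by
  rw [tendsto_zero_iff_norm_tendsto_zero]
  have h1 : Tendsto (fun z : ℍ => ‖((v 0 : ℤ) : ℂ) * z + (v 1 : ℤ)‖) atImInfty atTop := by
    have h0 : Tendsto (fun z : ℍ => z.im) atImInfty atTop := tendsto_comap
    refine tendsto_atTop_mono (fun z => ?_) h0
    have h2 := Complex.abs_im_le_norm (((v 0 : ℤ) : ℂ) * z + (v 1 : ℤ))
    have h3 : (((v 0 : ℤ) : ℂ) * z + (v 1 : ℤ)).im = (v 0 : ℝ) * z.im := by simp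
    rw [h3, abs_mul, abs_of_pos z.im_pos] at h2
    have h4 : (1 : ℝ) ≤ |(v 0 : ℝ)| := by
      have : (1 : ℤ) ≤ |v 0| := Int.one_le_abs hv
      exact_mod_cast this
    nlinarith [z.im_pos]
  have h5 := (tendsto_zpow_atTop_zero (𝕜 := ℝ) (n := -k) (by omega)).comp h1
  refine h5.congr fun z => ?_
  simp [eisSummand, norm_zpow]

theorem wEis_tendsto_strip (hc : ∀ v, ‖c v‖ ≤ C) (hk : 3 ≤ k) :
    Tendsto (wEis c k) (atImInfty ⊓ 𝓟 {z : ℍ | |z.re| ≤ 1})
      (𝓝 (∑' v : Fin 2 → ℤ, if v 0 = 0 then c v * ((v 1 : ℤ) : ℂ) ^ (-k) else 0)) := by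
  have hk' : (2 : ℝ) < k := by norm_cast
  have hC : 0 ≤ C := (norm_nonneg _).trans (hc 0)
  have hsum : Summable fun x : Fin 2 → ℤ =>
      C * (r ⟨⟨1, 2⟩, Nat.ofNat_pos⟩ ^ (-k) * ‖x‖ ^ (-k)) := by
    refine Summable.mul_left C ?_
    exact_mod_cast (summable_one_div_norm_rpow hk').mul_left <| r ⟨⟨1, 2⟩, Nat.ofNat_pos⟩ ^ (-k)
  refine tendsto_tsum_of_dominated_convergence hsum (fun v => ?_) ?_
  · by_cases hv : v 0 = 0
    · simp only [hv, if_true]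
      refine tendsto_const_nhds.congr fun z => ?_
      simp [eisSummand, hv]
    · simp only [hv, if_false]
      have := ((tendsto_eisSummand_of_ne k (by omega) v hv).const_mul (c v)).mono_left
        (inf_le_left : atImInfty ⊓ 𝓟 {z : ℍ | |z.re| ≤ 1} ≤ atImInfty)
      simpa using this
  · have h2 : ∀ᶠ z : ℍ in atImInfty, 2 ≤ z.im :=
      (tendsto_comap : Tendsto (fun z : ℍ => z.im) atImInfty atTop).eventually_ge_atTop 2
    have h3 : ∀ᶠ z : ℍ in (atImInfty ⊓ 𝓟 {z : ℍ | |z.re| ≤ 1}), 2 ≤ z.im ∧ |z.re| ≤ 1 :=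
      (h2.filter_mono inf_le_left).and (eventually_inf_principal.2 (Eventually.of_forall fun _ h => h))
    filter_upwards [h3] with z hz v
    rw [norm_mul]
    refine mul_le_mul (hc v) ?_ (norm_nonneg _) hC
    simp_rw [eisSummand, norm_zpow]
    exact_mod_cast
      summand_bound_of_mem_verticalStrip (lt_trans two_pos hk').le v two_pos
      (⟨hz.2, hz.1⟩ : z ∈ verticalStrip 1 2)

theorem tendsto_atImInfty_of_strip {f : ℍ → ℂ} {L : ℂ}
    (hper : ∀ (n : ℤ) (z : ℍ), f ((T ^ n : SL(2, ℤ)) • z) = f z)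
    (h : Tendsto f (atImInfty ⊓ 𝓟 {z : ℍ | |z.re| ≤ 1}) (𝓝 L)) : Tendsto f atImInfty (𝓝 L) := by
  choose n hn using fun z : ℍ => ModularGroup_T_zpow_mem_verticalStrip z (N := 1) one_pos
  let ρ : ℍ → ℍ := fun z => (T ^ (n z) : SL(2, ℤ)) • z
  have hρ : ∀ z, ρ z ∈ verticalStrip 1 z.im := fun z => by simpa [ρ] using hn z
  have him : ∀ z, (ρ z).im = z.im := by
    intro z
    simp only [ρ, UpperHalfPlane.modular_T_zpow_smul]
    simp
  have h1 : Tendsto ρ atImInfty (atImInfty ⊓ 𝓟 {z : ℍ | |z.re| ≤ 1}) := by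
    refine tendsto_inf.2 ⟨?_, tendsto_principal.2 (Eventually.of_forall fun z => (hρ z).1)⟩
    rw [atImInfty, tendsto_comap_iff]
    have : (UpperHalfPlane.im ∘ ρ) = UpperHalfPlane.im := funext him
    rw [this]
    exact tendsto_comap
  exact (h.comp h1).congr fun z => hper (n z) z

end bounded

end

end Fermat.Agent.GAL.AN
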