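/-
GAL / AN-2 : Eisenstein series with a character `χ : Γ → ℂˣ` trivial on parabolic elements,
and the holomorphic function `u_χ = E_{12,χ} / (2Δ)` with `u_χ(γτ) = χ(γ) u_χ(τ)`.
-/
import Fermat.Agent.GAL.AN.WeightedEis
import Fermat.Agent.S24.Mod.Hermite

set_option autoImplicit false

namespace Fermat.Agent.GAL.AN

open UpperHalfPlane ModularForm EisensteinSeries Filter Topology ModularGroup CongruenceSubgroup
open Fermat.Agent.S24
open scoped MatrixGroups Manifold Matrix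

noncomputable section

local notation "Δ" => ModularForm.discriminant

/-- bottom row of a matrix in `SL(2,ℤ)`. -/
def botRow (g : SL(2, ℤ)) : Fin 2 → ℤ := (g : Matrix (Fin 2) (Fin 2) ℤ) 1

theorem botRow_mul (g h : SL(2, ℤ)) :
    botRow (g * h) = botRow g ᵥ* (h : Matrix (Fin 2) (Fin 2) ℤ) := by
  ext j
  simp [botRow, Matrix.mul_apply, Matrix.vecMul, dotProduct]

theorem botRow_one : botRow 1 = ![0, 1] := by
  ext j
  fin_cases j <;> simp [botRow]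

theorem trace_of_botRow {g : SL(2, ℤ)} (h : botRow g = ![0, 1]) :
    (g : Matrix (Fin 2) (Fin 2) ℤ).trace = 2 := by
  have h0 : (g : Matrix (Fin 2) (Fin 2) ℤ) 1 0 = 0 := by simpa [botRow] using congrFun h 0
  have h1 : (g : Matrix (Fin 2) (Fin 2) ℤ) 1 1 = 1 := by simpa [botRow] using congrFun h 1
  have hd := g.det_coe
  rw [Matrix.det_fin_two, h0, h1] at hd
  rw [Matrix.trace_fin_two, h1]
  linarith

section general

variable {Γ : Subgroup SL(2, ℤ)} (χ : Γ →* ℂˣ)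

/-- the hypothesis: `χ` is trivial on parabolic elements (and on `± 1`). -/
def ParTrivial : Prop :=
  ∀ γ : Γ, ((γ : SL(2, ℤ)) : Matrix (Fin 2) (Fin 2) ℤ).trace ^ 2 = 4 → χ γ = 1

open Classical in
/-- the coefficient function `v ↦ χ(γ)⁻¹` if `v` is the bottom row of `γ ∈ Γ`, `0` otherwise. -/
def chiCoef (v : Fin 2 → ℤ) : ℂ :=
  if h : ∃ γ : Γ, botRow (γ : SL(2, ℤ)) = v then (((χ h.choose)⁻¹ : ℂˣ) : ℂ) else 0

variable {χ}

theorem chi_eq_of_botRow_eq (hpar : ParTrivial χ) {γ γ' : Γ}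
    (h : botRow (γ : SL(2, ℤ)) = botRow (γ' : SL(2, ℤ))) : χ γ = χ γ' := by
  have h1 : botRow ((γ' * γ⁻¹ : Γ) : SL(2, ℤ)) = ![0, 1] := by
    rw [Subgroup.coe_mul, botRow_mul, ← h, ← botRow_mul, Subgroup.coe_inv, mul_inv_cancel,
      botRow_one]
  have h2 := hpar (γ' * γ⁻¹) (by rw [trace_of_botRow h1]; norm_num)
  rw [map_mul, map_inv, mul_inv_eq_one] at h2
  exact h2.symm

theorem chiCoef_botRow (hpar : ParTrivial χ) (γ : Γ) :
    chiCoef χ (botRow (γ : SL(2, ℤ))) = (((χ γ)⁻¹ : ℂˣ) : ℂ) := by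
  have h : ∃ γ' : Γ, botRow (γ' : SL(2, ℤ)) = botRow (γ : SL(2, ℤ)) := ⟨γ, rfl⟩
  rw [chiCoef, dif_pos h, chi_eq_of_botRow_eq hpar h.choose_spec]

theorem chiCoef_of_not {v : Fin 2 → ℤ} (h : ¬ ∃ γ : Γ, botRow (γ : SL(2, ℤ)) = v) :
    chiCoef χ v = 0 := by
  rw [chiCoef, dif_neg h]

theorem chiCoef_vecMul_inv (hpar : ParTrivial χ) (γ : Γ) (v : Fin 2 → ℤ) :
    chiCoef χ (v ᵥ* (((γ : SL(2, ℤ))⁻¹ : SL(2, ℤ)) : Matrix (Fin 2) (Fin 2) ℤ))
      = (χ γ : ℂ) * chiCoef χ v := by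
  by_cases h : ∃ γ' : Γ, botRow (γ' : SL(2, ℤ)) = v
  · obtain ⟨γ', rfl⟩ := h
    have h1 : botRow (γ' : SL(2, ℤ)) ᵥ* (((γ : SL(2, ℤ))⁻¹ : SL(2, ℤ)) : Matrix (Fin 2) (Fin 2) ℤ)
        = botRow ((γ' * γ⁻¹ : Γ) : SL(2, ℤ)) := by
      rw [Subgroup.coe_mul, botRow_mul, Subgroup.coe_inv]
    rw [h1, chiCoef_botRow hpar, chiCoef_botRow hpar, map_mul, map_inv]
    simp
  · rw [chiCoef_of_not h, mul_zero]
    refine chiCoef_of_not ?_
    rintro ⟨γ', hγ'⟩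
    refine h ⟨γ' * γ, ?_⟩
    rw [Subgroup.coe_mul, botRow_mul, hγ', Matrix.vecMul_vecMul,
      ← Matrix.SpecialLinearGroup.coe_mul, inv_mul_cancel]
    simp

theorem norm_chiCoef_le (hnorm : ∀ γ, ‖(χ γ : ℂ)‖ = 1) (v : Fin 2 → ℤ) : ‖chiCoef χ v‖ ≤ 1 := by
  unfold chiCoef
  split_ifs with h
  · rw [Units.val_inv_eq_inv_val, norm_inv, hnorm, inv_one]
  · simp

variable (χ)

/-- the Eisenstein series with character. -/
def charEis (k : ℤ) : ℍ → ℂ := wEis (chiCoef χ) k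

variable {χ}

theorem charEis_slash (hpar : ParTrivial χ) (k : ℤ) (γ : Γ) :
    charEis χ k ∣[k] (γ : SL(2, ℤ)) = (χ γ : ℂ) • charEis χ k := by
  rw [charEis, wEis_slash]
  ext z
  simp only [wEis, chiCoef_vecMul_inv hpar, Pi.smul_apply, smul_eq_mul, mul_assoc, tsum_mul_left]

theorem charEis_slash_eq_wEis (k : ℤ) (g : SL(2, ℤ)) :
    charEis χ k ∣[k] g
      = wEis (fun v => chiCoef χ (v ᵥ* ((g⁻¹ : SL(2, ℤ)) : Matrix (Fin 2) (Fin 2) ℤ))) k :=
  wEis_slash _ _ _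

theorem charEis_slash_mdiff (hnorm : ∀ γ, ‖(χ γ : ℂ)‖ = 1) {k : ℤ} (hk : 3 ≤ k) (g : SL(2, ℤ)) :
    MDiff (charEis χ k ∣[k] g) := by
  rw [charEis_slash_eq_wEis]
  exact wEis_mdiff (C := 1) (fun v => norm_chiCoef_le hnorm _) hk

theorem charEis_slash_bdd (hnorm : ∀ γ, ‖(χ γ : ℂ)‖ = 1) {k : ℤ} (hk : 3 ≤ k) (g : SL(2, ℤ)) :
    IsBoundedAtImInfty (charEis χ k ∣[k] g) := by
  rw [charEis_slash_eq_wEis]
  exact wEis_bdd (C := 1) (fun v => norm_chiCoef_le hnorm _) hk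

theorem charEis_smul (hpar : ParTrivial χ) (k : ℤ) (γ : Γ) (z : ℍ) :
    charEis χ k ((γ : SL(2, ℤ)) • z) = (χ γ : ℂ) * denom (γ : SL(2, ℤ)) z ^ k * charEis χ k z := by
  have h := congrFun (charEis_slash hpar k γ) z
  rw [SL_slash_apply, Pi.smul_apply, smul_eq_mul, zpow_neg,
    mul_inv_eq_iff_eq_mul₀ (zpow_ne_zero _ <| denom_ne_zero _ z)] at h
  rw [h]
  ring

theorem slash_T_zpow_apply (f : ℍ → ℂ) (k : ℤ) (n : ℤ) (z : ℍ) :
    (f ∣[k] (T ^ n : SL(2, ℤ))) z = f ((T ^ n : SL(2, ℤ)) • z) := by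
  have hd : denom ((T ^ n : SL(2, ℤ)) : GL (Fin 2) ℝ) z = 1 := by
    rw [ModularGroup.denom_apply, ModularGroup.coe_T_zpow]
    simp
  rw [SL_slash_apply, hd]
  simp

theorem tsum_chiCoef (hpar : ParTrivial χ) (hneg : (-1 : SL(2, ℤ)) ∈ Γ) {k : ℤ} (hk : Even k) :
    (∑' v : Fin 2 → ℤ, if v 0 = 0 then chiCoef χ v * ((v 1 : ℤ) : ℂ) ^ (-k) else 0) = 2 := by
  have hne : (![0, 1] : Fin 2 → ℤ) ≠ ![0, -1] := by
    intro h
    have := congrFun h 1
    simp at this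
  rw [tsum_eq_sum (s := {![0, 1], ![0, -1]})]
  · rw [Finset.sum_pair hne]
    have h1 : chiCoef χ ![0, 1] = 1 := by
      have := chiCoef_botRow hpar (1 : Γ)
      rw [Subgroup.coe_one, botRow_one] at this
      simpa using this
    have h2 : chiCoef χ ![0, -1] = 1 := by
      have h3 := chiCoef_botRow hpar (⟨-1, hneg⟩ : Γ)
      have h4 : botRow (-1 : SL(2, ℤ)) = ![0, -1] := by
        ext j
        fin_cases j <;> simp [botRow]
      have h5 : χ ⟨-1, hneg⟩ = 1 := hpar _ (by simp)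
      rw [h4, h5] at h3
      simpa using h3
    simp only [Matrix.cons_val_zero, if_true, Matrix.cons_val_one, h1, h2, one_mul]
    have h6 : (((-1 : ℤ) : ℂ)) ^ (-k) = 1 := by
      push_cast
      exact hk.neg.neg_one_zpow
    rw [h6]
    norm_num
  · intro v hv
    by_cases h0 : v 0 = 0
    · rw [if_pos h0]
      by_cases h : ∃ γ : Γ, botRow (γ : SL(2, ℤ)) = v
      · exfalso
        obtain ⟨γ, rfl⟩ := h
        have hd := (γ : SL(2, ℤ)).det_coe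
        have h0' : ((γ : SL(2, ℤ)) : Matrix (Fin 2) (Fin 2) ℤ) 1 0 = 0 := h0
        rw [Matrix.det_fin_two, h0', mul_zero, sub_zero] at hd
        have h1 : ((γ : SL(2, ℤ)) : Matrix (Fin 2) (Fin 2) ℤ) 1 1 = 1 ∨
            ((γ : SL(2, ℤ)) : Matrix (Fin 2) (Fin 2) ℤ) 1 1 = -1 :=
          Int.isUnit_iff.mp (IsUnit.of_mul_eq_one _ (by rw [mul_comm]; exact hd))
        apply hv
        simp only [Finset.mem_insert, Finset.mem_singleton]
        rcases h1 with h1 | h1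
        · left
          ext j
          fin_cases j
          · exact h0'
          · exact h1
        · right
          ext j
          fin_cases j
          · exact h0'
          · exact h1
      · rw [chiCoef_of_not h, zero_mul]
    · rw [if_neg h0]

theorem charEis_tendsto (hnorm : ∀ γ, ‖(χ γ : ℂ)‖ = 1) (hpar : ParTrivial χ)
    (hneg : (-1 : SL(2, ℤ)) ∈ Γ) (hT : T ∈ Γ) {k : ℤ} (hk : 3 ≤ k) (hk2 : Even k) :
    Tendsto (charEis χ k) atImInfty (𝓝 2) := by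
  refine tendsto_atImInfty_of_strip (fun n z => ?_) ?_
  · have hTn : (T ^ n : SL(2, ℤ)) ∈ Γ := Subgroup.zpow_mem _ hT n
    have h1 := congrFun (charEis_slash hpar k ⟨T ^ n, hTn⟩) z
    have h2 : χ ⟨T ^ n, hTn⟩ = 1 := hpar _ (by
      show ((T ^ n : SL(2, ℤ)) : Matrix (Fin 2) (Fin 2) ℤ).trace ^ 2 = 4
      rw [ModularGroup.coe_T_zpow, Matrix.trace_fin_two]
      simp)
    rw [h2] at h1
    simp only [Units.val_one, one_smul] at h1
    rw [← h1]
    exact (slash_T_zpow_apply _ k n z).symm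
  · have := wEis_tendsto_strip (c := chiCoef χ) (C := 1) (norm_chiCoef_le hnorm) hk
    rwa [tsum_chiCoef hpar hneg hk2] at this

end general

section Gamma0

variable {M : ℕ} {χ : ↥(Gamma0 M) →* ℂˣ}

theorem neg_one_mem_Gamma0' (M : ℕ) : (-1 : SL(2, ℤ)) ∈ Gamma0 M := by
  rw [Gamma0_mem]
  simp

theorem T_mem_Gamma0 (M : ℕ) : T ∈ Gamma0 M := by
  rw [Gamma0_mem]
  simp [ModularGroup.T]

theorem conj_T_zpow_entries (g : SL(2, ℤ)) (n : ℤ) :
    ((g * T ^ n * g⁻¹ : SL(2, ℤ)) : Matrix (Fin 2) (Fin 2) ℤ) 1 0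
        = - n * ((g : Matrix (Fin 2) (Fin 2) ℤ) 1 0) ^ 2 ∧
    ((g * T ^ n * g⁻¹ : SL(2, ℤ)) : Matrix (Fin 2) (Fin 2) ℤ).trace = 2 := by
  have hd := g.det_coe
  rw [Matrix.det_fin_two] at hd
  constructor
  · simp only [Matrix.SpecialLinearGroup.coe_mul, ModularGroup.coe_T_zpow,
      Matrix.SpecialLinearGroup.coe_inv, Matrix.adjugate_fin_two, Matrix.mul_apply,
      Fin.sum_univ_two]
    simp
    ring
  · rw [Matrix.trace_fin_two]
    simp only [Matrix.SpecialLinearGroup.coe_mul, ModularGroup.coe_T_zpow,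
      Matrix.SpecialLinearGroup.coe_inv, Matrix.adjugate_fin_two, Matrix.mul_apply,
      Fin.sum_univ_two]
    simp
    linear_combination 2 * hd

theorem conj_T_zpow_mem_Gamma0 (M : ℕ) (g : SL(2, ℤ)) : g * T ^ (M : ℤ) * g⁻¹ ∈ Gamma0 M := by
  rw [Gamma0_mem, (conj_T_zpow_entries g M).1]
  push_cast
  simp

theorem charEis_slash_periodic (hpar : ParTrivial χ) (k : ℤ) (g : SL(2, ℤ)) (z : ℍ) :
    (charEis χ k ∣[k] g) ((M : ℝ) +ᵥ z) = (charEis χ k ∣[k] g) z := by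
  have h0 : ((M : ℝ) +ᵥ z) = (T ^ (M : ℤ) : SL(2, ℤ)) • z := by
    rw [UpperHalfPlane.modular_T_zpow_smul]
    simp
  rw [h0, ← slash_T_zpow_apply (charEis χ k ∣[k] g) k, ← SlashAction.slash_mul]
  have h1 : g * T ^ (M : ℤ) = (g * T ^ (M : ℤ) * g⁻¹) * g := by group
  rw [h1, SlashAction.slash_mul]
  have h2 := charEis_slash hpar k ⟨_, conj_T_zpow_mem_Gamma0 M g⟩
  have h3 : χ ⟨_, conj_T_zpow_mem_Gamma0 M g⟩ = 1 :=
    hpar _ (by
      show ((g * T ^ (M : ℤ) * g⁻¹ : SL(2, ℤ)) : Matrix (Fin 2) (Fin 2) ℤ).trace ^ 2 = 4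
      rw [(conj_T_zpow_entries g M).2]; norm_num)
  rw [h3] at h2
  simp only [Units.val_one, one_smul] at h2
  rw [h2]

/-- `u_χ = E_{12,χ} / (2 Δ)`. -/
def charFun (χ : ↥(Gamma0 M) →* ℂˣ) : ℍ → ℂ := fun τ => charEis χ 12 τ / (2 * Δ τ)

theorem discriminant_mul_charFun_smul (χ : ↥(Gamma0 M) →* ℂˣ) (g : SL(2, ℤ)) (τ : ℍ) :
    Δ τ * charFun χ (g • τ) = (charEis χ 12 ∣[(12 : ℤ)] g) τ / 2 := by
  have hΔ := discriminant_ne_zero τ
  have hd : denom g τ ^ (12 : ℤ) ≠ 0 := zpow_ne_zero _ (denom_ne_zero _ _)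
  rw [charFun, discriminant_smul, SL_slash_apply, zpow_neg]
  field_simp

theorem charFun_smul (hpar : ParTrivial χ) (γ : ↥(Gamma0 M)) (τ : ℍ) :
    charFun χ ((γ : SL(2, ℤ)) • τ) = (χ γ : ℂ) * charFun χ τ := by
  have hΔ := discriminant_ne_zero τ
  have hd : denom (γ : SL(2, ℤ)) τ ^ (12 : ℤ) ≠ 0 := zpow_ne_zero _ (denom_ne_zero _ _)
  rw [charFun, charFun, discriminant_smul, charEis_smul hpar]
  field_simp

theorem isNice_charEis_slash (hnorm : ∀ γ, ‖(χ γ : ℂ)‖ = 1) (hpar : ParTrivial χ)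
    (g : SL(2, ℤ)) : IsNice M (fun τ => (charEis χ 12 ∣[(12 : ℤ)] g) τ / 2) where
  per := Her.periodic_of_vadd fun τ => by rw [charEis_slash_periodic hpar]
  holo := by
    have := (charEis_slash_mdiff hnorm (k := 12) (by norm_num) g).mul
      (mdifferentiable_const (c := (2 : ℂ)⁻¹))
    have he : (fun τ => (charEis χ 12 ∣[(12 : ℤ)] g) τ / 2)
        = (charEis χ 12 ∣[(12 : ℤ)] g) * fun _ => (2 : ℂ)⁻¹ := by
      funext τ
      simp [div_eq_mul_inv]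
    rw [he]
    exact this
  bdd := by
    have := (charEis_slash_bdd hnorm (k := 12) (by norm_num) g).mul
      (Filter.const_boundedAtFilter atImInfty (2 : ℂ)⁻¹)
    have he : (fun τ => (charEis χ 12 ∣[(12 : ℤ)] g) τ / 2)
        = (charEis χ 12 ∣[(12 : ℤ)] g) * Function.const ℍ (2 : ℂ)⁻¹ := by
      funext τ
      simp [div_eq_mul_inv]
    rw [he]
    exact this

theorem charFun_mem_MerMod (hnorm : ∀ γ, ‖(χ γ : ℂ)‖ = 1) (hpar : ParTrivial χ) :
    charFun χ ∈ MerMod M := by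
  intro g
  refine ⟨1, ?_⟩
  simp only [pow_one, discriminant_mul_charFun_smul]
  exact isNice_charEis_slash hnorm hpar g

theorem discriminant_mul_charFun (χ : ↥(Gamma0 M) →* ℂˣ) (τ : ℍ) :
    Δ τ * charFun χ τ = charEis χ 12 τ / 2 := by
  have := discriminant_mul_charFun_smul χ 1 τ
  simpa using this

theorem tendsto_discriminant_mul_charFun (hnorm : ∀ γ, ‖(χ γ : ℂ)‖ = 1) (hpar : ParTrivial χ) :
    Tendsto (fun τ => Δ τ * charFun χ τ) atImInfty (𝓝 1) := by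
  simp only [discriminant_mul_charFun]
  have := (charEis_tendsto hnorm hpar (neg_one_mem_Gamma0' M) (T_mem_Gamma0 M) (k := 12)
    (by norm_num) (by decide)).div_const 2
  simpa using this

theorem isNice_discriminant_mul_charFun (hnorm : ∀ γ, ‖(χ γ : ℂ)‖ = 1) (hpar : ParTrivial χ) :
    IsNice 1 (fun τ => Δ τ * charFun χ τ) where
  per := Her.periodic_of_vadd fun τ => by
    have h0 : ((1 : ℝ) +ᵥ τ) = (T : SL(2, ℤ)) • τ := by
      rw [UpperHalfPlane.modular_T_smul]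
    have h1 := charFun_smul hpar ⟨T, T_mem_Gamma0 M⟩ τ
    have h2 : χ ⟨T, T_mem_Gamma0 M⟩ = 1 := hpar _ (by
      show ((T : SL(2, ℤ)) : Matrix (Fin 2) (Fin 2) ℤ).trace ^ 2 = 4
      simp [ModularGroup.T, Matrix.trace_fin_two])
    rw [h2] at h1
    have h3 : Δ ((T : SL(2, ℤ)) • τ) = Δ τ := by
      rw [discriminant_smul]
      have hd : denom ((T : SL(2, ℤ)) : GL (Fin 2) ℝ) τ = 1 := by
        rw [ModularGroup.denom_apply]
        simp [ModularGroup.T]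
      rw [hd]
      simp
    rw [h0, h3]
    simp only at h1
    rw [h1]
    simp
  holo := by
    have := (isNice_charEis_slash hnorm hpar 1).holo
    have he : (fun τ => Δ τ * charFun χ τ) = fun τ => (charEis χ 12 ∣[(12 : ℤ)] (1 : SL(2, ℤ))) τ / 2 := by
      funext τ
      rw [discriminant_mul_charFun]
      simp
    rw [he]
    exact this
  bdd := (tendsto_discriminant_mul_charFun hnorm hpar).isBigO_one ℝ

/-- **AN-2, final export.** -/
theorem exists_charFun (M : ℕ) (χ : ↥(Gamma0 M) →* ℂˣ) (hnorm : ∀ γ, ‖(χ γ : ℂ)‖ = 1)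
    (hpar : ∀ γ : ↥(Gamma0 M),
      ((γ : SL(2, ℤ)) : Matrix (Fin 2) (Fin 2) ℤ).trace ^ 2 = 4 → χ γ = 1) :
    ∃ u : MerMod M, (∀ (γ : ↥(Gamma0 M)) (τ : ℍ), u.1 ((γ : SL(2, ℤ)) • τ) = (χ γ : ℂ) * u.1 τ) ∧
      IsNice 1 (fun τ => Δ τ * u.1 τ) ∧ Tendsto (fun τ => Δ τ * u.1 τ) atImInfty (𝓝 1) :=
  ⟨⟨charFun χ, charFun_mem_MerMod hnorm hpar⟩, charFun_smul hpar,
    isNice_discriminant_mul_charFun hnorm hpar, tendsto_discriminant_mul_charFun hnorm hpar⟩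

end Gamma0

end

end Fermat.Agent.GAL.AN
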