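import Fermat.Agent.GAL.AN.HeckeAct
import Fermat.Agent.GAL.AN.CharEis

/-! # GAL / AN-8a : `heckeFun ℓ a ∈ MerMod M`. -/

set_option autoImplicit false

open ModularCurve AlgebraicCurve CongruenceSubgroup UpperHalfPlane IntermediateField
open Fermat.Agent.S24 ModularForm Filter Topology
open scoped MatrixGroups Manifold

noncomputable section

namespace Fermat.Agent.GAL.AN

local notation "Δ" => ModularForm.discriminant

/-- holomorphic on `ℍ` and bounded at `i∞`. -/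
structure IsHB (f : ℍ → ℂ) : Prop where
  holo : MDiff f
  bdd : IsBoundedAtImInfty f

theorem IsHB.mul {f g : ℍ → ℂ} (hf : IsHB f) (hg : IsHB g) : IsHB (f * g) where
  holo := hf.holo.mul hg.holo
  bdd := hf.bdd.mul hg.bdd

theorem IsHB.one : IsHB (fun _ => (1 : ℂ)) where
  holo := mdifferentiable_const
  bdd := (IsNice.const 1 1).bdd

theorem IsHB.pow {f : ℍ → ℂ} (hf : IsHB f) (n : ℕ) : IsHB (f ^ n) := by
  induction n with
  | zero => exact IsHB.one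
  | succ n ih => rw [pow_succ]; exact ih.mul hf

theorem mdiff_comp_affH {F : ℍ → ℂ} (hF : MDiff F) (a e : ℕ) (b : ℤ) (ha : 0 < a) (he : 0 < e) :
    MDiff (fun τ => F (affH a e b ha he τ)) := by
  have h1 : MDiff (F ∣[(0 : ℤ)] upperTriangularGL (a : ℝ) (b : ℝ) (e : ℝ)
      (Her.pos_aux ha he).ne') := hF.slash 0 _
  have h2 : (fun τ => F (affH a e b ha he τ)) = fun τ => (((a : ℝ) * (e : ℝ) : ℝ) : ℂ) *
      (F ∣[(0 : ℤ)] upperTriangularGL (a : ℝ) (b : ℝ) (e : ℝ) (Her.pos_aux ha he).ne') τ := by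
    funext τ
    rw [Fermat.Agent.S23.Prim.slash_upperTriangularGL_apply 0 _ _ _ (Her.pos_aux ha he),
      Her.affH_eq_smul]
    have hne : (((a : ℝ) * (e : ℝ) : ℝ) : ℂ) ≠ 0 := by exact_mod_cast (Her.pos_aux ha he).ne'
    simp only [zero_sub, zpow_neg, zpow_one, neg_zero, zpow_zero, mul_one]
    field_simp
  rw [h2]
  exact mdifferentiable_const.mul h1

theorem IsHB.comp_affH {F : ℍ → ℂ} (hF : IsHB F) (a e : ℕ) (b : ℤ) (ha : 0 < a) (he : 0 < e) :
    IsHB (fun τ => F (affH a e b ha he τ)) where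
  holo := mdiff_comp_affH hF.holo a e b ha he
  bdd := hF.bdd.comp_tendsto (Her.tendsto_affH a e b ha he)

/-- `Δ(τ)^a / Δ((aτ+b)/e)` is holomorphic and bounded at `i∞`. -/
theorem isHB_discriminant_ratio (a e : ℕ) (b : ℤ) (ha : 0 < a) (he : 0 < e) :
    IsHB (fun τ => Δ τ ^ a / Δ (affH a e b ha he τ)) where
  holo := ((isNice_discriminant 1).holo.pow a).div
    (mdiff_comp_affH (isNice_discriminant 1).holo a e b ha he) (fun τ => discriminant_ne_zero _)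
  bdd := by
    have h1 : IsBoundedAtImInfty (fun τ : ℍ => (∏' n, (1 - eta_q n τ) ^ 24) ^ a) :=
      ((tendsto_atImInfty_tprod_one_sub_eta_q_pow).pow a).isBigO_one ℝ
    have h2 : IsBoundedAtImInfty (fun τ : ℍ =>
        (∏' n, (1 - eta_q n (affH a e b ha he τ)) ^ 24)⁻¹) := by
      have := (tendsto_atImInfty_tprod_one_sub_eta_q_pow.comp
        (Her.tendsto_affH a e b ha he)).inv₀ one_ne_zero
      exact this.isBigO_one ℝ
    have h3 : IsBoundedAtImInfty (fun τ : ℍ => Function.Periodic.qParam 1 (τ : ℂ) ^ a *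
        (Function.Periodic.qParam 1 (affH a e b ha he τ : ℂ))⁻¹) := by
      refine Asymptotics.IsBigO.of_bound 1 (Eventually.of_forall fun τ => ?_)
      simpa using Her.norm_qParam_pow_mul_inv_le a e b ha he τ
    have h4 : IsBoundedAtImInfty _ := (h1.mul h2).mul h3
    have h5 : (fun τ => Δ τ ^ a / Δ (affH a e b ha he τ)) =
        (((fun τ : ℍ => (∏' n, (1 - eta_q n τ) ^ 24) ^ a) * fun τ : ℍ =>
          (∏' n, (1 - eta_q n (affH a e b ha he τ)) ^ 24)⁻¹) *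
        fun τ : ℍ => Function.Periodic.qParam 1 (τ : ℂ) ^ a *
          (Function.Periodic.qParam 1 (affH a e b ha he τ : ℂ))⁻¹) := by
      funext τ
      simp only [Pi.mul_apply]
      rw [discriminant_eq_q_prod, discriminant_eq_q_prod, mul_pow, div_eq_mul_inv, mul_inv]
      ring
    rw [h5]
    exact h4

/-- the growth lemma. -/
theorem isHB_of_isNice {N : ℝ} {F : ℍ → ℂ} {m : ℕ} (hF : IsNice N (fun τ => Δ τ ^ m * F τ))
    (a e : ℕ) (b : ℤ) (ha : 0 < a) (he : 0 < e) :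
    IsHB (fun τ => Δ τ ^ (a * m) * F (affH a e b ha he τ)) := by
  have h1 : IsHB (fun τ => Δ τ ^ m * F τ) := ⟨hF.holo, hF.bdd⟩
  have h2 := (h1.comp_affH a e b ha he).mul ((isHB_discriminant_ratio a e b ha he).pow m)
  convert h2 using 1
  funext τ
  simp only [Pi.mul_apply, Pi.pow_apply]
  have hne : Δ (affH a e b ha he τ) ≠ 0 := discriminant_ne_zero _
  rw [div_pow, pow_mul]
  field_simp

theorem exists_isHB_hAct (M ℓ : ℕ) [NeZero ℓ] (a : MerMod M) (δ : SL(2, ℤ))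
    (j : Option (Fin ℓ)) : ∃ m : ℕ, IsHB (fun τ => Δ τ ^ m * a.1 (δ • hAct ℓ j τ)) := by
  obtain ⟨m, hm⟩ := a.2 δ
  cases j with
  | none => exact ⟨_, isHB_of_isNice hm ℓ 1 0 (Nat.pos_of_ne_zero (NeZero.ne ℓ)) one_pos⟩
  | some b =>
    exact ⟨_, isHB_of_isNice hm 1 ℓ ((b : ℕ) : ℤ) one_pos (Nat.pos_of_ne_zero (NeZero.ne ℓ))⟩

theorem exists_isHB_prod {ι : Type*} (s : Finset ι) (f : ι → ℍ → ℂ)
    (h : ∀ i ∈ s, ∃ m : ℕ, IsHB (fun τ => Δ τ ^ m * f i τ)) :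
    ∃ m : ℕ, IsHB (fun τ => Δ τ ^ m * ∏ i ∈ s, f i τ) := by
  classical
  induction s using Finset.induction_on with
  | empty => exact ⟨0, by simpa using IsHB.one⟩
  | insert i s hi ih =>
    obtain ⟨m₁, h₁⟩ := h i (Finset.mem_insert_self i s)
    obtain ⟨m₂, h₂⟩ := ih fun k hk => h k (Finset.mem_insert_of_mem hk)
    refine ⟨m₁ + m₂, ?_⟩
    convert h₁.mul h₂ using 1
    funext τ
    simp only [Pi.mul_apply, Finset.prod_insert hi, pow_add]
    ring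

theorem heckeFun_mem (M n ℓ : ℕ) [NeZero M] [NeZero n] [NeZero ℓ] (hℓ : ℓ.Prime) (hℓM : ¬ ℓ ∣ M)
    (a : MerMod M) (P : HPar M n) (ha : IsCharFun M n a P) : heckeFun ℓ a.1 ∈ MerMod M := by
  intro g
  have hdec : ∀ i : Option (Fin ℓ), ∃ (δ : SL(2, ℤ)) (j : Option (Fin ℓ)),
      ∀ τ : ℍ, hAct ℓ i (g • τ) = δ • hAct ℓ j τ := by
    intro i
    obtain ⟨δ, j, h⟩ := HK.exists_hermite hℓ (heckeRep ℓ i * (g : Matrix (Fin 2) (Fin 2) ℤ))
      (by rw [Matrix.det_mul, HK.det_heckeRep, Matrix.SpecialLinearGroup.det_coe, mul_one])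
    exact ⟨δ, j, hAct_smul ℓ h⟩
  obtain ⟨m, hm⟩ := exists_isHB_prod Finset.univ (fun i τ => a.1 (hAct ℓ i (g • τ))) (by
    intro i _
    obtain ⟨δ, j, h⟩ := hdec i
    obtain ⟨m, hm⟩ := exists_isHB_hAct M ℓ a δ j
    exact ⟨m, by simpa only [h] using hm⟩)
  have heq : (fun τ => Δ τ ^ m * heckeFun ℓ a.1 (g • τ)) =
      fun τ => Δ τ ^ m * ∏ i : Option (Fin ℓ), a.1 (hAct ℓ i (g • τ)) := by
    funext τ
    rw [heckeFun_eq_prod]
  refine ⟨m, ?_, ?_, ?_⟩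
  · apply Her.periodic_of_vadd
    intro τ
    have hΔ : Δ ((M : ℝ) +ᵥ τ) = Δ τ := Her.vadd_of_periodic (isNice_discriminant M).per τ
    have hmem := conj_T_zpow_mem_Gamma0 M g
    have hsm : g • ((M : ℝ) +ᵥ τ) =
        ((⟨g * ModularGroup.T ^ (M : ℤ) * g⁻¹, hmem⟩ : Gamma0 M) : SL(2, ℤ)) • (g • τ) := by
      have h1 : ((M : ℝ) +ᵥ τ) = ModularGroup.T ^ (M : ℤ) • τ := by
        rw [UpperHalfPlane.modular_T_zpow_smul]
        simp
      rw [h1]
      simp only [mul_smul, inv_smul_smul]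
    have hpar : heckeCoh M ℓ (P : Additive (Gamma0 M) →+ ZMod n)
        (Additive.ofMul (⟨g * ModularGroup.T ^ (M : ℤ) * g⁻¹, hmem⟩ : Gamma0 M)) = 0 := by
      apply heckeCoh_isParabolicHom M ℓ hℓ hℓM _ (Period.mem_parabolicHoms_iff.mp P.2)
      show ((g * ModularGroup.T ^ (M : ℤ) * g⁻¹ : SL(2, ℤ)) :
        Matrix (Fin 2) (Fin 2) ℤ).trace ^ 2 = 4
      rw [(conj_T_zpow_entries g M).2]
      norm_num
    show Δ ((M : ℝ) +ᵥ τ) ^ m * heckeFun ℓ a.1 (g • ((M : ℝ) +ᵥ τ)) =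
      Δ τ ^ m * heckeFun ℓ a.1 (g • τ)
    rw [hΔ, hsm, heckeFun_smul M n ℓ hℓ hℓM a P ha, hpar, eN_zero, one_mul]
  · rw [heq]; exact hm.holo
  · rw [heq]; exact hm.bdd

end Fermat.Agent.GAL.AN
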