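import Fermat.Agent.GAL.AN.Defs
import Fermat.Agent.GAL.ESR.Norm

/-! # GAL / AN-8c : the `q`-expansion of `heckeFun ℓ a` is `heckeS ℂ ℓ` of the `q`-expansion of `a` -/

set_option autoImplicit false

open ModularCurve AlgebraicCurve CongruenceSubgroup UpperHalfPlane IntermediateField
open Fermat.Agent.S24
open scoped MatrixGroups Manifold

noncomputable section

namespace Fermat.Agent.GAL.AN

local notation "Δ" => ModularForm.discriminant
local notation "𝕢" => Function.Periodic.qParam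

/-! ## change of period -/

/-- comparison of the `N`- and the `N K`-expansion of a nice function of period `N`. -/
theorem lamQ_mul_nat (N K : ℕ) [NeZero N] [NeZero K] {f : ℍ → ℂ} (hf : IsNice N f) :
    lamQ (N * K) f = qExpand ℂ K (lamQ N f) := by
  have hK : 0 < K := Nat.pos_of_ne_zero (NeZero.ne K)
  have hN : (0 : ℝ) < N := natCast_pos_of_neZero N
  have key : ∀ n : ℕ, (qExpansion ((N * K : ℕ) : ℝ) f).coeff n =
      if K ∣ n then (qExpansion N f).coeff (n / K) else 0 := by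
    intro n
    have := UpperHalfPlane.qExpansion_coeff_nat_mul hN hf.per hf.holo hf.bdd hK n
    have e : ((N * K : ℕ) : ℝ) = (K : ℝ) * (N : ℝ) := by push_cast; ring
    rwa [← e] at this
  unfold lamQ
  ext k
  by_cases hdvd : (K : ℤ) ∣ k
  · obtain ⟨m, rfl⟩ := hdvd
    rw [qExpand_coeff_mul]
    rcases le_or_gt 0 m with hm | hm
    · lift m to ℕ using hm
      rw [HahnSeries.ofPowerSeries_apply_coeff]
      have : (K : ℤ) * (m : ℤ) = ((K * m : ℕ) : ℤ) := by push_cast; ring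
      rw [this, HahnSeries.ofPowerSeries_apply_coeff, key,
        if_pos (Dvd.intro _ rfl), Nat.mul_div_cancel_left _ hK]
    · rw [ofPowerSeries_coeff_of_neg _ hm, ofPowerSeries_coeff_of_neg]
      exact mul_neg_of_pos_of_neg (by exact_mod_cast hK) hm
  · rw [qExpand_coeff_of_not_dvd _ _ hdvd]
    rcases le_or_gt 0 k with hk | hk
    · lift k to ℕ using hk
      rw [HahnSeries.ofPowerSeries_apply_coeff, key, if_neg]
      intro h
      exact hdvd (by exact_mod_cast h)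
    · exact ofPowerSeries_coeff_of_neg _ hk

theorem isNice_mul_nat {N : ℕ} {f : ℍ → ℂ} (hf : IsNice N f) (K : ℕ) :
    IsNice ((N * K : ℕ) : ℝ) f := by
  have := hf.of_nat_mul K
  have e : ((N * K : ℕ) : ℝ) = (K : ℝ) * (N : ℝ) := by push_cast; ring
  rwa [← e] at this

/-- the defining property of `Lam`. -/
theorem lamQ_pow_mul_Lam {N : ℕ} [NeZero N] (f : MerInf N) {m : ℕ}
    (hm : IsNice N (fun τ => Δ τ ^ m * f.1 τ)) :
    lamQ N Δ ^ m * Lam N f = lamQ N (fun τ => Δ τ ^ m * f.1 τ) := by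
  obtain ⟨D, hD⟩ : ∃ D : MerInf N, D.1 = Δ := ⟨⟨_, (isNice_discriminant N).mem_MerInf⟩, rfl⟩
  obtain ⟨G, hG⟩ : ∃ G : MerInf N, G.1 = fun τ => Δ τ ^ m * f.1 τ := ⟨⟨_, hm.mem_MerInf⟩, rfl⟩
  have hmul : D ^ m * f = G := by
    apply Subtype.ext
    funext τ
    have : (D ^ m * f).1 τ = D.1 τ ^ m * f.1 τ := rfl
    rw [this, hD, hG]
  have hLD : Lam N D = lamQ N Δ := by
    rw [Lam_of_isNice N D (by rw [hD]; exact isNice_discriminant N), hD]; rfl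
  have hLG : Lam N G = lamQ N (fun τ => Δ τ ^ m * f.1 τ) := by
    rw [Lam_of_isNice N G (by rw [hG]; exact hm), hG]; rfl
  rw [← hLD, ← hLG, ← hmul, map_mul, map_pow]

theorem MerInf_le_mul (N K : ℕ) : MerInf N ≤ MerInf (N * K) := by
  rintro f ⟨m, hm⟩
  exact ⟨m, isNice_mul_nat hm K⟩

/-- raising the level. -/
theorem Lam_mul_nat (N K : ℕ) [NeZero N] [NeZero K] (f : MerInf N) :
    Lam (N * K) ⟨f.1, MerInf_le_mul N K f.2⟩ = qExpand ℂ K (Lam N f) := by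
  obtain ⟨m, hm⟩ := f.2
  have h1 := lamQ_pow_mul_Lam f hm
  have h2 := lamQ_pow_mul_Lam (N := N * K) ⟨f.1, MerInf_le_mul N K f.2⟩ (isNice_mul_nat hm K)
  rw [lamQ_mul_nat N K hm, lamQ_mul_nat N K (isNice_discriminant N), ← h1, map_mul, map_pow] at h2
  have h0 : qExpand ℂ K (lamQ N Δ) ≠ 0 := by
    rw [Ne, map_eq_zero_iff _ (qExpand ℂ K).injective]
    exact lamQ_discriminant_ne_zero N
  exact mul_left_cancel₀ (pow_ne_zero m h0) h2

/-! ## descent of the period -/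

theorem qParam_vadd_one_pow (M : ℕ) [NeZero M] (τ : ℍ) (k : ℕ) :
    𝕢 (M : ℝ) (((1 : ℝ) +ᵥ τ : ℍ) : ℂ) ^ (M * k) = 𝕢 (M : ℝ) (τ : ℂ) ^ (M * k) := by
  have hM : (M : ℂ) ≠ 0 := by exact_mod_cast NeZero.ne M
  rw [pow_mul, pow_mul]
  congr 1
  simp only [Function.Periodic.qParam, ← Complex.exp_nat_mul, UpperHalfPlane.coe_vadd]
  have : (M : ℂ) * (2 * (Real.pi : ℂ) * Complex.I * (((1 : ℝ) : ℂ) + (τ : ℂ)) / ((M : ℝ) : ℂ))
      = (M : ℂ) * (2 * (Real.pi : ℂ) * Complex.I * (τ : ℂ) / ((M : ℝ) : ℂ))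
        + 2 * (Real.pi : ℂ) * Complex.I := by
    push_cast
    field_simp
    ring
  rw [this, Complex.exp_add, Complex.exp_two_pi_mul_I, mul_one]

/-- a nice function of period `M` whose `Q`-expansion is a series in `Q^M` has period `1`. -/
theorem isNice_one_of_lamQ_eq {M : ℕ} [NeZero M] {g : ℍ → ℂ} (hg : IsNice M g)
    {B : LaurentSeries ℂ} (hB : lamQ M g = qExpand ℂ M B) : IsNice 1 g := by
  have hM : (0 : ℝ) < M := natCast_pos_of_neZero M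
  have hc : ∀ n : ℕ, ¬ M ∣ n → (qExpansion M g).coeff n = 0 := by
    intro n hn
    have h1 := congrArg (fun S : LaurentSeries ℂ => S.coeff (n : ℤ)) hB
    simp only [lamQ, HahnSeries.ofPowerSeries_apply_coeff] at h1
    rw [h1, qExpand_coeff_of_not_dvd]
    intro h
    exact hn (by exact_mod_cast h)
  refine ⟨?_, hg.holo, hg.bdd⟩
  have key : ∀ τ : ℍ, g ((1 : ℝ) +ᵥ τ) = g τ := by
    intro τ
    have h1 := hasSum_qExpansion hM hg.per hg.holo hg.bdd ((1 : ℝ) +ᵥ τ)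
    have h2 := hasSum_qExpansion hM hg.per hg.holo hg.bdd τ
    have h3 : (fun m : ℕ => (qExpansion M g).coeff m • 𝕢 (M : ℝ) (((1 : ℝ) +ᵥ τ : ℍ) : ℂ) ^ m)
        = fun m : ℕ => (qExpansion M g).coeff m • 𝕢 (M : ℝ) (τ : ℂ) ^ m := by
      funext m
      by_cases hm : M ∣ m
      · obtain ⟨k, rfl⟩ := hm
        rw [qParam_vadd_one_pow]
      · rw [hc m hm, zero_smul, zero_smul]
    rw [h3] at h1
    exact h1.unique h2
  exact Her.periodic_of_vadd key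

theorem lamQ_one_of_lamQ_eq {M : ℕ} [NeZero M] {g : ℍ → ℂ} (hg : IsNice M g)
    {B : LaurentSeries ℂ} (hB : lamQ M g = qExpand ℂ M B) : lamQ 1 g = B := by
  have h1 : IsNice ((1 : ℕ) : ℝ) g := by
    simpa using isNice_one_of_lamQ_eq hg hB
  have h2 := lamQ_mul_nat 1 M h1
  rw [one_mul, hB] at h2
  exact ((qExpand ℂ M).injective h2).symm

/-! ## the maps `τ ↦ (τ + b)/ℓ` -/

theorem im_add_div_pos (ℓ : ℕ) [NeZero ℓ] (b : ℕ) {w : ℂ} (hw : 0 < w.im) :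
    0 < ((w + (b : ℕ)) / (ℓ : ℂ)).im := by
  have hl : (0 : ℝ) < ℓ := by exact_mod_cast Nat.pos_of_ne_zero (NeZero.ne ℓ)
  have h1 : ((w + (b : ℕ)) / (ℓ : ℂ)).im = w.im / ℓ := by
    have : (w + (b : ℕ)) / (ℓ : ℂ) = ((w + (b : ℕ)) / ((ℓ : ℝ) : ℂ)) := by simp
    rw [this, Complex.div_ofReal_im]
    simp
  rw [h1]
  exact div_pos hw hl

/-- `τ ↦ (τ + b)/ℓ`. -/
def divH (ℓ : ℕ) [NeZero ℓ] (b : ℕ) (τ : ℍ) : ℍ :=
  ⟨((τ : ℂ) + (b : ℕ)) / (ℓ : ℂ), im_add_div_pos ℓ b τ.im_pos⟩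

@[simp] theorem coe_divH (ℓ : ℕ) [NeZero ℓ] (b : ℕ) (τ : ℍ) :
    (divH ℓ b τ : ℂ) = ((τ : ℂ) + (b : ℕ)) / (ℓ : ℂ) := rfl

theorem heckeFun_apply (ℓ : ℕ) [NeZero ℓ] (f : ℍ → ℂ) (τ : ℍ) :
    heckeFun ℓ f τ = f (scaleH ℓ τ) * ∏ b : Fin ℓ, f (divH ℓ b τ) := rfl

theorem im_divH (ℓ : ℕ) [NeZero ℓ] (b : ℕ) (τ : ℍ) : (divH ℓ b τ).im = τ.im / ℓ := by
  change (((τ : ℂ) + (b : ℕ)) / (ℓ : ℂ)).im = τ.im / ℓ
  have : ((τ : ℂ) + (b : ℕ)) / (ℓ : ℂ) = (((τ : ℂ) + (b : ℕ)) / ((ℓ : ℝ) : ℂ)) := by simp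
  rw [this, Complex.div_ofReal_im]
  simp

theorem divH_ofComplex (ℓ : ℕ) [NeZero ℓ] (b : ℕ) {w : ℂ} (hw : 0 < w.im) :
    divH ℓ b (ofComplex w) = ofComplex ((w + (b : ℕ)) / (ℓ : ℂ)) := by
  rw [ofComplex_apply_of_im_pos hw, ofComplex_apply_of_im_pos (im_add_div_pos ℓ b hw)]
  rfl

theorem divH_vadd (ℓ : ℕ) [NeZero ℓ] (b : ℕ) (τ : ℍ) :
    divH ℓ b ((ℓ : ℝ) +ᵥ τ) = (1 : ℝ) +ᵥ divH ℓ b τ := by
  have hl : (ℓ : ℂ) ≠ 0 := by exact_mod_cast NeZero.ne ℓ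
  apply UpperHalfPlane.ext
  simp only [coe_divH, UpperHalfPlane.coe_vadd]
  push_cast
  field_simp
  ring

theorem isNice_comp_divH (ℓ : ℕ) [NeZero ℓ] (b : ℕ) {F : ℍ → ℂ} (hF : IsNice 1 F) :
    IsNice ℓ (fun τ => F (divH ℓ b τ)) where
  per := by
    apply Her.periodic_of_vadd
    intro τ
    show F (divH ℓ b ((ℓ : ℝ) +ᵥ τ)) = F (divH ℓ b τ)
    rw [divH_vadd]
    exact Her.vadd_of_periodic hF.per _
  holo := by
    rw [UpperHalfPlane.mdifferentiable_iff]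
    have h1 := UpperHalfPlane.mdifferentiable_iff.mp hF.holo
    have h2 : DifferentiableOn ℂ ((F ∘ ofComplex) ∘ fun w : ℂ => (w + (b : ℕ)) / (ℓ : ℂ))
        {z | 0 < z.im} := by
      refine h1.comp (by fun_prop) ?_
      intro z hz
      exact im_add_div_pos ℓ b hz
    refine h2.congr ?_
    intro z hz
    simp only [Function.comp_apply]
    rw [divH_ofComplex ℓ b hz]
  bdd := by
    have hl : (0 : ℝ) < ℓ := by exact_mod_cast Nat.pos_of_ne_zero (NeZero.ne ℓ)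
    obtain ⟨C, A, h⟩ := UpperHalfPlane.isBoundedAtImInfty_iff.mp hF.bdd
    refine UpperHalfPlane.isBoundedAtImInfty_iff.mpr ⟨C, A * ℓ, fun z hz => h _ ?_⟩
    rw [im_divH, le_div_iff₀ hl]
    exact hz

/-- `exp (2πi/ℓ)` as a unit. -/
def zetaU (ℓ : ℕ) : ℂˣ := Units.mk0 (Complex.exp (2 * Real.pi * Complex.I / ℓ)) (Complex.exp_ne_zero _)

theorem isPrimitiveRoot_zetaU (ℓ : ℕ) [NeZero ℓ] : IsPrimitiveRoot (zetaU ℓ) ℓ :=
  IsPrimitiveRoot.coe_units_iff.mp (Complex.isPrimitiveRoot_exp ℓ (NeZero.ne ℓ))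

theorem qParam_divH (ℓ : ℕ) [NeZero ℓ] (b : ℕ) (τ : ℍ) :
    𝕢 1 (divH ℓ b τ : ℂ) = ((zetaU ℓ ^ b : ℂˣ) : ℂ) * 𝕢 (ℓ : ℝ) (τ : ℂ) := by
  have hl : (ℓ : ℂ) ≠ 0 := by exact_mod_cast NeZero.ne ℓ
  rw [Units.val_pow_eq_pow_val]
  simp only [zetaU, Units.val_mk0, Function.Periodic.qParam, coe_divH, ← Complex.exp_nat_mul,
    ← Complex.exp_add]
  congr 1
  push_cast
  field_simp
  ring

theorem qExpansion_comp_divH (ℓ : ℕ) [NeZero ℓ] (b : ℕ) {F : ℍ → ℂ} (hF : IsNice 1 F) (m : ℕ) :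
    (qExpansion (ℓ : ℝ) (fun τ => F (divH ℓ b τ))).coeff m
      = ((zetaU ℓ ^ b : ℂˣ) : ℂ) ^ m * (qExpansion 1 F).coeff m := by
  have hl : (0 : ℝ) < ℓ := natCast_pos_of_neZero ℓ
  have hg := isNice_comp_divH ℓ b hF
  have han : AnalyticAt ℂ (cuspFunction (ℓ : ℝ) (fun τ => F (divH ℓ b τ))) 0 :=
    analyticAt_cuspFunction_zero hl hg.per hg.holo hg.bdd
  have hsum : ∀ τ : ℍ, HasSum (fun m ↦ (((zetaU ℓ ^ b : ℂˣ) : ℂ) ^ m * (qExpansion 1 F).coeff m) •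
      𝕢 (ℓ : ℝ) (τ : ℂ) ^ m) (F (divH ℓ b τ)) := by
    intro τ
    have h1 := hasSum_qExpansion one_pos hF.per hF.holo hF.bdd (divH ℓ b τ)
    rw [qParam_divH] at h1
    convert h1 using 2 with m
    simp only [smul_eq_mul, mul_pow]
    ring
  exact (UpperHalfPlane.qExpansion_coeff_unique (F := ScaleFnLike)
    (show ScaleFnLike from fun τ => F (divH ℓ b τ)) hl han hsum m).symm

theorem lamQ_comp_divH (ℓ : ℕ) [NeZero ℓ] (b : ℕ) {F : ℍ → ℂ} (hF : IsNice 1 F) :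
    lamQ ℓ (fun τ => F (divH ℓ b τ)) = GR.qScale (zetaU ℓ ^ b) (lamQ 1 F) := by
  ext k
  rw [GR.qScale_coeff]
  unfold lamQ
  rcases le_or_gt 0 k with hk | hk
  · lift k to ℕ using hk
    rw [HahnSeries.ofPowerSeries_apply_coeff, HahnSeries.ofPowerSeries_apply_coeff,
      qExpansion_comp_divH ℓ b hF, zpow_natCast, Units.val_pow_eq_pow_val]
    simp
  · rw [ofPowerSeries_coeff_of_neg _ hk, ofPowerSeries_coeff_of_neg _ hk, mul_zero]

/-! ## finite products of nice functions -/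

theorem isNice_prod {h : ℝ} {ι : Type*} (s : Finset ι) (f : ι → ℍ → ℂ)
    (hf : ∀ i ∈ s, IsNice h (f i)) : IsNice h (∏ i ∈ s, f i) := by
  classical
  induction s using Finset.induction_on with
  | empty =>
    rw [Finset.prod_empty]
    exact IsNice.const h 1
  | insert i s hi ih =>
    rw [Finset.prod_insert hi]
    exact (hf i (Finset.mem_insert_self i s)).mul
      (ih fun j hj => hf j (Finset.mem_insert_of_mem hj))

theorem lamQ_prod {N : ℕ} [NeZero N] {ι : Type*} (s : Finset ι) (f : ι → ℍ → ℂ)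
    (hf : ∀ i ∈ s, IsNice N (f i)) : lamQ N (∏ i ∈ s, f i) = ∏ i ∈ s, lamQ N (f i) := by
  classical
  induction s using Finset.induction_on with
  | empty => simpa using lamQ_one N
  | insert i s hi ih =>
    rw [Finset.prod_insert hi, Finset.prod_insert hi,
      lamQ_mul (hf i (Finset.mem_insert_self i s))
        (isNice_prod s f fun j hj => hf j (Finset.mem_insert_of_mem hj)),
      ih fun j hj => hf j (Finset.mem_insert_of_mem hj)]

/-! ## the Hecke operator on nice functions of period one -/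

theorem heckeFun_eq_mul_prod (ℓ : ℕ) [NeZero ℓ] (f : ℍ → ℂ) :
    heckeFun ℓ f = (fun τ => f (scaleH ℓ τ)) *
      ∏ b ∈ Finset.range ℓ, (fun τ => f (divH ℓ b τ)) := by
  funext τ
  rw [heckeFun_apply, Pi.mul_apply, Finset.prod_apply,
    ← Fin.prod_univ_eq_prod_range (fun b => f (divH ℓ b τ)) ℓ]

theorem heckeFun_mul (ℓ : ℕ) [NeZero ℓ] (f g : ℍ → ℂ) :
    heckeFun ℓ (f * g) = heckeFun ℓ f * heckeFun ℓ g := by
  funext τ
  simp only [heckeFun_apply, Pi.mul_apply, Finset.prod_mul_distrib]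
  ring

theorem heckeFun_pow (ℓ : ℕ) [NeZero ℓ] (f : ℍ → ℂ) (m : ℕ) :
    heckeFun ℓ (f ^ m) = heckeFun ℓ f ^ m := by
  funext τ
  simp only [heckeFun_apply, Pi.pow_apply, Finset.prod_pow, mul_pow]

theorem isNice_comp_divH_mul (M ℓ : ℕ) [NeZero ℓ] (b : ℕ) {F : ℍ → ℂ} (hF : IsNice 1 F) :
    IsNice ((M * ℓ : ℕ) : ℝ) (fun τ => F (divH ℓ b τ)) := by
  rw [Nat.mul_comm]
  exact isNice_mul_nat (isNice_comp_divH ℓ b hF) M

theorem isNice_heckeFun (M ℓ : ℕ) [NeZero M] [NeZero ℓ] {F : ℍ → ℂ} (hF : IsNice 1 F) :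
    IsNice ((M * ℓ : ℕ) : ℝ) (heckeFun ℓ F) := by
  rw [heckeFun_eq_mul_prod]
  exact (isNice_comp_scaleH (M * ℓ) ℓ hF).mul
    (isNice_prod _ _ fun b _ => isNice_comp_divH_mul M ℓ b hF)

theorem lamQ_one_eq (F : ℍ → ℂ) :
    lamQ 1 F = HahnSeries.ofPowerSeries ℤ ℂ (qExpansion 1 F) := by
  unfold lamQ
  rw [Nat.cast_one]

theorem lamQ_heckeFun (M ℓ : ℕ) [NeZero M] [NeZero ℓ] {F : ℍ → ℂ} (hF : IsNice 1 F) :
    lamQ (M * ℓ) (heckeFun ℓ F) = qExpand ℂ M (qExpand ℂ ℓ (heckeS ℂ ℓ (lamQ 1 F))) := by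
  rw [heckeFun_eq_mul_prod, lamQ_mul (isNice_comp_scaleH (M * ℓ) ℓ hF)
    (isNice_prod _ _ fun b _ => isNice_comp_divH_mul M ℓ b hF),
    lamQ_prod _ _ fun b _ => isNice_comp_divH_mul M ℓ b hF]
  have h1 : lamQ (M * ℓ) (fun τ => F (scaleH ℓ τ))
      = qExpand ℂ M (qExpand ℂ ℓ (qExpand ℂ ℓ (lamQ 1 F))) := by
    rw [qExpand_qExpand, qExpand_qExpand, lamQ_one_eq]
    exact ofPowerSeries_qExpansion_comp_scaleH (M * ℓ) ℓ hF
  have h2 : ∀ b ∈ Finset.range ℓ, lamQ (M * ℓ) (fun τ => F (divH ℓ b τ))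
      = qExpand ℂ M (GR.qScale (zetaU ℓ ^ b) (lamQ 1 F)) := by
    intro b _
    rw [Nat.mul_comm, lamQ_mul_nat ℓ M (isNice_comp_divH ℓ b hF), lamQ_comp_divH ℓ b hF]
  rw [h1, Finset.prod_congr rfl h2, ← map_prod, heckeS_apply, map_mul (qExpand ℂ ℓ),
    qExpand_NmL ℓ (isPrimitiveRoot_zetaU ℓ), map_mul (qExpand ℂ M)]
  rfl

/-! ## the theorem -/

theorem LamM_heckeFun (M ℓ : ℕ) [NeZero M] [NeZero ℓ] (hℓ : ℓ.Prime)
    (a : MerMod M) (A : LaurentSeries ℂ) (hA : LamM M a = kapC M A)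
    (hmem : heckeFun ℓ a.1 ∈ MerMod M) :
    LamM M ⟨heckeFun ℓ a.1, hmem⟩ = kapC M (heckeS ℂ ℓ A) := by
  obtain ⟨m, hm⟩ := a.2 1
  simp only [one_smul] at hm
  set G : ℍ → ℂ := fun τ => Δ τ ^ m * a.1 τ with hG
  -- `G` has period one, with expansion `D^m A`
  have hGM : lamQ M G = qExpand ℂ M (lamQ 1 Δ ^ m * A) := by
    have h1 := lamQ_pow_mul_Lam (Subalgebra.inclusion (MerMod_le_MerInf M) a) hm
    have h2 : Lam M (Subalgebra.inclusion (MerMod_le_MerInf M) a) = kapC M A := hA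
    have h3 : lamQ M Δ = qExpand ℂ M (lamQ 1 Δ) := by
      have := lamQ_mul_nat 1 M (f := Δ) (by simpa using isNice_discriminant_one)
      rwa [one_mul] at this
    rw [h2, h3] at h1
    rw [map_mul, map_pow]
    exact h1.symm
  have hG1 : IsNice 1 G := isNice_one_of_lamQ_eq hm hGM
  have hGA : lamQ 1 G = lamQ 1 Δ ^ m * A := lamQ_one_of_lamQ_eq hm hGM
  -- the identity of functions
  have hfun : heckeFun ℓ Δ ^ m * heckeFun ℓ a.1 = heckeFun ℓ G := by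
    rw [← heckeFun_pow, ← heckeFun_mul]
    rfl
  -- everything at level `M ℓ`
  have hT : heckeFun ℓ a.1 ∈ MerInf M := MerMod_le_MerInf M hmem
  obtain ⟨T, hTdef⟩ : ∃ T : MerInf (M * ℓ), T.1 = heckeFun ℓ a.1 :=
    ⟨⟨_, MerInf_le_mul M ℓ hT⟩, rfl⟩
  obtain ⟨HD, hHD⟩ : ∃ D : MerInf (M * ℓ), D.1 = heckeFun ℓ Δ :=
    ⟨⟨_, (isNice_heckeFun M ℓ isNice_discriminant_one).mem_MerInf⟩, rfl⟩
  obtain ⟨HG, hHG⟩ : ∃ D : MerInf (M * ℓ), D.1 = heckeFun ℓ G :=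
    ⟨⟨_, (isNice_heckeFun M ℓ hG1).mem_MerInf⟩, rfl⟩
  have hmul : HD ^ m * T = HG := by
    apply Subtype.ext
    have : (HD ^ m * T).1 = HD.1 ^ m * T.1 := rfl
    rw [this, hHD, hTdef, hHG, hfun]
  have hLD : Lam (M * ℓ) HD = qExpand ℂ M (qExpand ℂ ℓ (heckeS ℂ ℓ (lamQ 1 Δ))) := by
    rw [Lam_of_isNice (M * ℓ) HD (by rw [hHD]; exact isNice_heckeFun M ℓ isNice_discriminant_one),
      hHD]
    exact lamQ_heckeFun M ℓ isNice_discriminant_one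
  have hLG : Lam (M * ℓ) HG = qExpand ℂ M (qExpand ℂ ℓ (heckeS ℂ ℓ (lamQ 1 G))) := by
    rw [Lam_of_isNice (M * ℓ) HG (by rw [hHG]; exact isNice_heckeFun M ℓ hG1), hHG]
    exact lamQ_heckeFun M ℓ hG1
  have hD0 : Lam (M * ℓ) HD ≠ 0 := by
    intro h0
    have hD00 : HD = 0 := Lam_injective (M * ℓ) (by rw [h0, map_zero])
    have h1 : HD.1 UpperHalfPlane.I = 0 := by rw [hD00]; rfl
    rw [hHD, heckeFun_apply] at h1
    rcases mul_eq_zero.mp h1 with h1 | h1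
    · exact ModularForm.discriminant_ne_zero _ h1
    · obtain ⟨b, -, hb⟩ := Finset.prod_eq_zero_iff.mp h1
      exact ModularForm.discriminant_ne_zero _ hb
  have hLT : Lam (M * ℓ) T = qExpand ℂ M (qExpand ℂ ℓ (heckeS ℂ ℓ A)) := by
    have h1 := congrArg (Lam (M * ℓ)) hmul
    rw [map_mul, map_pow, hLG, hGA, map_mul, map_pow, map_mul, map_pow, map_mul, map_pow,
      ← hLD] at h1
    exact mul_left_cancel₀ (pow_ne_zero m hD0) h1
  have hraise := Lam_mul_nat M ℓ ⟨heckeFun ℓ a.1, hT⟩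
  have hTeq : T = ⟨heckeFun ℓ a.1, MerInf_le_mul M ℓ hT⟩ := Subtype.ext hTdef
  rw [← hTeq, hLT, qExpand_qExpand, qExpand_congr (mul_comm M ℓ), ← qExpand_qExpand] at hraise
  exact ((qExpand ℂ ℓ).injective hraise).symm

end Fermat.Agent.GAL.AN
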