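import Fermat.Agent.GAL.AN.Defs

/-!
# GAL / AN / package AN-5 : the function field `FL ℂ M` inside `LL M`

`PsiC M : FL ℂ M →ₐ[ℂ] LL M` with `LamL M (PsiC M x) = qExpand ℂ M x`, its conjugates `phiC M i`,
`IsFF1 ℂ (FL ℂ M)` and `[FL ℂ M : ℂ(j)] = [SL(2,ℤ) : Γ₀(M)]`.
(The `ℂ`-version of `S24/Mod/Psi.lean` and `S24/Mod/Degree.lean`.)
-/

set_option autoImplicit false

open UpperHalfPlane ModularForm Function ModularCurve IntermediateField CongruenceSubgroup
open scoped Manifold MatrixGroups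
open Fermat.Agent.S24

noncomputable section

namespace Fermat.Agent.GAL.AN

/-! ### generators of `FL L M` -/

/-- `j(q^d)` as a Laurent series over `L`. -/
def JdS (L : Type*) [Field L] [Algebra ℚ L] (d : ℕ) [NeZero d] : LaurentSeries L :=
  coeffEmb L (qExpand ℚ d jq)

theorem JdS_mem (L : Type*) [Field L] [Algebra ℚ L] {M d : ℕ} [NeZero d] (hd : d ∣ M) :
    JdS L d ∈ FL L M :=
  coeffEmb_mem_laurentBaseChange L (jqd_mem_full M hd)

/-- `FL L M` is generated over `L` by the `j(q^d)`, `d ∣ M`. -/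
theorem FL_eq_adjoin (L : Type*) [Field L] [Algebra ℚ L] (M : ℕ) :
    FL L M = IntermediateField.adjoin L {x | ∃ (d : ℕ) (_ : NeZero d), d ∣ M ∧ x = JdS L d} := by
  apply le_antisymm
  · rw [FL, laurentBaseChange, IntermediateField.adjoin_le_iff]
    rintro _ ⟨x, hx, rfl⟩
    change x ∈ IntermediateField.adjoin ℚ (divisorExpansions M) at hx
    induction hx using IntermediateField.adjoin_induction with
    | mem y hy =>
      obtain ⟨d, hd0, hd, rfl⟩ := hy
      exact IntermediateField.subset_adjoin _ _ ⟨d, hd0, hd, rfl⟩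
    | algebraMap c =>
      have : coeffEmb L (algebraMap ℚ (LaurentSeries ℚ) c) = ((c : ℚ) : LaurentSeries L) := by
        rw [eq_ratCast, map_ratCast]
      rw [SetLike.mem_coe, this]
      exact SubfieldClass.ratCast_mem _ c
    | add x y _ _ hx hy =>
      rw [SetLike.mem_coe] at hx hy ⊢
      rw [map_add]
      exact add_mem hx hy
    | inv x _ hx =>
      rw [SetLike.mem_coe] at hx ⊢
      rw [map_inv₀]
      exact inv_mem hx
    | mul x y _ _ hx hy =>
      rw [SetLike.mem_coe] at hx hy ⊢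
      rw [map_mul]
      exact mul_mem hx hy
  · rw [IntermediateField.adjoin_le_iff]
    rintro _ ⟨d, hd0, hd, rfl⟩
    exact JdS_mem L hd

theorem coeffMap_JdS {L L' : Type*} [Field L] [Algebra ℚ L] [Field L'] [Algebra ℚ L']
    (φ : L →+* L') (d : ℕ) [NeZero d] : coeffMap φ (JdS L d) = JdS L' d := by
  rw [JdS, JdS, coeffEmb, coeffEmb, coeffMap_coeffMap]
  exact coeffMap_congr (RingHom.ext fun c => by simp) _

theorem coeffMap_algebraMap' {L L' : Type*} [Field L] [Field L'] (φ : L →+* L') (c : L) :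
    coeffMap φ (algebraMap L (LaurentSeries L) c) = algebraMap L' (LaurentSeries L') (φ c) := by
  rw [algebraMap_laurentSeries_eq_single, algebraMap_laurentSeries_eq_single, coeffMap_single]

/-- change of the constant field maps `FL L M` into `FL L' M`. -/
theorem coeffMap_mem_FL {L L' : Type*} [Field L] [Algebra ℚ L] [Field L'] [Algebra ℚ L']
    (φ : L →+* L') {M : ℕ} {x : LaurentSeries L} (hx : x ∈ FL L M) : coeffMap φ x ∈ FL L' M := by
  rw [FL_eq_adjoin] at hx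
  induction hx using IntermediateField.adjoin_induction with
  | mem y hy =>
    obtain ⟨d, hd0, hd, rfl⟩ := hy
    rw [coeffMap_JdS]
    exact JdS_mem L' hd
  | algebraMap c =>
    rw [coeffMap_algebraMap']
    exact (FL L' M).algebraMap_mem _
  | add x y _ _ hx hy => rw [map_add]; exact add_mem hx hy
  | inv x _ hx => rw [map_inv₀]; exact inv_mem hx
  | mul x y _ _ hx hy => rw [map_mul]; exact mul_mem hx hy

/-- `j(q^d)` as an element of `FL L M`. -/
def JdF (L : Type*) [Field L] [Algebra ℚ L] (M d : ℕ) [NeZero d] (hd : d ∣ M) : FL L M :=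
  ⟨JdS L d, JdS_mem L hd⟩

theorem jL_eq_JdS (L : Type*) [Field L] [Algebra ℚ L] : jL L = JdS L 1 := by
  rw [jL, JdS, qExpand_one_apply]

theorem jL_mem_FL (L : Type*) [Field L] [Algebra ℚ L] (M : ℕ) : jL L ∈ FL L M := by
  rw [jL_eq_JdS]
  exact JdS_mem L (one_dvd M)

/-- `j(q)` as an element of `FL L M`. -/
def JF (L : Type*) [Field L] [Algebra ℚ L] (M : ℕ) : FL L M := ⟨jL L, jL_mem_FL L M⟩

theorem JF_eq_JdF (L : Type*) [Field L] [Algebra ℚ L] (M : ℕ) :
    JF L M = JdF L M 1 (one_dvd M) := Subtype.ext (jL_eq_JdS L)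

/-- `j` in `FL ℂ M`. -/
def JC (M : ℕ) : FL ℂ M := ⟨jL ℂ, jL_mem_FL ℂ M⟩

theorem JC_eq_JF (M : ℕ) : JC M = JF ℂ M := rfl

theorem coeff_JF_neg_one (L : Type*) [Field L] [Algebra ℚ L] (M : ℕ) :
    ((JF L M : FL L M) : LaurentSeries L).coeff (-1) = 1 := by
  show (coeffEmb L jq).coeff (-1) = 1
  rw [coeffEmb_coeff, coeff_jq_neg_one, map_one]

theorem transcendental_JF (L : Type*) [Field L] [Algebra ℚ L] [IsAlgClosed L] (M : ℕ) :
    Transcendental L (JF L M) := by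
  apply FF.transcendental_of_not_mem_range
  rintro ⟨a, ha⟩
  have h1 := coeff_JF_neg_one L M
  rw [← ha] at h1
  have h2 : ((algebraMap L (FL L M) a : FL L M) : LaurentSeries L)
      = algebraMap L (LaurentSeries L) a := rfl
  rw [h2, algebraMap_laurentSeries_eq_single, HahnSeries.coeff_single_of_ne (by norm_num)] at h1
  exact zero_ne_one h1

theorem transcendental_JC (M : ℕ) : Transcendental ℂ (JC M) := transcendental_JF ℂ M

/-- the generators `j(q^d)`, `d ∣ M`, of `FL L M`. -/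
def genSetF (L : Type*) [Field L] [Algebra ℚ L] (M : ℕ) : Set (FL L M) :=
  {y | ∃ (d : ℕ) (_ : NeZero d) (hd : d ∣ M), y = JdF L M d hd}

theorem adjoin_genSetF (L : Type*) [Field L] [Algebra ℚ L] (M : ℕ) :
    adjoin L (genSetF L M) = ⊤ := by
  apply lift_injective
  rw [lift_adjoin, lift_top]
  have h : Subtype.val '' genSetF L M = {x | ∃ (d : ℕ) (_ : NeZero d), d ∣ M ∧ x = JdS L d} := by
    ext x
    constructor
    · rintro ⟨y, ⟨d, hd0, hd, rfl⟩, rfl⟩
      exact ⟨d, hd0, hd, rfl⟩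
    · rintro ⟨d, hd0, hd, rfl⟩
      exact ⟨JdF L M d hd, ⟨d, hd0, hd, rfl⟩, rfl⟩
  rw [h, ← FL_eq_adjoin]

theorem finite_genSetF (L : Type*) [Field L] [Algebra ℚ L] (M : ℕ) [NeZero M] :
    (genSetF L M).Finite := by
  classical
  have hfin : (Set.Iic M).Finite := Set.finite_Iic M
  let F : ℕ → FL L M := fun d => if h : d ∣ M ∧ d ≠ 0 then
    haveI : NeZero d := ⟨h.2⟩
    JdF L M d h.1 else 0
  refine (hfin.image F).subset ?_
  rintro y ⟨d, hd0, hd, rfl⟩
  refine ⟨d, Nat.le_of_dvd (Nat.pos_of_ne_zero (NeZero.ne M)) hd, ?_⟩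
  simp only [F]
  rw [dif_pos ⟨hd, NeZero.ne d⟩]

/-- two `L`-algebra maps out of `FL L M` agreeing on all `j(q^d)` agree. -/
theorem algHom_ext_FL {L : Type*} [Field L] [Algebra ℚ L] {M : ℕ} {E : Type*} [Field E]
    [Algebra L E] {f g : FL L M →ₐ[L] E}
    (h : ∀ (d : ℕ) [NeZero d] (hd : d ∣ M), f (JdF L M d hd) = g (JdF L M d hd)) : f = g := by
  refine IntermediateField.algHom_ext_of_eq_adjoin L (FL_eq_adjoin L M) ?_
  rintro _ ⟨d, hd0, hd, rfl⟩
  exact h d hd

/-! ### the embedding `PsiC` -/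

theorem qExpand_JdS (M d : ℕ) [NeZero M] [NeZero d] :
    qExpand ℂ M (JdS ℂ d) = qExpand ℂ (M * d) (jqModC ℂ) := by
  change qExpand ℂ M (coeffMap (algebraMap ℚ ℂ) (qExpand ℚ d jq)) = _
  rw [coeffMap_qExpand, qExpand_qExpand]
  congr 1
  exact map_jqModC (K := ℚ) (algebraMap ℚ ℂ)

theorem qExpand_JdS_eq_LamL (M d : ℕ) [NeZero M] [NeZero d] (hd : d ∣ M) :
    qExpand ℂ M (JdS ℂ d) = LamL M (algebraMap (MerMod M) (LL M) ⟨jD d, jD_mem_MerMod hd⟩) := by
  rw [qExpand_JdS, LamL_algebraMap]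
  exact (Lam_jD M d (MerMod_le_MerInf M (jD_mem_MerMod hd))).symm

theorem qExpand_algebraMap_eq_LamL (M : ℕ) [NeZero M] (c : ℂ) :
    qExpand ℂ M (algebraMap ℂ (LaurentSeries ℂ) c) = LamL M (algebraMap ℂ (LL M) c) := by
  rw [IsScalarTower.algebraMap_apply ℂ (MerMod M) (LL M), LamL_algebraMap, LamM_algebraMap,
    algebraMap_laurentSeries_eq_single, qExpand_single, mul_zero]
  rfl

theorem exists_PsiC (M : ℕ) [NeZero M] :
    ∃ Ψ : FL ℂ M →ₐ[ℂ] LL M, ∀ x, LamL M (Ψ x) = kapC M (x : LaurentSeries ℂ) := by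
  have hmem : ∀ x : FL ℂ M, ∃ y : LL M, LamL M y = qExpand ℂ M (x : LaurentSeries ℂ) := by
    rintro ⟨x, hx⟩
    have hx' := hx
    rw [FL_eq_adjoin] at hx'
    suffices H : ∃ y : LL M, LamL M y = qExpand ℂ M x from H
    clear hx
    induction hx' using IntermediateField.adjoin_induction with
    | mem y hy =>
      obtain ⟨d, hd0, hd, rfl⟩ := hy
      exact ⟨_, (qExpand_JdS_eq_LamL M d hd).symm⟩
    | algebraMap c => exact ⟨_, (qExpand_algebraMap_eq_LamL M c).symm⟩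
    | add x y _ _ hx hy =>
      obtain ⟨a, ha⟩ := hx
      obtain ⟨b, hb⟩ := hy
      exact ⟨a + b, by rw [RingHom.map_add, RingHom.map_add, ha, hb]⟩
    | inv x _ hx =>
      obtain ⟨a, ha⟩ := hx
      exact ⟨a⁻¹, by rw [map_inv₀, map_inv₀, ha]⟩
    | mul x y _ _ hx hy =>
      obtain ⟨a, ha⟩ := hx
      obtain ⟨b, hb⟩ := hy
      exact ⟨a * b, by rw [RingHom.map_mul, RingHom.map_mul, ha, hb]⟩
  choose Ψ hΨ using hmem
  exact ⟨{ toFun := Ψ
           map_one' := LamL_injective M (by rw [hΨ, RingHom.map_one]; simp)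
           map_mul' := fun x y => LamL_injective M (by
            rw [hΨ, RingHom.map_mul, hΨ, hΨ, ← RingHom.map_mul]; rfl)
           map_zero' := LamL_injective M (by rw [hΨ, RingHom.map_zero]; simp)
           map_add' := fun x y => LamL_injective M (by
            rw [hΨ, RingHom.map_add, hΨ, hΨ, ← RingHom.map_add]; rfl)
           commutes' := fun a => LamL_injective M (by
            rw [hΨ, ← qExpand_algebraMap_eq_LamL]; rfl) }, hΨ⟩

/-- the embedding of `FL ℂ M` into the field of meromorphic functions. -/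
def PsiC (M : ℕ) [NeZero M] : FL ℂ M →ₐ[ℂ] LL M := (exists_PsiC M).choose

theorem LamL_PsiC {M : ℕ} [NeZero M] (x : FL ℂ M) :
    LamL M (PsiC M x) = kapC M (x : LaurentSeries ℂ) := (exists_PsiC M).choose_spec x

theorem LamL_PsiC' {M : ℕ} [NeZero M] (x : FL ℂ M) :
    LamL M (PsiC M x) = qExpand ℂ M (x : LaurentSeries ℂ) := LamL_PsiC x

theorem PsiC_JdF (M d : ℕ) [NeZero M] [NeZero d] (hd : d ∣ M) :
    PsiC M (JdF ℂ M d hd) = algebraMap (MerMod M) (LL M) ⟨jD d, jD_mem_MerMod hd⟩ :=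
  LamL_injective M (by rw [LamL_PsiC', ← qExpand_JdS_eq_LamL M d hd]; rfl)

/-- compatibility with `S24.Psi`. -/
theorem PsiC_coeffMap {M : ℕ} [NeZero M] (x : FN M) :
    PsiC M ⟨coeffMap iota (x : LaurentSeries Kb), coeffMap_mem_FL iota x.2⟩ = Psi M x :=
  LamL_injective M ((LamL_PsiC' _).trans ((LamL_Psi x).trans (kap_apply x)).symm)

theorem PsiC_JC (M : ℕ) [NeZero M] : PsiC M (JC M) = algebraMap (MerMod M) (LL M) (jM M) := by
  have h : (⟨jD 1, jD_mem_MerMod (one_dvd M)⟩ : MerMod M) = jM M := by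
    apply Subtype.ext
    funext τ
    change jFun (scaleH 1 τ) = jFun τ
    congr 1
    apply UpperHalfPlane.ext
    simp
  rw [← h, JC_eq_JF, JF_eq_JdF]
  exact PsiC_JdF M 1 (one_dvd M)

/-- the action of `γ` on `LL M` as a `ℂ`-algebra homomorphism. -/
def sigC (M : ℕ) [NeZero M] (γ : SL(2, ℤ)) : LL M →ₐ[ℂ] LL M :=
  { MulSemiringAction.toRingHom SL(2, ℤ) (LL M) γ with
    commutes' := fun a => by
      show γ • algebraMap ℂ (LL M) a = algebraMap ℂ (LL M) a
      rw [IsScalarTower.algebraMap_apply ℂ (MerMod M) (LL M), smul_algebraMap_LL]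
      rfl }

@[simp] theorem sigC_apply {M : ℕ} [NeZero M] (γ : SL(2, ℤ)) (x : LL M) : sigC M γ x = γ • x := rfl

theorem smul_PsiC_of_mem_Gamma0 {M : ℕ} [NeZero M] {γ : SL(2, ℤ)}
    (hγ : γ ∈ Gamma0 M) (x : FL ℂ M) : γ • PsiC M x = PsiC M x := by
  have key : (sigC M γ).comp (PsiC M) = PsiC M := by
    apply algHom_ext_FL
    intro d _ hd
    have h : γ • (⟨jD d, jD_mem_MerMod hd⟩ : MerMod M) = ⟨jD d, jD_mem_MerMod hd⟩ := by
      apply Subtype.ext
      funext τ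
      exact jD_smul_of_mem_Gamma0 hd (inv_mem hγ) τ
    rw [AlgHom.comp_apply, sigC_apply, PsiC_JdF, smul_algebraMap_LL, h]
  exact DFunLike.congr_fun key x

/-- the conjugate embeddings. -/
def phiC (M : ℕ) [NeZero M] (i : Cos M) : FL ℂ M →ₐ[ℂ] LL M := (sigC M i.out).comp (PsiC M)

theorem phiC_mk {M : ℕ} [NeZero M] (γ : SL(2, ℤ)) (x : FL ℂ M) :
    phiC M (γ : Cos M) x = γ • PsiC M x := by
  obtain ⟨h, hh⟩ := QuotientGroup.mk_out_eq_mul (CongruenceSubgroup.Gamma0 M) γ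
  rw [phiC, AlgHom.comp_apply, sigC_apply, hh, mul_smul, smul_PsiC_of_mem_Gamma0 h.2]

theorem phiC_smul {M : ℕ} [NeZero M] (g : SL(2, ℤ)) (i : Cos M) (x : FL ℂ M) :
    phiC M (g • i) x = g • phiC M i x := by
  induction i using QuotientGroup.induction_on with
  | H γ =>
    have : g • (γ : Cos M) = ((g * γ : SL(2, ℤ)) : Cos M) := rfl
    rw [this, phiC_mk, phiC_mk, mul_smul]

theorem phiC_JC {M : ℕ} [NeZero M] (i : Cos M) :
    phiC M i (JC M) = algebraMap (MerMod M) (LL M) (jM M) := by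
  rw [phiC, AlgHom.comp_apply, sigC_apply, PsiC_JC, smul_algebraMap_LL, smul_jM]

theorem phiC_coeffMap {M : ℕ} [NeZero M] (i : Cos M) (x : FN M) :
    phiC M i ⟨coeffMap iota (x : LaurentSeries Kb), coeffMap_mem_FL iota x.2⟩ = phi M i x := by
  rw [phiC, AlgHom.comp_apply, PsiC_coeffMap]
  rfl

theorem phiC_injective (M : ℕ) [NeZero M] : Function.Injective (phiC M) := by
  intro i i' hii
  apply phi_injective M
  ext x
  rw [← phiC_coeffMap, ← phiC_coeffMap, hii]

/-! ### `Γ₀(M)`-invariant holomorphic functions are integral over `ℂ[j]` -/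

/-- `f` is invariant under `Γ₀(M)`. -/
def IsInv {M : ℕ} (f : MerMod M) : Prop := ∀ γ ∈ CongruenceSubgroup.Gamma0 M, γ • f = f

theorem smul_conjM_of_isInv {M : ℕ} {f : MerMod M} (hf : IsInv f) (γ : SL(2, ℤ)) (i : Cos M) :
    γ • conjM f i = conjM f (γ • i) := by
  obtain ⟨h, hh⟩ := QuotientGroup.mk_out_eq_mul (CongruenceSubgroup.Gamma0 M) (γ * i.out)
  have h1 : γ • i = ((γ * i.out : SL(2, ℤ)) : Cos M) := by
    conv_lhs => rw [← QuotientGroup.out_eq' i]
    rfl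
  rw [conjM, conjM, h1, hh, mul_smul, hf h h.2, mul_smul]

theorem conjM_one_of_isInv {M : ℕ} {f : MerMod M} (hf : IsInv f) :
    conjM f ((1 : SL(2, ℤ)) : Cos M) = f := by
  obtain ⟨h, hh⟩ := QuotientGroup.mk_out_eq_mul (CongruenceSubgroup.Gamma0 M) 1
  rw [conjM, hh, one_mul, hf h h.2]

open Polynomial in
theorem charM_eval_of_isInv {M : ℕ} [NeZero M] {f : MerMod M} (hf : IsInv f) :
    (charM f).eval f = 0 := by
  let _ := Fintype.ofFinite (Cos M)
  unfold charM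
  rw [eval_prod]
  apply Finset.prod_eq_zero (Finset.mem_univ ((1 : SL(2, ℤ)) : Cos M))
  simp [conjM_one_of_isInv hf]

open Polynomial in
theorem smul_charM_of_isInv {M : ℕ} [NeZero M] {f : MerMod M} (hf : IsInv f) (γ : SL(2, ℤ)) :
    γ • charM f = charM f := by
  let _ := Fintype.ofFinite (Cos M)
  unfold charM
  rw [Finset.smul_prod']
  have h1 : ∀ i : Cos M, γ • (X - C (conjM f i)) = X - C (conjM f (γ • i)) := by
    intro i
    rw [smul_eq_map, Polynomial.map_sub, map_X, map_C, MulSemiringAction.toRingHom_apply,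
      smul_conjM_of_isInv hf]
  simp only [h1]
  exact Equiv.prod_comp (MulAction.toPerm γ) (fun i : Cos M => (X - C (conjM f i)))

open Polynomial in
theorem exists_coeff_charM_of_isInv {M : ℕ} [NeZero M] {f : MerMod M} (hf : IsInv f) (k : ℕ) :
    ∃ p : Polynomial ℂ, (charM f).coeff k = Polynomial.aeval (jM M) p := by
  apply exists_polynomial_of_smul_eq
  intro γ
  rw [← coeff_smul, smul_charM_of_isInv hf]

theorem IsInv.mul {M : ℕ} {a b : MerMod M} (ha : IsInv a) (hb : IsInv b) : IsInv (a * b) :=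
  fun γ hγ => by rw [smul_mul', ha γ hγ, hb γ hγ]

theorem IsInv.add {M : ℕ} {a b : MerMod M} (ha : IsInv a) (hb : IsInv b) : IsInv (a + b) :=
  fun γ hγ => by rw [smul_add, ha γ hγ, hb γ hγ]

theorem IsInv.algebraMap {M : ℕ} (c : ℂ) : IsInv (algebraMap ℂ (MerMod M) c) :=
  fun _ _ => rfl

theorem IsInv.one {M : ℕ} : IsInv (1 : MerMod M) := fun γ _ => smul_one γ

theorem IsInv.zero {M : ℕ} : IsInv (0 : MerMod M) := fun γ _ => smul_zero γ

theorem IsInv.jD {M d : ℕ} [NeZero M] [NeZero d] (hd : d ∣ M) :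
    IsInv (⟨jD d, jD_mem_MerMod hd⟩ : MerMod M) := by
  intro γ hγ
  apply Subtype.ext
  funext τ
  exact jD_smul_of_mem_Gamma0 hd (inv_mem hγ) τ

theorem exists_ratio_aux {M : ℕ} [NeZero M] {x : LaurentSeries ℂ} (hx : x ∈ FL ℂ M) :
    ∃ a b : MerMod M, b ≠ 0 ∧ IsInv a ∧ IsInv b ∧ qExpand ℂ M x * LamM M b = LamM M a := by
  rw [FL_eq_adjoin] at hx
  induction hx using IntermediateField.adjoin_induction with
  | mem y hy =>
    obtain ⟨d, hd0, hd, rfl⟩ := hy
    refine ⟨⟨jD d, jD_mem_MerMod hd⟩, 1, one_ne_zero, IsInv.jD hd, IsInv.one, ?_⟩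
    rw [qExpand_JdS_eq_LamL M d hd, LamL_algebraMap, RingHom.map_one, mul_one]
  | algebraMap c =>
    refine ⟨algebraMap ℂ (MerMod M) c, 1, one_ne_zero, IsInv.algebraMap c, IsInv.one, ?_⟩
    rw [qExpand_algebraMap_eq_LamL, IsScalarTower.algebraMap_apply ℂ (MerMod M) (LL M),
      LamL_algebraMap, RingHom.map_one, mul_one]
  | add x y _ _ hx hy =>
    obtain ⟨a₁, b₁, hb₁, ha₁i, hb₁i, h₁⟩ := hx
    obtain ⟨a₂, b₂, hb₂, ha₂i, hb₂i, h₂⟩ := hy
    refine ⟨a₁ * b₂ + a₂ * b₁, b₁ * b₂, mul_ne_zero hb₁ hb₂,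
      (ha₁i.mul hb₂i).add (ha₂i.mul hb₁i), hb₁i.mul hb₂i, ?_⟩
    rw [RingHom.map_add, RingHom.map_add, RingHom.map_mul, RingHom.map_mul, RingHom.map_mul,
      ← h₁, ← h₂]
    ring
  | inv x _ hx =>
    obtain ⟨a, b, hb, hai, hbi, h⟩ := hx
    by_cases ha : a = 0
    · refine ⟨0, 1, one_ne_zero, IsInv.zero, IsInv.one, ?_⟩
      have hLb : LamM M b ≠ 0 := fun h0 => hb (LamM_injective M (by rw [h0, RingHom.map_zero]))
      rw [ha, RingHom.map_zero] at h
      have hq : qExpand ℂ M x = 0 := (mul_eq_zero.mp h).resolve_right hLb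
      rw [map_inv₀, hq, inv_zero, zero_mul, RingHom.map_zero]
    · refine ⟨b, a, ha, hbi, hai, ?_⟩
      have hLa : LamM M a ≠ 0 := fun h0 => ha (LamM_injective M (by rw [h0, RingHom.map_zero]))
      have hq : qExpand ℂ M x ≠ 0 := by
        intro h0
        rw [h0, zero_mul] at h
        exact hLa h.symm
      rw [map_inv₀, ← h, ← mul_assoc, inv_mul_cancel₀ hq, one_mul]
  | mul x y _ _ hx hy =>
    obtain ⟨a₁, b₁, hb₁, ha₁i, hb₁i, h₁⟩ := hx
    obtain ⟨a₂, b₂, hb₂, ha₂i, hb₂i, h₂⟩ := hy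
    refine ⟨a₁ * a₂, b₁ * b₂, mul_ne_zero hb₁ hb₂, ha₁i.mul ha₂i, hb₁i.mul hb₂i, ?_⟩
    rw [RingHom.map_mul, RingHom.map_mul, RingHom.map_mul, ← h₁, ← h₂]
    ring

/-- every element of `FL ℂ M` is a quotient of holomorphic invariant functions. -/
theorem exists_ratio {M : ℕ} [NeZero M] (x : FL ℂ M) : ∃ a b : MerMod M, b ≠ 0 ∧
    (∀ γ ∈ Gamma0 M, γ • a = a) ∧ (∀ γ ∈ Gamma0 M, γ • b = b) ∧
    PsiC M x * algebraMap (MerMod M) (LL M) b = algebraMap (MerMod M) (LL M) a := by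
  obtain ⟨a, b, hb, hai, hbi, h⟩ := exists_ratio_aux x.2
  refine ⟨a, b, hb, hai, hbi, LamL_injective M ?_⟩
  rw [RingHom.map_mul, LamL_PsiC', LamL_algebraMap, LamL_algebraMap, h]

theorem isInv_of_PsiC_eq {M : ℕ} [NeZero M] {x : FL ℂ M} {f : MerMod M}
    (h : PsiC M x = algebraMap (MerMod M) (LL M) f) : IsInv f := by
  intro γ hγ
  apply IsFractionRing.injective (MerMod M) (LL M)
  rw [← smul_algebraMap_LL, ← h, smul_PsiC_of_mem_Gamma0 hγ]

theorem PsiC_aeval_JC (M : ℕ) [NeZero M] (p : Polynomial ℂ) :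
    PsiC M (Polynomial.aeval (JC M) p)
      = algebraMap (MerMod M) (LL M) (Polynomial.aeval (jM M) p) := by
  rw [← Polynomial.aeval_algHom_apply, PsiC_JC, Polynomial.aeval_algebraMap_apply]

open Polynomial in
theorem exists_monic_of_PsiC_mem {M : ℕ} [NeZero M] (x : FL ℂ M)
    (hx : ∃ f : MerMod M, PsiC M x = algebraMap (MerMod M) (LL M) f) :
    ∃ P : Polynomial ℂ⟮JC M⟯, P.Monic ∧ P.natDegree = Nat.card (Cos M) ∧
      Polynomial.aeval x P = 0 := by
  obtain ⟨f, hf⟩ := hx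
  have hinv := isInv_of_PsiC_eq hf
  set n := Nat.card (Cos M) with hn
  choose p0 hp0 using exists_coeff_charM_of_isInv hinv
  let p : ℕ → ℂ[X] := fun k => if k = n then 1 else p0 k
  have hpn : p n = 1 := by simp [p]
  have hp : ∀ k, (charM f).coeff k = aeval (jM M) (p k) := by
    intro k
    by_cases hk : k = n
    · subst hk
      rw [hpn, map_one, hn, ← charM_natDegree f]
      exact (charM_monic f).coeff_natDegree
    · simp only [p, if_neg hk]
      exact hp0 k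
  let D := (Finset.range (n + 1)).sup (fun k => (p k).natDegree)
  have hD : ∀ k ∈ Finset.range (n + 1), (p k).natDegree ≤ D := fun k hk =>
    Finset.le_sup (f := fun k => (p k).natDegree) hk
  -- the relation in `MerMod M`
  have h1 : ∑ k ∈ Finset.range (n + 1), (charM f).coeff k * f ^ k = 0 := by
    have := charM_eval_of_isInv hinv
    rwa [eval_eq_sum_range, charM_natDegree] at this
  -- the relation in `FL ℂ M`
  have h2 : ∑ k ∈ Finset.range (n + 1), aeval (JC M) (p k) * x ^ k = 0 := by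
    have hinj : Function.Injective (PsiC M) := (PsiC M).toRingHom.injective
    apply hinj
    rw [map_sum (PsiC M), map_zero (PsiC M)]
    have := congrArg (algebraMap (MerMod M) (LL M)) h1
    rw [map_sum, map_zero] at this
    rw [← this]
    refine Finset.sum_congr rfl fun k _ => ?_
    rw [map_mul (PsiC M), map_pow (PsiC M), PsiC_aeval_JC, hf, map_mul, map_pow, hp k]
  have h3 : ∑ i ∈ Finset.range (n + 1) ×ˢ Finset.range (D + 1),
      algebraMap ℂ (FL ℂ M) ((p i.1).coeff i.2) * (JC M ^ i.2 * x ^ i.1) = 0 := by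
    rw [Finset.sum_product, ← h2]
    refine Finset.sum_congr rfl fun k hk => ?_
    rw [Polynomial.aeval_eq_sum_range' (Nat.lt_succ_of_le (hD k hk)), Finset.sum_mul]
    refine Finset.sum_congr rfl fun a _ => ?_
    rw [Algebra.smul_def, mul_assoc]
  exact exists_monic_aux (JC M) x n D (fun i : ℕ × ℕ => (p i.1).coeff i.2) (by simp [hpn])
    (fun a ha => by simp [hpn, coeff_one, ha]) h3

/-- the elements of `FL ℂ M` which are "holomorphic on `ℍ`". -/
def HolC (M : ℕ) [NeZero M] : Subalgebra ℂ (FL ℂ M) :=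
  (IsScalarTower.toAlgHom ℂ (MerMod M) (LL M)).range.comap (PsiC M)

theorem mem_HolC {M : ℕ} [NeZero M] {y : FL ℂ M} :
    y ∈ HolC M ↔ ∃ f : MerMod M, PsiC M y = algebraMap (MerMod M) (LL M) f := by
  constructor
  · rintro ⟨f, hf⟩
    exact ⟨f, hf.symm⟩
  · rintro ⟨f, hf⟩
    exact ⟨f, hf.symm⟩

theorem JC_mem_HolC (M : ℕ) [NeZero M] : JC M ∈ HolC M := mem_HolC.mpr ⟨_, PsiC_JC M⟩

theorem genSetF_subset_HolC (M : ℕ) [NeZero M] : genSetF ℂ M ⊆ HolC M := by
  rintro y ⟨d, hd0, hd, rfl⟩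
  exact mem_HolC.mpr ⟨_, PsiC_JdF M d hd⟩

theorem isIntegral_of_mem_HolC {M : ℕ} [NeZero M] {y : FL ℂ M} (hy : y ∈ HolC M) :
    IsIntegral ℂ⟮JC M⟯ y := by
  obtain ⟨P, hP, -, hPy⟩ := exists_monic_of_PsiC_mem y (mem_HolC.mp hy)
  exact ⟨P, hP, hPy⟩

theorem finiteDimensional_FLC (M : ℕ) [NeZero M] : FiniteDimensional ℂ⟮JC M⟯ (FL ℂ M) := by
  have : Finite (genSetF ℂ M) := (finite_genSetF ℂ M).to_subtype
  exact finiteDimensional_of_adjoin (JC M) (genSetF ℂ M)
    (fun y hy => isIntegral_of_mem_HolC (genSetF_subset_HolC M hy)) (adjoin_genSetF ℂ M)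

instance instIsFF1FLC (M : ℕ) [NeZero M] : FF.IsFF1 ℂ (FL ℂ M) :=
  ⟨⟨JC M, transcendental_JC M, finiteDimensional_FLC M⟩⟩

theorem finrank_FLC_le (M : ℕ) [NeZero M] :
    Module.finrank ℂ⟮JC M⟯ (FL ℂ M) ≤ Nat.card (Cos M) := by
  have := finiteDimensional_FLC M
  exact finrank_le_of_forall_exists_monic' (k := ℂ) (Nat.card (Cos M)) (fun y => y ∈ HolC M)
    (fun y => exists_denominator (JC M) (genSetF ℂ M) (HolC M) (JC_mem_HolC M)
      (genSetF_subset_HolC M)
      (fun z hz => (isIntegral_of_mem_HolC (genSetF_subset_HolC M hz)).isAlgebraic)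
      (adjoin_genSetF ℂ M) y)
    (fun a ha => exists_monic_of_PsiC_mem a (mem_HolC.mp ha))

theorem card_Cos_le_finrank_FLC (M : ℕ) [NeZero M] :
    Nat.card (Cos M) ≤ Module.finrank ℂ⟮JC M⟯ (FL ℂ M) := by
  have := finiteDimensional_FLC M
  exact card_le_finrank_of_embeddings (JC M) (phiC M) (phiC_injective M)
    (fun i j => by rw [phiC_JC, phiC_JC])

theorem finrank_FLC (M : ℕ) [NeZero M] :
    Module.finrank ℂ⟮JC M⟯ (FL ℂ M) = Nat.card (Cos M) :=
  le_antisymm (finrank_FLC_le M) (card_Cos_le_finrank_FLC M)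

end Fermat.Agent.GAL.AN
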