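import Fermat.Agent.GAL.AN.Real
import Fermat.Agent.GAL.AN.HeckeMem
import Fermat.Agent.GAL.AN.HeckeChar
import Fermat.Agent.GAL.AN.HeckeQ
import Fermat.Agent.GAL.DESC.MainC
import Fermat.Agent.GAL.ESR.Norm
import Fermat.Agent.GAL.HK.CohBasic
import Fermat.Agent.GAL.ModuleDefs

/-! # GAL / AN-9 : assembly of `AnPackage` and `AnSystem` -/

set_option autoImplicit false

open ModularCurve AlgebraicCurve CongruenceSubgroup UpperHalfPlane IntermediateField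
open Fermat.Agent.S24
open scoped MatrixGroups

noncomputable section

namespace Fermat.Agent.GAL.AN

variable {M n : ℕ} [NeZero M] [NeZero n]

omit [NeZero M] [NeZero n] in
theorem heckeCoh_sub (ℓ : ℕ) (hℓ : ℓ.Prime) (hℓM : ¬ ℓ ∣ M)
    (P Q : Additive (Gamma0 M) →+ ZMod n) :
    heckeCoh M ℓ (P - Q) = heckeCoh M ℓ P - heckeCoh M ℓ Q := by
  simp only [heckeCoh_eq_T hℓ hℓM, map_sub]

/-- `T_ℓ` on `HPar`. -/
def heckeP (ℓ : ℕ) (hℓ : ℓ.Prime) (hℓM : ¬ ℓ ∣ M) (P : HPar M n) : HPar M n :=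
  ⟨heckeCoh M ℓ (P : Additive (Gamma0 M) →+ ZMod n), heckeCoh_isParabolicHom M ℓ hℓ hℓM _ P.2⟩

theorem IsRealC.hecke (ℓ : ℕ) [NeZero ℓ] (hℓ : ℓ.Prime) (hℓM : ¬ ℓ ∣ M) {H : LaurentSeries ℂ}
    {Pa Pb : HPar M n} (h : IsRealC M n H Pa Pb) :
    IsRealC M n (heckeS ℂ ℓ H) (heckeP ℓ hℓ hℓM Pa) (heckeP ℓ hℓ hℓM Pb) := by
  have hH := h.ne_zero
  obtain ⟨a, b, ha, hb, hPa, hPb, hab⟩ := h
  obtain ⟨A, hA⟩ := hPa.exists_kapC
  obtain ⟨B, hB⟩ := hPb.exists_kapC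
  have hAB : A = H * B := by
    apply kapC_injective M
    rw [map_mul, ← hA, ← hB, hab]
  have hA0 : A ≠ 0 := by
    rintro rfl
    rw [map_zero] at hA
    exact LamM_ne_zero ha hA
  have hB0 : B ≠ 0 := by
    rintro rfl
    rw [map_zero] at hB
    exact LamM_ne_zero hb hB
  have hne : ∀ X : LaurentSeries ℂ, X ≠ 0 → heckeS ℂ ℓ X ≠ 0 := by
    intro X hX
    exact ((IsUnit.mk0 X hX).map (heckeS ℂ ℓ)).ne_zero
  have hma := heckeFun_mem M n ℓ hℓ hℓM a Pa hPa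
  have hmb := heckeFun_mem M n ℓ hℓ hℓM b Pb hPb
  have eA := LamM_heckeFun M ℓ hℓ a A hA hma
  have eB := LamM_heckeFun M ℓ hℓ b B hB hmb
  refine ⟨⟨_, hma⟩, ⟨_, hmb⟩, ?_, ?_,
    isCharFun_heckeFun M n ℓ hℓ hℓM a Pa _ hPa rfl hma,
    isCharFun_heckeFun M n ℓ hℓ hℓM b Pb _ hPb rfl hmb, ?_⟩
  · intro h0
    rw [h0, map_zero] at eA
    exact hne A hA0 (kapC_injective M (by rw [← eA, map_zero]))
  · intro h0
    rw [h0, map_zero] at eB
    exact hne B hB0 (kapC_injective M (by rw [← eB, map_zero]))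
  · rw [eA, eB, hAB, map_mul, map_mul]

theorem iotaS_heckeS (ℓ : ℕ) [NeZero ℓ] (h : LaurentSeries Qb) :
    iotaS (heckeS Qb ℓ h) = heckeS ℂ ℓ (iotaS h) := heckeS_coeffMap iota ℓ h

theorem IsReal.hecke (ℓ : ℕ) [NeZero ℓ] (hℓ : ℓ.Prime) (hℓM : ¬ ℓ ∣ M) (u : (LaurentSeries Qb)ˣ)
    {Pa Pb : HPar M n} (h : IsReal M n (u : LaurentSeries Qb) Pa Pb) :
    IsReal M n ((Units.map (heckeS Qb ℓ) u : (LaurentSeries Qb)ˣ) : LaurentSeries Qb)
      (heckeP ℓ hℓ hℓM Pa) (heckeP ℓ hℓ hℓM Pb) := by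
  have := IsRealC.hecke ℓ hℓ hℓM h
  unfold IsReal
  rw [Units.coe_map]
  show IsRealC M n (iotaS (heckeS Qb ℓ (u : LaurentSeries Qb))) _ _
  rw [iotaS_heckeS]
  exact this

omit [NeZero n] in
theorem isReal_of_mem_FL (u : (LaurentSeries Qb)ˣ) (hu : (u : LaurentSeries Qb) ∈ FL Qb M) :
    IsReal M n (u : LaurentSeries Qb) 0 0 := by
  refine isRealC_of_mem_FL (iotaS_mem_FL M hu) ?_
  intro h0
  exact u.ne_zero (iotaS_injective (by rw [h0, map_zero]))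

theorem chrFun_eq_zero_iff (u : Van M n) :
    chrFun u = 0 ↔ ((u : (LaurentSeries Qb)ˣ) : LaurentSeries Qb) ∈ FL Qb M := by
  constructor
  · intro h2
    obtain ⟨Pa, Pb, hu, eu⟩ := exists_isReal u
    have h3 : Pa = Pb := sub_eq_zero.mp (eu.symm.trans h2)
    subst h3
    exact mem_FL_of_iotaS_mem M (IsRealC.mem_FL hu)
  · intro hu
    exact (chrFun_eq u (isReal_of_mem_FL u hu)).trans (sub_self (0 : HPar M n))

theorem chrFun_surjective (hM : AdmLevel M) (P : HPar M n) : ∃ u : Van M n, chrFun u = P := by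
  obtain ⟨a, ha, hPa⟩ := exists_isCharFun M n P
  obtain ⟨U, hU⟩ := hPa.exists_kapC
  have hr : IsRealC M n U P 0 :=
    ⟨a, 1, ha, one_ne_zero, hPa, IsCharFun.one M n, by rw [map_one, mul_one, hU]⟩
  obtain ⟨g, hg, hg0, h, hh⟩ := desc M n U (isKum_of_isRealC M n hM hr)
  have hr2 : IsRealC M n (g * U) (0 + P) (0 + 0) := (isRealC_of_mem_FL hg hg0).mul hr
  have e1 : (0 : HPar M n) + P = P := zero_add P
  have e2 : (0 : HPar M n) + 0 = 0 := zero_add 0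
  rw [e1, e2, ← hh] at hr2
  have hh0 : h ≠ 0 := by
    rintro rfl
    exact hr2.ne_zero (map_zero _)
  have hr3 : IsReal M n ((Units.mk0 h hh0 : (LaurentSeries Qb)ˣ) : LaurentSeries Qb) P 0 := hr2
  have hmem : Units.mk0 h hh0 ∈ Van M n := ⟨P, 0, hr3⟩
  refine ⟨⟨Units.mk0 h hh0, hmem⟩, ?_⟩
  exact (chrFun_eq (⟨Units.mk0 h hh0, hmem⟩ : Van M n) hr3).trans (sub_zero P)

theorem hecke_mem_Van (ℓ : ℕ) [NeZero ℓ] (hℓ : ℓ.Prime) (hℓM : ¬ ℓ ∣ M) (u : (LaurentSeries Qb)ˣ)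
    (hu : u ∈ Van M n) : Units.map (heckeS Qb ℓ) u ∈ Van M n := by
  obtain ⟨Pa, Pb, h⟩ := hu
  exact ⟨_, _, IsReal.hecke ℓ hℓ hℓM u h⟩

theorem chrFun_hecke (ℓ : ℕ) [NeZero ℓ] (hℓ : ℓ.Prime) (hℓM : ¬ ℓ ∣ M) (u : Van M n) :
    HPar.hom (chrFun (⟨_, hecke_mem_Van ℓ hℓ hℓM u u.2⟩ : Van M n))
      = heckeCoh M ℓ (HPar.hom (chrFun u)) := by
  obtain ⟨Pa, Pb, hu, eu⟩ := exists_isReal u
  have h1 := IsReal.hecke ℓ hℓ hℓM u hu
  rw [chrFun_eq (⟨_, hecke_mem_Van ℓ hℓ hℓM u u.2⟩ : Van M n) h1, eu]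
  show heckeCoh M ℓ (HPar.hom Pa) - heckeCoh M ℓ (HPar.hom Pb)
    = heckeCoh M ℓ (HPar.hom Pa - HPar.hom Pb)
  rw [heckeCoh_sub ℓ hℓ hℓM]

/-- the concrete analytic package. -/
def anPackage (M n : ℕ) [NeZero M] [NeZero n] (hM : AdmLevel M) : AnPackage M n where
  Van := Van M n
  chr := chr M n
  FL_le := fun u hu => ⟨0, 0, isReal_of_mem_FL u hu⟩
  isKum := by
    rintro u ⟨Pa, Pb, h⟩
    exact isKum_of_isReal M n hM h
  chr_eq_one_iff := fun u => chrFun_eq_zero_iff u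
  chr_surjective := by
    intro P
    obtain ⟨u, hu⟩ := chrFun_surjective hM (Multiplicative.toAdd P)
    exact ⟨u, congrArg Multiplicative.ofAdd hu⟩
  hecke_mem := fun ℓ _ hℓ hℓM u hu => hecke_mem_Van ℓ hℓ hℓM u hu
  chr_hecke := fun ℓ _ hℓ hℓM u => chrFun_hecke ℓ hℓ hℓM u

/-! ### compatibility in `n` -/

theorem eN_mul_pow (n k : ℕ) [NeZero n] [NeZero k] (x : ZMod (n * k)) :
    eN (n * k) x ^ k = eN n (ZMod.castHom (Dvd.intro k rfl) (ZMod n) x) := by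
  have hζ := (Complex.isPrimitiveRoot_exp n (NeZero.ne n)).pow_eq_one
  have hn : (n : ℂ) ≠ 0 := Nat.cast_ne_zero.mpr (NeZero.ne n)
  have hk : (k : ℂ) ≠ 0 := Nat.cast_ne_zero.mpr (NeZero.ne k)
  have h1 : Complex.exp (2 * Real.pi * Complex.I / ((n * k : ℕ) : ℂ)) ^ k
      = Complex.exp (2 * Real.pi * Complex.I / (n : ℂ)) := by
    rw [← Complex.exp_nat_mul]
    congr 1
    push_cast
    field_simp
  have h2 : (ZMod.castHom (Dvd.intro k rfl) (ZMod n) x).val = x.val % n := by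
    rw [ZMod.castHom_apply, ← ZMod.natCast_val, ZMod.val_natCast]
  rw [eN_eq_pow, eN_eq_pow, h2, ← pow_eq_pow_mod _ hζ, ← pow_mul, Nat.mul_comm x.val k, pow_mul, h1]

/-- reduction of characters. -/
def castP (M n k : ℕ) (P : HPar M (n * k)) : HPar M n :=
  ⟨castHPar M n k P.1, fun γ hγ => by
    show ZMod.castHom (Dvd.intro k rfl) (ZMod n) (P.1 (Additive.ofMul γ)) = 0
    rw [P.2 γ hγ, map_zero]⟩

theorem IsCharFun.pow_cast {M n k : ℕ} [NeZero n] [NeZero k] {a : MerMod M} {P : HPar M (n * k)}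
    (ha : IsCharFun M (n * k) a P) : IsCharFun M n (a ^ k) (castP M n k P) := by
  intro γ τ
  show (a ^ k).1 _ = eN n (ZMod.castHom (Dvd.intro k rfl) (ZMod n) (P.1 (Additive.ofMul γ))) * _
  rw [← eN_mul_pow]
  have h1 : ∀ τ : ℍ, (a ^ k).1 τ = a.1 τ ^ k := fun τ => by
    rw [SubmonoidClass.coe_pow]
    rfl
  rw [h1, h1, ha γ τ, mul_pow]

theorem IsRealC.pow_cast {M n k : ℕ} [NeZero M] [NeZero n] [NeZero k] {H : LaurentSeries ℂ}
    {Pa Pb : HPar M (n * k)} (h : IsRealC M (n * k) H Pa Pb) :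
    IsRealC M n (H ^ k) (castP M n k Pa) (castP M n k Pb) := by
  obtain ⟨a, b, ha, hb, hPa, hPb, hab⟩ := h
  refine ⟨a ^ k, b ^ k, pow_ne_zero k ha, pow_ne_zero k hb, hPa.pow_cast, hPb.pow_cast, ?_⟩
  rw [map_pow, map_pow, map_pow, hab, mul_pow]

theorem IsReal.pow_cast {M n k : ℕ} [NeZero M] [NeZero n] [NeZero k] (u : (LaurentSeries Qb)ˣ)
    {Pa Pb : HPar M (n * k)} (h : IsReal M (n * k) (u : LaurentSeries Qb) Pa Pb) :
    IsReal M n ((u ^ k : (LaurentSeries Qb)ˣ) : LaurentSeries Qb)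
      (castP M n k Pa) (castP M n k Pb) := by
  have := IsRealC.pow_cast h
  unfold IsReal
  rwa [Units.val_pow_eq_pow_val, map_pow]

theorem pow_mem_Van {M n k : ℕ} [NeZero M] [NeZero n] [NeZero k] [NeZero (n * k)]
    (u : (LaurentSeries Qb)ˣ) (hu : u ∈ Van M (n * k)) : u ^ k ∈ Van M n := by
  obtain ⟨Pa, Pb, h⟩ := hu
  exact ⟨_, _, IsReal.pow_cast u h⟩

theorem chrFun_pow {M n k : ℕ} [NeZero M] [NeZero n] [NeZero k] [NeZero (n * k)]
    (u : Van M (n * k)) :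
    HPar.hom (chrFun (⟨_, pow_mem_Van u u.2⟩ : Van M n))
      = castHPar M n k (HPar.hom (chrFun u)) := by
  obtain ⟨Pa, Pb, hu, eu⟩ := exists_isReal u
  have h1 := IsReal.pow_cast (n := n) (k := k) u hu
  rw [chrFun_eq (⟨_, pow_mem_Van u u.2⟩ : Van M n) h1, eu]
  show castHPar M n k (HPar.hom Pa) - castHPar M n k (HPar.hom Pb)
    = castHPar M n k (HPar.hom Pa - HPar.hom Pb)
  refine AddMonoidHom.ext fun γ => ?_
  show _ - _ = ZMod.castHom (Dvd.intro k rfl) (ZMod n) (HPar.hom Pa γ - HPar.hom Pb γ)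
  rw [map_sub]
  rfl

end Fermat.Agent.GAL.AN

namespace Fermat.Agent.GAL

open AN

/-- **the deliverable of block AN.** -/
theorem exists_anPackage (M n : ℕ) [NeZero M] [NeZero n] (hM : AdmLevel M) :
    Nonempty (AnPackage M n) := ⟨anPackage M n hM⟩

/-- the `n`-compatible family. -/
theorem exists_anSystem (M : ℕ) [NeZero M] (hM : AdmLevel M) : Nonempty (AnSystem M) :=
  ⟨{ pk := fun n hn => haveI : NeZero n := ⟨hn⟩; anPackage M n hM
     pow_mem := fun n k hn hk u hu =>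
      haveI : NeZero n := ⟨hn⟩
      haveI : NeZero k := ⟨hk⟩
      haveI : NeZero (n * k) := ⟨Nat.mul_ne_zero hn hk⟩
      pow_mem_Van u hu
     chr_pow := fun n k hn hk u =>
      haveI : NeZero n := ⟨hn⟩
      haveI : NeZero k := ⟨hk⟩
      haveI : NeZero (n * k) := ⟨Nat.mul_ne_zero hn hk⟩
      chrFun_pow u }⟩

end Fermat.Agent.GAL
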