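import Fermat.Agent.GAL.AN.Defs

/-! # GAL / AN-0 : the additive character `eN n : ZMod n → ℂ` and the character of `Γ₀(M)` -/

set_option autoImplicit false

open ModularCurve AlgebraicCurve CongruenceSubgroup UpperHalfPlane IntermediateField
open Fermat.Agent.S24
open scoped MatrixGroups

noncomputable section

namespace Fermat.Agent.GAL.AN

theorem eN_eq_pow (n : ℕ) (x : ZMod n) :
    eN n x = Complex.exp (2 * Real.pi * Complex.I / (n : ℂ)) ^ x.val := by
  rw [eN, ← Complex.exp_nat_mul]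
  congr 1
  ring

theorem eN_zero (n : ℕ) : eN n 0 = 1 := by
  rw [eN_eq_pow, ZMod.val_zero, pow_zero]

theorem eN_add (n : ℕ) [NeZero n] (x y : ZMod n) : eN n (x + y) = eN n x * eN n y := by
  have hζ := (Complex.isPrimitiveRoot_exp n (NeZero.ne n)).pow_eq_one
  rw [eN_eq_pow, eN_eq_pow, eN_eq_pow, ZMod.val_add, ← pow_add, ← pow_eq_pow_mod _ hζ]

theorem eN_ne_zero (n : ℕ) (x : ZMod n) : eN n x ≠ 0 := Complex.exp_ne_zero _

theorem eN_neg (n : ℕ) [NeZero n] (x : ZMod n) : eN n (-x) = (eN n x)⁻¹ := by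
  refine eq_inv_of_mul_eq_one_left ?_
  rw [← eN_add, neg_add_cancel, eN_zero]

theorem norm_eN (n : ℕ) (x : ZMod n) : ‖eN n x‖ = 1 := by
  have : (2 * Real.pi * Complex.I * (x.val : ℂ) / (n : ℂ))
      = ((2 * Real.pi * (x.val : ℝ) / (n : ℝ) : ℝ) : ℂ) * Complex.I := by
    push_cast
    ring
  rw [eN, this, Complex.norm_exp_ofReal_mul_I]

theorem eN_pow (n : ℕ) [NeZero n] (x : ZMod n) : eN n x ^ n = 1 := by
  have hζ := (Complex.isPrimitiveRoot_exp n (NeZero.ne n)).pow_eq_one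
  rw [eN_eq_pow, ← pow_mul, Nat.mul_comm, pow_mul, hζ, one_pow]

theorem eN_injective (n : ℕ) [NeZero n] : Function.Injective (eN n) := by
  intro x y h
  rw [eN_eq_pow, eN_eq_pow] at h
  exact ZMod.val_injective n
    ((Complex.isPrimitiveRoot_exp n (NeZero.ne n)).pow_inj (ZMod.val_lt x) (ZMod.val_lt y) h)

theorem eN_sum (n : ℕ) [NeZero n] {ι : Type*} (s : Finset ι) (f : ι → ZMod n) :
    eN n (∑ i ∈ s, f i) = ∏ i ∈ s, eN n (f i) := by
  classical
  induction s using Finset.induction_on with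
  | empty => simp [eN_zero]
  | insert a s ha ih => rw [Finset.sum_insert ha, Finset.prod_insert ha, eN_add, ih]

/-- the character of `Γ₀(M)` attached to `P`. -/
theorem exists_chi (M n : ℕ) [NeZero n] (P : HPar M n) : ∃ χ : ↥(Gamma0 M) →* ℂˣ,
    (∀ γ, (χ γ : ℂ) = eN n ((P : Additive (Gamma0 M) →+ ZMod n) (Additive.ofMul γ))) ∧
    (∀ γ, ‖(χ γ : ℂ)‖ = 1) ∧
    (∀ γ : ↥(Gamma0 M), ((γ : SL(2, ℤ)) : Matrix (Fin 2) (Fin 2) ℤ).trace ^ 2 = 4 → χ γ = 1) := by
  refine ⟨MonoidHom.mk' (fun γ => Units.mk0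
    (eN n ((P : Additive (Gamma0 M) →+ ZMod n) (Additive.ofMul γ))) (eN_ne_zero _ _)) ?_,
    fun γ => rfl, fun γ => norm_eN _ _, fun γ hγ => ?_⟩
  · intro a b
    apply Units.ext
    simp only [Units.val_mk0, Units.val_mul]
    rw [ofMul_mul, map_add, eN_add]
  · apply Units.ext
    have hP : Period.IsParabolicHom (Gamma0 M) (P : Additive (Gamma0 M) →+ ZMod n) :=
      Period.mem_parabolicHoms_iff.mp P.2
    simp only [MonoidHom.mk'_apply, Units.val_mk0, Units.val_one]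
    rw [hP γ hγ, eN_zero]

end Fermat.Agent.GAL.AN
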