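import Fermat.Agent.GAL.AN.Defs
import Fermat.Agent.GAL.AN.EN
import Fermat.Agent.GAL.AN.CharEis

/-! # GAL / AN-1 : char functions, elementary API -/

set_option autoImplicit false

open ModularCurve AlgebraicCurve CongruenceSubgroup UpperHalfPlane IntermediateField
open Fermat.Agent.S24
open scoped MatrixGroups

noncomputable section

namespace Fermat.Agent.GAL.AN

local notation "Δ" => ModularForm.discriminant

theorem IsCharFun.mul {M n : ℕ} [NeZero n] {a b : MerMod M} {P Q : HPar M n}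
    (ha : IsCharFun M n a P) (hb : IsCharFun M n b Q) : IsCharFun M n (a * b) (P + Q) := by
  intro γ τ
  have h1 : (a * b).1 ((γ : SL(2, ℤ)) • τ) = a.1 ((γ : SL(2, ℤ)) • τ) * b.1 ((γ : SL(2, ℤ)) • τ) :=
    rfl
  have h2 : (a * b).1 τ = a.1 τ * b.1 τ := rfl
  have h3 : ((P + Q : HPar M n) : Additive (Gamma0 M) →+ ZMod n) (Additive.ofMul γ) =
      (P : Additive (Gamma0 M) →+ ZMod n) (Additive.ofMul γ) +
        (Q : Additive (Gamma0 M) →+ ZMod n) (Additive.ofMul γ) := rfl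
  rw [h1, h2, h3, eN_add, ha γ τ, hb γ τ]
  ring

theorem IsCharFun.one (M n : ℕ) : IsCharFun M n 1 0 := by
  intro γ τ
  have h1 : ∀ z : ℍ, (1 : MerMod M).1 z = 1 := fun _ => rfl
  have h3 : ((0 : HPar M n) : Additive (Gamma0 M) →+ ZMod n) (Additive.ofMul γ) = 0 := rfl
  rw [h1, h1, h3, eN_zero, one_mul]

theorem IsCharFun.pow {M n : ℕ} [NeZero n] {a : MerMod M} {P : HPar M n}
    (ha : IsCharFun M n a P) (k : ℕ) : IsCharFun M n (a ^ k) (k • P) := by
  induction k with
  | zero => simpa using IsCharFun.one M n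
  | succ k ih =>
    rw [pow_succ, succ_nsmul]
    exact ih.mul ha

theorem IsCharFun.pow_self {M n : ℕ} [NeZero n] {a : MerMod M} {P : HPar M n}
    (ha : IsCharFun M n a P) : IsCharFun M n (a ^ n) 0 := by
  have h := ha.pow n
  have h0 : n • P = 0 := by
    apply Subtype.ext
    ext γ
    show n • ((P : Additive (Gamma0 M) →+ ZMod n) γ) = 0
    simp
  rwa [h0] at h

theorem isCharFun_zero_iff {M n : ℕ} {a : MerMod M} :
    IsCharFun M n a 0 ↔ ∀ γ ∈ Gamma0 M, γ • a = a := by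
  have h3 : ∀ γ : Gamma0 M,
      ((0 : HPar M n) : Additive (Gamma0 M) →+ ZMod n) (Additive.ofMul γ) = 0 := fun _ => rfl
  constructor
  · intro h γ hγ
    apply Subtype.ext
    funext τ
    have h1 := h ⟨γ⁻¹, inv_mem hγ⟩ τ
    rw [h3, eN_zero, one_mul] at h1
    rw [smul_MerMod_apply]
    exact h1
  · intro h γ τ
    rw [h3, eN_zero, one_mul]
    have h1 := congrArg (fun f : MerMod M => f.1 τ) (h (γ : SL(2, ℤ))⁻¹ (inv_mem γ.2))
    simp only [smul_MerMod_apply, inv_inv] at h1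
    exact h1

/-- uniqueness of the character. -/
theorem IsCharFun.unique {M n : ℕ} [NeZero M] [NeZero n] {a : MerMod M} (h0 : a ≠ 0) {P Q : HPar M n}
    (ha : IsCharFun M n a P) (hb : IsCharFun M n a Q) : P = Q := by
  obtain ⟨τ, hτ⟩ : ∃ τ, a.1 τ ≠ 0 := by
    by_contra h
    push Not at h
    exact h0 (Subtype.ext (funext h))
  apply Subtype.ext
  ext γ
  obtain ⟨γ, rfl⟩ := Additive.ofMul.surjective γ
  apply eN_injective n
  have h1 := ha γ τ
  rw [hb γ τ] at h1
  exact (mul_right_cancel₀ hτ h1).symm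

/-- comparison of the `1`- and the `M`-expansion of a nice function of period one. -/
theorem charFun_ofPowerSeries_qExpansion (M : ℕ) [NeZero M] {f : ℍ → ℂ} (hf : IsNice 1 f) :
    HahnSeries.ofPowerSeries ℤ ℂ (qExpansion M f)
      = qExpand ℂ M (HahnSeries.ofPowerSeries ℤ ℂ (qExpansion 1 f)) := by
  have hM : 0 < M := Nat.pos_of_ne_zero (NeZero.ne M)
  have key : ∀ n : ℕ, (qExpansion M f).coeff n =
      if M ∣ n then (qExpansion 1 f).coeff (n / M) else 0 := by
    intro n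
    have := UpperHalfPlane.qExpansion_coeff_nat_mul one_pos hf.per hf.holo hf.bdd hM n
    rwa [mul_one] at this
  ext k
  by_cases hdvd : (M : ℤ) ∣ k
  · obtain ⟨m, rfl⟩ := hdvd
    rw [qExpand_coeff_mul]
    rcases le_or_gt 0 m with hm | hm
    · lift m to ℕ using hm
      rw [HahnSeries.ofPowerSeries_apply_coeff]
      have : (M : ℤ) * (m : ℤ) = ((M * m : ℕ) : ℤ) := by push_cast; ring
      rw [this, HahnSeries.ofPowerSeries_apply_coeff, key,
        if_pos (Dvd.intro _ rfl), Nat.mul_div_cancel_left _ hM]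
    · rw [ofPowerSeries_coeff_of_neg _ hm, ofPowerSeries_coeff_of_neg]
      exact mul_neg_of_pos_of_neg (by exact_mod_cast hM) hm
  · rw [qExpand_coeff_of_not_dvd _ _ hdvd]
    rcases le_or_gt 0 k with hk | hk
    · lift k to ℕ using hk
      rw [HahnSeries.ofPowerSeries_apply_coeff, key, if_neg]
      intro h
      exact hdvd (by exact_mod_cast h)
    · exact ofPowerSeries_coeff_of_neg _ hk

/-- a char function is invariant under `τ ↦ τ + 1`. -/
theorem IsCharFun.vadd_one {M n : ℕ} {a : MerMod M} {P : HPar M n}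
    (ha : IsCharFun M n a P) (τ : ℍ) : a.1 ((1 : ℝ) +ᵥ τ) = a.1 τ := by
  have hT : ModularGroup.T ∈ Gamma0 M := T_mem_Gamma0 M
  have h1 := ha ⟨ModularGroup.T, hT⟩ τ
  have hP : (P : Additive (Gamma0 M) →+ ZMod n) (Additive.ofMul ⟨ModularGroup.T, hT⟩) = 0 := by
    refine P.2 ⟨ModularGroup.T, hT⟩ ?_
    simp [ModularGroup.coe_T, Matrix.trace_fin_two]
  rw [hP, eN_zero, one_mul] at h1
  rw [← h1]
  exact congrArg a.1 (UpperHalfPlane.modular_T_smul τ).symm

/-- a function on `ℍ` invariant under `τ ↦ τ + 1` is `1`-periodic. -/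
theorem charFun_periodic_one {g : ℍ → ℂ} (hg : ∀ τ : ℍ, g ((1 : ℝ) +ᵥ τ) = g τ) :
    Function.Periodic (g ∘ ofComplex) (1 : ℝ) := by
  intro w
  by_cases hw : 0 < w.im
  · have hw' : 0 < (w + ((1 : ℝ) : ℂ)).im := by simpa using hw
    simp only [Function.comp_apply]
    rw [ofComplex_apply_of_im_pos hw, ofComplex_apply_of_im_pos hw', ← hg ⟨w, hw⟩]
    congr 1
    apply UpperHalfPlane.ext
    simp [add_comm]
  · rw [not_lt] at hw
    have hw' : (w + ((1 : ℝ) : ℂ)).im ≤ 0 := by simpa using hw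
    simp only [Function.comp_apply]
    rw [ofComplex_apply_of_im_nonpos hw, ofComplex_apply_of_im_nonpos hw']

/-- a char function is `1`-periodic, so its `Q`-expansion is a series in `q = Q^M`. -/
theorem IsCharFun.exists_kapC {M n : ℕ} [NeZero M] [NeZero n] {a : MerMod M} {P : HPar M n}
    (ha : IsCharFun M n a P) : ∃ A : LaurentSeries ℂ, LamM M a = kapC M A := by
  obtain ⟨m, hm⟩ := a.2 1
  simp only [one_smul] at hm
  have hΔ1 : ∀ τ : ℍ, Δ ((1 : ℝ) +ᵥ τ) = Δ τ := fun τ => by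
    have := isNice_discriminant_one.per (τ : ℂ)
    simp only [Function.comp_apply] at this
    have h1 : ofComplex ((τ : ℂ) + ((1 : ℝ) : ℂ)) = (1 : ℝ) +ᵥ τ := by
      have hpos : 0 < ((τ : ℂ) + ((1 : ℝ) : ℂ)).im := by simpa using τ.im_pos
      rw [ofComplex_apply_of_im_pos hpos]
      apply UpperHalfPlane.ext
      simp [add_comm]
    rw [h1, ofComplex_apply] at this
    exact this
  have hg1 : IsNice 1 (fun τ => Δ τ ^ m * a.1 τ) :=
    { per := by
        have := charFun_periodic_one (g := fun τ => Δ τ ^ m * a.1 τ)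
          (fun τ => by simp only [hΔ1, ha.vadd_one])
        simpa using this
      holo := hm.holo
      bdd := hm.bdd }
  obtain ⟨D, hD⟩ : ∃ D : MerInf M, D.1 = Δ := ⟨⟨_, (isNice_discriminant M).mem_MerInf⟩, rfl⟩
  obtain ⟨G, hG⟩ : ∃ G : MerInf M, G.1 = fun τ => Δ τ ^ m * a.1 τ := ⟨⟨_, hm.mem_MerInf⟩, rfl⟩
  have hmul : D ^ m * (Subalgebra.inclusion (MerMod_le_MerInf M) a) = G := by
    apply Subtype.ext
    funext τ
    have : (D ^ m * (Subalgebra.inclusion (MerMod_le_MerInf M) a)).1 τ = D.1 τ ^ m * a.1 τ := rfl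
    rw [this, hD, hG]
  have hLD : Lam M D = qExpand ℂ M (HahnSeries.ofPowerSeries ℤ ℂ (qExpansion 1 Δ)) := by
    rw [Lam_of_isNice M D (by rw [hD]; exact isNice_discriminant M), hD]
    exact charFun_ofPowerSeries_qExpansion M isNice_discriminant_one
  have hLG : Lam M G = qExpand ℂ M
      (HahnSeries.ofPowerSeries ℤ ℂ (qExpansion 1 (fun τ => Δ τ ^ m * a.1 τ))) := by
    rw [Lam_of_isNice M G (by rw [hG]; exact hm), hG]
    exact charFun_ofPowerSeries_qExpansion M hg1
  have hD0 : Lam M D ≠ 0 := by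
    intro h0
    have hD00 : D = 0 := Lam_injective M (by rw [h0, map_zero])
    have h1 : D.1 UpperHalfPlane.I = 0 := by rw [hD00]; rfl
    rw [hD] at h1
    exact ModularForm.discriminant_ne_zero _ h1
  refine ⟨HahnSeries.ofPowerSeries ℤ ℂ (qExpansion 1 (fun τ => Δ τ ^ m * a.1 τ)) /
    (HahnSeries.ofPowerSeries ℤ ℂ (qExpansion 1 Δ)) ^ m, ?_⟩
  have h3 : Lam M D ^ m * LamM M a = Lam M G := by
    rw [← hmul, map_mul, map_pow]
    rfl
  unfold kapC
  rw [map_div₀, map_pow, ← hLD, ← hLG, ← h3, mul_div_cancel_left₀ _ (pow_ne_zero m hD0)]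

/-- existence (from `exists_charFun`). -/
theorem exists_isCharFun (M n : ℕ) [NeZero M] [NeZero n] (P : HPar M n) :
    ∃ a : MerMod M, a ≠ 0 ∧ IsCharFun M n a P := by
  obtain ⟨χ, h1, h2, h3⟩ := exists_chi M n P
  obtain ⟨u, hu1, -, hu3⟩ := exists_charFun M χ h2 h3
  refine ⟨u, ?_, fun γ τ => by rw [hu1 γ τ, h1 γ]⟩
  rintro rfl
  have h0 : (fun τ : ℍ => Δ τ * (0 : MerMod M).1 τ) = fun _ => 0 := by
    funext τ
    have : (0 : MerMod M).1 τ = 0 := rfl
    rw [this, mul_zero]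
  rw [h0] at hu3
  have := tendsto_nhds_unique hu3 tendsto_const_nhds
  exact one_ne_zero this

end Fermat.Agent.GAL.AN
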