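import Fermat.Agent.GAL.AN.Package
import Fermat.Agent.S24.Mod.Degree

/-!
# GAL / AN : shared definitions of the analytic block

* `eN n : ZMod n → ℂ`, `x ↦ exp (2πi x / n)`
* `IsCharFun M n a P` : the holomorphic function `a ∈ MerMod M` satisfies `a(γτ) = eN (P γ) a(τ)`
* `kapC M`, `kapQ M` : `ℂ((q)) → ℂ((Q))`, `ℚ̄((q)) → ℂ((Q))`, `Q = q^{1/M}`
* `IsReal M n h Pa Pb` : `h ∈ ℚ̄((q))` is the `q`-expansion of `a / b`, `a`, `b` char functions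
-/

set_option autoImplicit false

open ModularCurve AlgebraicCurve CongruenceSubgroup UpperHalfPlane
open Fermat.Agent.S24
open scoped MatrixGroups

noncomputable section

namespace Fermat.Agent.GAL.AN

/-- the additive character `ℤ/n → ℂˣ`. -/
def eN (n : ℕ) (x : ZMod n) : ℂ := Complex.exp (2 * Real.pi * Complex.I * (x.val : ℂ) / (n : ℂ))

/-- `a(γ τ) = e(P(γ)/n) a(τ)` for `γ ∈ Γ₀(M)`. -/
def IsCharFun (M n : ℕ) (a : MerMod M) (P : HPar M n) : Prop :=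
  ∀ (γ : Gamma0 M) (τ : ℍ), a.1 ((γ : SL(2, ℤ)) • τ)
    = eN n ((P : Additive (Gamma0 M) →+ ZMod n) (Additive.ofMul γ)) * a.1 τ

/-- `ℂ((q)) → ℂ((Q))`, `q = Q^M`. -/
def kapC (M : ℕ) [NeZero M] : LaurentSeries ℂ →+* LaurentSeries ℂ := qExpand ℂ M

/-- `ℚ̄((q)) → ℂ((q))`. -/
def iotaS : LaurentSeries Qb →+* LaurentSeries ℂ := coeffMap iota

/-- `ℚ̄((q)) → ℂ((Q))`. -/
def kapQ (M : ℕ) [NeZero M] : LaurentSeries Qb →+* LaurentSeries ℂ := (kapC M).comp iotaS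

/-- `H ∈ ℂ((q))` is the `q`-expansion of `a / b`. -/
def IsRealC (M n : ℕ) [NeZero M] (H : LaurentSeries ℂ) (Pa Pb : HPar M n) : Prop :=
  ∃ a b : MerMod M, a ≠ 0 ∧ b ≠ 0 ∧ IsCharFun M n a Pa ∧ IsCharFun M n b Pb ∧
    LamM M a = kapC M H * LamM M b

/-- `h ∈ ℚ̄((q))` is the `q`-expansion of `a / b`. -/
def IsReal (M n : ℕ) [NeZero M] (h : LaurentSeries Qb) (Pa Pb : HPar M n) : Prop :=
  IsRealC M n (iotaS h) Pa Pb

/-- `j(q)` as a Laurent series over `L`. -/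
def jL (L : Type*) [Field L] [Algebra ℚ L] : LaurentSeries L := coeffEmb L jq

/-- the multiplicative Hecke operator on functions on `ℍ`. -/
def heckeFun (ℓ : ℕ) [NeZero ℓ] (f : ℍ → ℂ) : ℍ → ℂ := fun τ =>
  f (scaleH ℓ τ) * ∏ b : Fin ℓ, f ⟨((τ : ℂ) + (b : ℕ)) / (ℓ : ℂ), by
    have hl : (0 : ℝ) < ℓ := by exact_mod_cast Nat.pos_of_ne_zero (NeZero.ne ℓ)
    have h1 : (((τ : ℂ) + (b : ℕ)) / (ℓ : ℂ)).im = τ.im / ℓ := by
      have : ((τ : ℂ) + (b : ℕ)) / (ℓ : ℂ) = (((τ : ℂ) + (b : ℕ)) / ((ℓ : ℝ) : ℂ)) := by simp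
      rw [this, Complex.div_ofReal_im]
      simp
    rw [h1]
    exact div_pos τ.im_pos hl⟩

end Fermat.Agent.GAL.AN
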