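import Fermat.Agent.S24.FF.LocalCount

/-!
# GAL / AN-6 : abstract divisibility lemma (variant of `S24.FF.card_places_eq_card_orbits`)

In the situation of the local counting lemma, the ramification index of the place attached to the
embedding `φ i` is *equal* to the period of `i`; hence divisibility of `W ∘ φ i` at `x` by `n`
(with the compatibility `s ∣ period * a i`) gives `n ∣ ord_v x` for every zero `v` of `t`.
-/

set_option autoImplicit false

open AlgebraicCurve IntermediateField
open Fermat.Agent.S24
open Fermat.Agent.S24.FF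

noncomputable section

namespace Fermat.Agent.GAL.AN

/-- termwise `≤`, equal sums along a bijection: termwise equality. -/
theorem ffu_eq_of_sum_eq {Q P : Type*} [Fintype Q] [Fintype P] (π : Q → P)
    (hπ : Function.Bijective π) (size : Q → ℕ) (e : P → ℕ)
    (hle : ∀ q, e (π q) ≤ size q) (hsum : ∑ q, size q = ∑ p, e p) (q : Q) :
    e (π q) = size q := by
  classical
  have h1 : ∑ q, e (π q) = ∑ p, e p := hπ.sum_comp e
  have h2 : ∑ q, e (π q) = ∑ q, size q := by rw [h1, hsum]
  exact (Finset.sum_eq_sum_iff_of_le (fun q _ => hle q)).mp h2 q (Finset.mem_univ q)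

theorem dvd_ord_of_orbits {K F : Type*} [Field K] [Field F] [Algebra K F]
    [IsAlgClosed K] [CharZero K] [FF.IsFF1 K F]
    {t : F} (ht : Transcendental K t)
    {𝓛 : Type*} [Field 𝓛] [Algebra K 𝓛]
    {I : Type*} [Finite I] {G : Type*} [Group G] [MulAction G I]
    (φ : I → F →ₐ[K] 𝓛) (hφinj : Function.Injective φ) (hφt : ∀ i j, φ i t = φ j t)
    (hI : Nat.card I = Module.finrank K⟮t⟯ F)
    (W : Valuation 𝓛 (WithZero (Multiplicative ℤ)))
    (hWK : ∀ a : K, a ≠ 0 → W (algebraMap K 𝓛 a) = 1)
    (s : ℕ) (hs : 0 < s) (hWt : ∀ i, W (φ i t) = WithZero.exp (-(s : ℤ)))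
    (g : G) (hg : ∀ i f, W (φ (g • i) f) = W (φ i f))
    (hdiv : ∀ i (f : F), f ≠ 0 →
      (s : ℤ) ∣ (MulAction.period g i : ℤ) * WithZero.log (W (φ i f)))
    (n : ℕ) (x : F) (hx : x ≠ 0) (a : I → ℤ)
    (ha : ∀ i, WithZero.log (W (φ i x)) = n * a i)
    (hsa : ∀ i, (s : ℤ) ∣ (MulAction.period g i : ℤ) * a i) :
    ∀ v : Place K F, 0 < v.ord t → (n : ℤ) ∣ v.ord x := by
  classical
  have : Fintype I := Fintype.ofFinite I
  have ht0 : t ≠ 0 := fun h => ht (h ▸ isAlgebraic_zero)
  have hWt' : ∀ i, W (φ i t) < 1 := by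
    intro i
    rw [hWt i, ← WithZero.exp_zero, WithZero.exp_lt_exp]
    omega
  -- the places attached to the embeddings
  choose w hw using fun i => exists_place_comap ht0 (φ i) W hWK (hWt' i)
  choose m hm0 hm using fun i =>
    exists_mul_ord_of_valuationSubring_eq (w i) (W.comap (φ i).toRingHom) (hw i).symm
  have hm' : ∀ i (f : F), f ≠ 0 → - WithZero.log (W (φ i f)) = m i * (w i).ord f := hm
  have hse : ∀ i, (s : ℤ) = m i * (w i).ord t := by
    intro i
    rw [← hm' i t ht0, hWt i, WithZero.log_exp, neg_neg]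
  have hwt : ∀ i, 0 < (w i).ord t := by
    intro i
    have h1 := hse i
    have h2 := hm0 i
    have h3 : (0 : ℤ) < s := by exact_mod_cast hs
    by_contra hcon
    push Not at hcon
    nlinarith
  -- period
  have hper : ∀ i : I,
      MulAction.period g i = Fintype.card (MulAction.orbit (Subgroup.zpowers g) i) :=
    fun i => MulAction.minimalPeriod_eq_card g i
  have hperpos : ∀ i : I, 0 < MulAction.period g i := by
    intro i
    rw [hper i]
    exact Fintype.card_pos_iff.mpr ⟨⟨i, MulAction.mem_orbit_self i⟩⟩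
  -- (1)
  have hle : ∀ i, (w i).ord t ≤ MulAction.period g i := by
    intro i
    obtain ⟨π, hπ⟩ := exists_ord_eq_one (w i)
    have hπ0 : π ≠ 0 := ne_zero_of_ord_ne_zero (w i) (by omega)
    have h1 := hdiv i π hπ0
    have h2 := hm' i π hπ0
    rw [hπ, mul_one] at h2
    have h3 : WithZero.log (W (φ i π)) = - m i := by omega
    rw [h3, hse i, mul_neg, dvd_neg, mul_comm (MulAction.period g i : ℤ)] at h1
    have h4 : (w i).ord t ∣ (MulAction.period g i : ℤ) :=
      (mul_dvd_mul_iff_left (hm0 i).ne').mp h1
    exact Int.le_of_dvd (by exact_mod_cast hperpos i) h4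
  -- (2)
  have hwg : ∀ i, w (g • i) = w i := by
    intro i
    apply Place.ext
    rw [hw, hw]
    ext f
    simp only [Valuation.mem_valuationSubring_iff, Valuation.comap_apply]
    exact (congrArg (· ≤ 1) (hg i f)).to_iff
  let H : Subgroup G :=
    { carrier := {x | ∀ i, w (x • i) = w i}
      mul_mem' := fun {a b} ha hb i => by rw [mul_smul, ha, hb]
      one_mem' := fun i => by rw [one_smul]
      inv_mem' := fun {a} ha i => by
        have := ha (a⁻¹ • i)
        rw [smul_inv_smul] at this
        exact this.symm }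
  have hH : Subgroup.zpowers g ≤ H := by
    rw [Subgroup.zpowers_le]
    exact hwg
  -- the map from orbits to places
  let P := {v : Place K F // 0 < v.ord t}
  let Q := MulAction.orbitRel.Quotient (Subgroup.zpowers g) I
  let π : Q → P := Quotient.lift (fun i => (⟨w i, hwt i⟩ : P)) (by
    rintro a b ⟨x, rfl⟩
    exact Subtype.ext (hH x.2 b))
  have hπsurj : Function.Surjective π := by
    rintro ⟨v, hv⟩
    obtain ⟨i, hi⟩ := exists_index_of_place ht φ hφinj hφt hI W hWK hWt' v hv
    refine ⟨Quotient.mk'' i, Subtype.ext ?_⟩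
    apply Place.ext
    show (w i).toValuationSubring = v.toValuationSubring
    rw [hw i, hi]
  have : Fintype P := (finite_zeros ht).fintype
  have : Fintype Q := Fintype.ofFinite Q
  have hsumP : ∑ p : P, (p.1.ord t).toNat = Module.finrank K⟮t⟯ F := by
    have h1 := sum_ord_zeros ht
    have h2 : ∑ p : P, ((p.1.ord t).toNat : ℤ) = ∑ v ∈ (finite_zeros ht).toFinset, v.ord t := by
      rw [← Finset.sum_coe_sort (finite_zeros ht).toFinset (fun v => v.ord t)]
      refine Fintype.sum_equiv (Equiv.subtypeEquivRight (fun v => by simp)) _ _ ?_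
      rintro ⟨v, hv⟩
      simp only [Equiv.subtypeEquivRight_apply_coe]
      exact Int.toNat_of_nonneg (le_of_lt hv)
    have h3 : ((∑ p : P, (p.1.ord t).toNat : ℕ) : ℤ) = (Module.finrank K⟮t⟯ F : ℤ) := by
      rw [← h1, ← h2]; push_cast; rfl
    exact_mod_cast h3
  have hsumQ : ∑ q : Q, Nat.card q.orbit = Module.finrank K⟮t⟯ F := by
    rw [← hI, Nat.card_congr (MulAction.selfEquivSigmaOrbits' (Subgroup.zpowers g) I),
      Nat.card_sigma]
  have hinj : Function.Injective π := by
    refine injective_of_sum_eq π hπsurj (fun q => Nat.card q.orbit) ?_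
      (fun p => (p.1.ord t).toNat) ?_ (hsumQ.trans hsumP.symm)
    · intro q
      induction q using Quotient.inductionOn' with
      | h i =>
        rw [MulAction.orbitRel.Quotient.orbit_mk, Nat.card_eq_fintype_card, ← hper i]
        exact hperpos i
    · intro q
      induction q using Quotient.inductionOn' with
      | h i =>
        rw [MulAction.orbitRel.Quotient.orbit_mk, Nat.card_eq_fintype_card, ← hper i]
        show ((w i).ord t).toNat ≤ _
        have := hle i
        omega
  -- NEW: the ramification index equals the period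
  have heq : ∀ i, (w i).ord t = MulAction.period g i := by
    intro i
    have h := ffu_eq_of_sum_eq π ⟨hinj, hπsurj⟩ (fun q => Nat.card q.orbit)
      (fun p => (p.1.ord t).toNat) ?_ (hsumQ.trans hsumP.symm) (Quotient.mk'' i)
    · have h' : ((w i).ord t).toNat = Nat.card (MulAction.orbit (Subgroup.zpowers g) i) := by
        have h2 := h
        rw [MulAction.orbitRel.Quotient.orbit_mk] at h2
        exact h2
      rw [Nat.card_eq_fintype_card, ← hper i] at h'
      have := hwt i
      omega
    · intro q
      induction q using Quotient.inductionOn' with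
      | h i =>
        rw [MulAction.orbitRel.Quotient.orbit_mk, Nat.card_eq_fintype_card, ← hper i]
        show ((w i).ord t).toNat ≤ _
        have := hle i
        omega
  intro v hv
  obtain ⟨q, hq⟩ := hπsurj ⟨v, hv⟩
  induction q using Quotient.inductionOn' with
  | h i =>
    have hvi : w i = v := congrArg Subtype.val hq
    rw [← hvi]
    have h1 := hsa i
    rw [hse i, heq i, mul_comm (MulAction.period g i : ℤ) (a i)] at h1
    have hp0 : (MulAction.period g i : ℤ) ≠ 0 := by exact_mod_cast (hperpos i).ne'
    obtain ⟨b, hb⟩ := (mul_dvd_mul_iff_right hp0).mp h1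
    have h2 := hm' i x hx
    rw [ha i, hb] at h2
    have h3 : m i * (w i).ord x = m i * (-(n * b)) := by rw [← h2]; ring
    have h4 := mul_left_cancel₀ (hm0 i).ne' h3
    rw [h4]
    exact Dvd.dvd.neg_right (Dvd.intro _ rfl)

end Fermat.Agent.GAL.AN
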