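import Fermat.Agent.GAL.AN.EN
import Fermat.Agent.GAL.HK.CohBasic
import Fermat.Agent.GAL.HK.Bridge
import Fermat.Agent.S24.Mod.Hermite

/-! # GAL / AN-8 (common part) : the `ℓ + 1` Hecke correspondences on `ℍ` and the transformation
law of `heckeFun ℓ a`. -/

set_option autoImplicit false

open ModularCurve AlgebraicCurve CongruenceSubgroup UpperHalfPlane IntermediateField
open Fermat.Agent.S24 ModularForm
open scoped MatrixGroups

noncomputable section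

namespace Fermat.Agent.GAL.AN

/-- `τ ↦ ℓ τ` and `τ ↦ (τ + b) / ℓ`. -/
def hAct (ℓ : ℕ) [NeZero ℓ] : Option (Fin ℓ) → ℍ → ℍ
  | none => affH ℓ 1 0 (Nat.pos_of_ne_zero (NeZero.ne ℓ)) one_pos
  | some b => affH 1 ℓ ((b : ℕ) : ℤ) one_pos (Nat.pos_of_ne_zero (NeZero.ne ℓ))

theorem heckeFun_eq_prod (ℓ : ℕ) [NeZero ℓ] (f : ℍ → ℂ) (τ : ℍ) :
    heckeFun ℓ f τ = ∏ i : Option (Fin ℓ), f (hAct ℓ i τ) := by
  rw [Fintype.prod_option, heckeFun]
  congr 1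
  · congr 1
    apply UpperHalfPlane.ext
    simp [hAct]
  · refine Finset.prod_congr rfl fun b _ => ?_
    congr 1
    apply UpperHalfPlane.ext
    simp [hAct]

/-- the real matrix of `heckeRep ℓ i`. -/
def repGL (ℓ : ℕ) [NeZero ℓ] : Option (Fin ℓ) → GL (Fin 2) ℝ
  | none => upperTriangularGL (ℓ : ℝ) ((0 : ℤ) : ℝ) ((1 : ℕ) : ℝ)
      (Her.pos_aux (Nat.pos_of_ne_zero (NeZero.ne ℓ)) one_pos).ne'
  | some b => upperTriangularGL ((1 : ℕ) : ℝ) ((((b : ℕ) : ℤ)) : ℝ) (ℓ : ℝ)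
      (Her.pos_aux one_pos (Nat.pos_of_ne_zero (NeZero.ne ℓ))).ne'

theorem hAct_eq_smul (ℓ : ℕ) [NeZero ℓ] (i : Option (Fin ℓ)) (τ : ℍ) :
    hAct ℓ i τ = repGL ℓ i • τ := by
  cases i with
  | none => exact Her.affH_eq_smul ℓ 1 0 (Nat.pos_of_ne_zero (NeZero.ne ℓ)) one_pos τ
  | some b => exact Her.affH_eq_smul 1 ℓ ((b : ℕ) : ℤ) one_pos (Nat.pos_of_ne_zero (NeZero.ne ℓ)) τ

theorem val_repGL (ℓ : ℕ) [NeZero ℓ] (i : Option (Fin ℓ)) :
    (repGL ℓ i : Matrix (Fin 2) (Fin 2) ℝ) = (heckeRep ℓ i).map (Int.cast : ℤ → ℝ) := by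
  cases i with
  | none =>
    rw [repGL, val_upperTriangularGL, heckeRep]
    ext i j
    fin_cases i <;> fin_cases j <;> simp
  | some b =>
    rw [repGL, val_upperTriangularGL, heckeRep]
    ext i j
    fin_cases i <;> fin_cases j <;> simp

theorem val_mapGL_eq_map (g : SL(2, ℤ)) :
    ((Matrix.SpecialLinearGroup.mapGL ℝ g : GL (Fin 2) ℝ) : Matrix (Fin 2) (Fin 2) ℝ) =
      (g : Matrix (Fin 2) (Fin 2) ℤ).map (Int.cast : ℤ → ℝ) := by
  ext i j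
  simp

/-- an integral identity `α_i g = g' α_j` gives `α_i (g τ) = g' (α_j τ)`. -/
theorem hAct_smul (ℓ : ℕ) [NeZero ℓ] {i j : Option (Fin ℓ)} {g g' : SL(2, ℤ)}
    (h : heckeRep ℓ i * (g : Matrix (Fin 2) (Fin 2) ℤ) =
      (g' : Matrix (Fin 2) (Fin 2) ℤ) * heckeRep ℓ j) (τ : ℍ) :
    hAct ℓ i (g • τ) = g' • hAct ℓ j τ := by
  have hmat : repGL ℓ i * Matrix.SpecialLinearGroup.mapGL ℝ g =
      Matrix.SpecialLinearGroup.mapGL ℝ g' * repGL ℓ j := by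
    apply Units.ext
    rw [Units.val_mul, Units.val_mul, val_repGL, val_repGL, val_mapGL_eq_map, val_mapGL_eq_map]
    have := congrArg (fun X : Matrix (Fin 2) (Fin 2) ℤ => X.map (Int.castRingHom ℝ)) h
    simp only [Matrix.map_mul] at this
    exact this
  rw [hAct_eq_smul, hAct_eq_smul]
  change repGL ℓ i • (Matrix.SpecialLinearGroup.mapGL ℝ g) • τ =
    (Matrix.SpecialLinearGroup.mapGL ℝ g') • _
  rw [← mul_smul, ← mul_smul, hmat]

/-- **transformation law** of `heckeFun ℓ a`. -/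
theorem heckeFun_smul (M n ℓ : ℕ) [NeZero M] [NeZero n] [NeZero ℓ] (hℓ : ℓ.Prime) (hℓM : ¬ ℓ ∣ M)
    (a : MerMod M) (P : HPar M n) (ha : IsCharFun M n a P) (γ : Gamma0 M) (τ : ℍ) :
    heckeFun ℓ a.1 ((γ : SL(2, ℤ)) • τ) =
      eN n (heckeCoh M ℓ (P : Additive (Gamma0 M) →+ ZMod n) (Additive.ofMul γ)) *
        heckeFun ℓ a.1 τ := by
  rw [heckeFun_eq_prod, heckeFun_eq_prod, heckeCoh_apply M ℓ hℓ hℓM, heckeCohFun, eN_sum,
    ← Equiv.prod_comp (HK.idxPerm hℓ hℓM γ) (fun j => a.1 (hAct ℓ j τ)), ← Finset.prod_mul_distrib]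
  refine Finset.prod_congr rfl fun i _ => ?_
  rw [hAct_smul ℓ (HK.heckeCoc_spec_idx hℓ hℓM γ i) τ, ha]
  rfl

end Fermat.Agent.GAL.AN
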