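import Fermat.Agent.S24.Mod.Degree
import Fermat.Agent.GAL.AN.Defs

/-!
# GAL / AN-3 (INV) : holomorphic `Γ₀(M)`-invariant functions lie in `FL ℂ M`

If `a ∈ MerMod M` is invariant under `Γ₀(M)` then its `Q`-expansion is `x(Q^M)` for some
`x ∈ FL ℂ M = ℂ(j(q^d) : d ∣ M)`.

Proof: Lagrange interpolation.  `θ = j(Mτ)` has pairwise distinct conjugates `θ_i`
(`i ∈ SL(2,ℤ)/Γ₀(M)`), and `G_a(X) = ∑_i a_i ∏_{k ≠ i} (X - θ_k)` has `SL(2,ℤ)`-invariant
coefficients, which are therefore polynomials in `j`.  `G_a(θ) = a · D`, `G_1(θ) = D ≠ 0`.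
-/

set_option autoImplicit false

open UpperHalfPlane ModularForm Function ModularCurve CongruenceSubgroup
open scoped Manifold MatrixGroups

noncomputable section

namespace Fermat.Agent.GAL.AN

open Fermat.Agent.S24

/-- `γ • (i.out • a) = (γ • i).out • a` for `Γ₀(M)`-invariant `a`. -/
theorem inv_smul_conjM {M : ℕ} [NeZero M] {a : MerMod M}
    (ha : ∀ g ∈ Gamma0 M, g • a = a) (γ : SL(2, ℤ)) (i : Cos M) :
    γ • conjM a i = conjM a (γ • i) := by
  have key : ∀ δ : SL(2, ℤ), conjM a (δ : Cos M) = δ • a := by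
    intro δ
    obtain ⟨h, hh⟩ := QuotientGroup.mk_out_eq_mul (Gamma0 M) δ
    rw [conjM, hh, mul_smul, ha _ h.2]
  induction i using QuotientGroup.induction_on with
  | H δ =>
    have : γ • (δ : Cos M) = ((γ * δ : SL(2, ℤ)) : Cos M) := rfl
    rw [this, key, key, mul_smul]

theorem inv_conjM_one {M : ℕ} [NeZero M] {a : MerMod M}
    (ha : ∀ g ∈ Gamma0 M, g • a = a) : conjM a ((1 : SL(2, ℤ)) : Cos M) = a := by
  obtain ⟨h, hh⟩ := QuotientGroup.mk_out_eq_mul (Gamma0 M) 1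
  rw [conjM, hh, mul_smul, ha _ h.2, one_smul]

/-- `θ = j(Mτ)`. -/
def thetaM (M : ℕ) [NeZero M] : MerMod M := ⟨jD M, jD_mem_MerMod dvd_rfl⟩

theorem thetaM_inv (M : ℕ) [NeZero M] : ∀ g ∈ Gamma0 M, g • thetaM M = thetaM M := by
  intro g hg
  apply Subtype.ext
  funext τ
  exact jD_smul_of_mem_Gamma0 dvd_rfl (inv_mem hg) τ

theorem conjM_thetaM_injective (M : ℕ) [NeZero M] : Function.Injective (conjM (thetaM M)) := by
  intro i i' hii
  have key : ∀ δ : SL(2, ℤ), conjM (thetaM M) (δ : Cos M) = δ • thetaM M := by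
    intro δ
    obtain ⟨h, hh⟩ := QuotientGroup.mk_out_eq_mul (Gamma0 M) δ
    rw [conjM, hh, mul_smul, thetaM_inv M _ h.2]
  induction i using QuotientGroup.induction_on with
  | H γ =>
  induction i' using QuotientGroup.induction_on with
  | H γ' =>
  rw [key, key] at hii
  rw [QuotientGroup.eq]
  apply mem_Gamma0_of_jD_smul
  intro τ
  have h3 := congrFun (congrArg Subtype.val hii) (γ' • τ)
  simp only [smul_MerMod_apply, inv_smul_smul] at h3
  rw [mul_smul]
  exact h3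

open Polynomial in
/-- the Lagrange polynomial `∑_i a_i ∏_{k ≠ i} (X - θ_k)`. -/
def lagM {M : ℕ} [NeZero M] (a : MerMod M) : Polynomial (MerMod M) :=
  letI := Fintype.ofFinite (Cos M)
  letI := Classical.decEq (Cos M)
  ∑ i : Cos M, C (conjM a i) * ∏ k ∈ Finset.univ.erase i, (X - C (conjM (thetaM M) k))

open Polynomial in
theorem smul_lagM {M : ℕ} [NeZero M] {a : MerMod M} (ha : ∀ g ∈ Gamma0 M, g • a = a)
    (γ : SL(2, ℤ)) : γ • lagM a = lagM a := by
  let _ := Fintype.ofFinite (Cos M)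
  let _ := Classical.decEq (Cos M)
  unfold lagM
  rw [Finset.smul_sum]
  have h1 : ∀ k : Cos M, γ • (X - C (conjM (thetaM M) k)) = X - C (conjM (thetaM M) (γ • k)) := by
    intro k
    rw [smul_eq_map, Polynomial.map_sub, map_X, map_C, MulSemiringAction.toRingHom_apply,
      inv_smul_conjM (thetaM_inv M)]
  have h2 : ∀ i : Cos M,
      γ • (C (conjM a i) * ∏ k ∈ Finset.univ.erase i, (X - C (conjM (thetaM M) k))) =
        C (conjM a (γ • i)) *
          ∏ k ∈ Finset.univ.erase (γ • i), (X - C (conjM (thetaM M) k)) := by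
    intro i
    rw [smul_mul', Finset.smul_prod']
    congr 1
    · rw [smul_eq_map, map_C, MulSemiringAction.toRingHom_apply, inv_smul_conjM ha]
    · simp only [h1]
      refine Finset.prod_bij (fun k _ => γ • k) ?_ ?_ ?_ ?_
      · intro k hk
        simp only [Finset.mem_erase, Finset.mem_univ, and_true, ne_eq] at hk ⊢
        exact fun h => hk (MulAction.injective γ h)
      · intro k _ k' _ h
        exact MulAction.injective γ h
      · intro k hk
        refine ⟨γ⁻¹ • k, ?_, smul_inv_smul γ k⟩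
        simp only [Finset.mem_erase, Finset.mem_univ, and_true, ne_eq] at hk ⊢
        intro h
        exact hk (by rw [← h, smul_inv_smul])
      · intro k _
        rfl
  simp only [h2]
  exact Equiv.sum_comp (MulAction.toPerm γ) (fun i : Cos M =>
    C (conjM a i) * ∏ k ∈ Finset.univ.erase i, (X - C (conjM (thetaM M) k)))

/-- the "different" `D = ∏_{k ≠ 1} (θ - θ_k)`. -/
def diffM (M : ℕ) [NeZero M] : MerMod M :=
  letI := Fintype.ofFinite (Cos M)
  letI := Classical.decEq (Cos M)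
  ∏ k ∈ Finset.univ.erase ((1 : SL(2, ℤ)) : Cos M), (thetaM M - conjM (thetaM M) k)

theorem diffM_ne_zero (M : ℕ) [NeZero M] : diffM M ≠ 0 := by
  let _ := Fintype.ofFinite (Cos M)
  let _ := Classical.decEq (Cos M)
  unfold diffM
  rw [Finset.prod_ne_zero_iff]
  intro k hk
  simp only [Finset.mem_erase, Finset.mem_univ, and_true, ne_eq] at hk
  rw [sub_ne_zero]
  intro h
  apply hk
  apply conjM_thetaM_injective M
  rw [← h, inv_conjM_one (thetaM_inv M)]

open Polynomial in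
theorem eval_lagM {M : ℕ} [NeZero M] {a : MerMod M} (ha : ∀ g ∈ Gamma0 M, g • a = a) :
    (lagM a).eval (thetaM M) = a * diffM M := by
  let _ := Fintype.ofFinite (Cos M)
  let _ := Classical.decEq (Cos M)
  unfold lagM diffM
  rw [eval_finsetSum, Finset.sum_eq_single ((1 : SL(2, ℤ)) : Cos M)]
  · rw [eval_mul, eval_C, inv_conjM_one ha, eval_prod]
    simp
  · intro i _ hi
    rw [eval_mul, eval_prod]
    have : ∏ k ∈ Finset.univ.erase i, eval (thetaM M) (X - C (conjM (thetaM M) k)) = 0 := by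
      apply Finset.prod_eq_zero (i := ((1 : SL(2, ℤ)) : Cos M))
      · simp only [Finset.mem_erase, Finset.mem_univ, and_true, ne_eq]
        exact fun h => hi h.symm
      · simp [inv_conjM_one (thetaM_inv M)]
    rw [this, mul_zero]
  · intro h
    exact absurd (Finset.mem_univ _) h

/-- the subfield `{x(Q^M) : x ∈ FL ℂ M}` of `ℂ((Q))`. -/
def FLQ (M : ℕ) [NeZero M] : Subfield (LaurentSeries ℂ) :=
  (FL ℂ M).toSubfield.map (qExpand ℂ M)

theorem mem_FLQ {M : ℕ} [NeZero M] {y : LaurentSeries ℂ} :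
    y ∈ FLQ M ↔ ∃ x ∈ FL ℂ M, y = qExpand ℂ M x := by
  constructor
  · rintro ⟨x, hx, rfl⟩
    exact ⟨x, hx, rfl⟩
  · rintro ⟨x, hx, rfl⟩
    exact ⟨x, hx, rfl⟩

theorem C_mem_FLQ (M : ℕ) [NeZero M] (c : ℂ) : HahnSeries.C c ∈ FLQ M := by
  rw [mem_FLQ]
  refine ⟨algebraMap ℂ (LaurentSeries ℂ) c, (FL ℂ M).algebraMap_mem c, ?_⟩
  rw [algebraMap_laurentSeries_eq_single, qExpand_single, mul_zero]
  rfl

theorem jqd_mem_FL (M d : ℕ) [NeZero d] (hd : d ∣ M) : qExpand ℂ d (jqModC ℂ) ∈ FL ℂ M := by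
  have h1 : coeffEmb ℂ (qExpand ℚ d jq) ∈ FL ℂ M :=
    coeffEmb_mem_laurentBaseChange ℂ (jqd_mem_full M hd)
  have h2 : coeffEmb ℂ (qExpand ℚ d jq) = qExpand ℂ d (jqModC ℂ) := by
    change coeffMap (algebraMap ℚ ℂ) (qExpand ℚ d jq) = _
    rw [coeffMap_qExpand]
    congr 1
    exact map_jqModC (K := ℚ) (algebraMap ℚ ℂ)
  rwa [h2] at h1

theorem LamM_jD_mem_FLQ (M d : ℕ) [NeZero M] [NeZero d] (hd : d ∣ M) :
    LamM M ⟨jD d, jD_mem_MerMod hd⟩ ∈ FLQ M := by
  rw [mem_FLQ]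
  refine ⟨_, jqd_mem_FL M d hd, ?_⟩
  rw [qExpand_qExpand]
  exact Lam_jD M d (MerMod_le_MerInf M (jD_mem_MerMod hd))

theorem LamM_jM_mem_FLQ (M : ℕ) [NeZero M] : LamM M (jM M) ∈ FLQ M := by
  have h := LamM_jD_mem_FLQ M 1 (one_dvd M)
  have e : (⟨jD 1, jD_mem_MerMod (one_dvd M)⟩ : MerMod M) = jM M := by
    apply Subtype.ext
    funext τ
    change jFun (scaleH 1 τ) = jFun τ
    congr 1
    apply UpperHalfPlane.ext
    simp
  rwa [e] at h

theorem LamM_aeval_jM_mem_FLQ (M : ℕ) [NeZero M] (p : Polynomial ℂ) :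
    LamM M (Polynomial.aeval (jM M) p) ∈ FLQ M := by
  induction p using Polynomial.induction_on with
  | C c =>
    rw [Polynomial.aeval_C, LamM_algebraMap]
    exact C_mem_FLQ M c
  | add p q hp hq =>
    rw [map_add, map_add]
    exact add_mem hp hq
  | monomial n c h =>
    rw [pow_succ, ← mul_assoc, map_mul, Polynomial.aeval_X, map_mul]
    exact mul_mem h (LamM_jM_mem_FLQ M)

theorem LamM_eval_lagM_mem_FLQ {M : ℕ} [NeZero M] {a : MerMod M}
    (ha : ∀ g ∈ Gamma0 M, g • a = a) : LamM M ((lagM a).eval (thetaM M)) ∈ FLQ M := by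
  rw [Polynomial.eval_eq_sum_range, map_sum]
  refine sum_mem fun k _ => ?_
  rw [map_mul, map_pow]
  refine mul_mem ?_ (pow_mem (LamM_jD_mem_FLQ M M dvd_rfl) k)
  obtain ⟨p, hp⟩ := exists_polynomial_of_smul_eq ((lagM a).coeff k) (by
    intro γ
    rw [← Polynomial.coeff_smul, smul_lagM ha])
  rw [hp]
  exact LamM_aeval_jM_mem_FLQ M p

theorem LamM_mem_FLQ_of_invariant {M : ℕ} [NeZero M] {a : MerMod M}
    (ha : ∀ g ∈ Gamma0 M, g • a = a) : LamM M a ∈ FLQ M := by
  have h1 := LamM_eval_lagM_mem_FLQ ha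
  have h2 := LamM_eval_lagM_mem_FLQ (M := M) (a := 1) (fun g _ => smul_one g)
  rw [eval_lagM ha, map_mul] at h1
  rw [eval_lagM (fun g _ => smul_one g), one_mul] at h2
  have h3 : LamM M (diffM M) ≠ 0 := by
    rw [Ne, map_eq_zero_iff _ (LamM_injective M)]
    exact diffM_ne_zero M
  have h4 : LamM M a = LamM M a * LamM M (diffM M) * (LamM M (diffM M))⁻¹ := by
    rw [mul_assoc, mul_inv_cancel₀ h3, mul_one]
  rw [h4]
  exact mul_mem h1 (inv_mem h2)

/-- **AN-3 (INV)**: a holomorphic `Γ₀(M)`-invariant function, meromorphic at the cusps, is an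
element of the function field `FL ℂ M`. -/
theorem exists_mem_FL_of_invariant (M : ℕ) [NeZero M] (a : MerMod M)
    (ha : ∀ g ∈ Gamma0 M, g • a = a) : ∃ x ∈ FL ℂ M, LamM M a = qExpand ℂ M x :=
  mem_FLQ.mp (LamM_mem_FLQ_of_invariant ha)

/-- the same statement with the notation `kapC` of `AN/Defs.lean` (board statement AN-3). -/
theorem inv_mem_FL (M : ℕ) [NeZero M] (a : MerMod M) (ha : ∀ γ ∈ Gamma0 M, γ • a = a) :
    ∃ x ∈ FL ℂ M, LamM M a = kapC M x :=
  exists_mem_FL_of_invariant M a ha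

end Fermat.Agent.GAL.AN
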