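import Fermat.Agent.GAL.AN.Defs
import Fermat.Agent.GAL.AN.FFU
import Fermat.Agent.S24.Mod.LocalInt
import Fermat.Agent.S24.Mod.LocalCusp

/-!
# GAL / AN-7a : unramifiedness of `w = (a/b)^n`, `a`, `b` char functions

`unram_generic` : `n ∣ ord_v w` for all places `v` of `F`, generic in `(K, F, φ)`.
-/

set_option autoImplicit false

open ModularCurve AlgebraicCurve CongruenceSubgroup UpperHalfPlane IntermediateField
open Fermat.Agent.S24
open scoped MatrixGroups

noncomputable section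

namespace Fermat.Agent.GAL.AN

/-! ### group theory -/

theorem unram_trace_conj (γ g : SL(2, ℤ)) :
    ((γ⁻¹ * g * γ : SL(2, ℤ)) : Matrix (Fin 2) (Fin 2) ℤ).trace
      = (g : Matrix (Fin 2) (Fin 2) ℤ).trace := by
  rw [Matrix.SpecialLinearGroup.coe_mul, Matrix.trace_mul_comm, ← Matrix.SpecialLinearGroup.coe_mul,
    mul_inv_cancel_left]

/-- a fixed coset gives a conjugate in `Γ₀(M)`. -/
theorem unram_conj_mem_of_smul_eq {M : ℕ} (g : SL(2, ℤ)) (i : Cos M) (h : g • i = i) :
    (i.out)⁻¹ * g * i.out ∈ Gamma0 M := by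
  have h1 : ((i.out : SL(2, ℤ)) : Cos M) = i := QuotientGroup.out_eq' i
  rw [← h1, MulAction.Quotient.smul_coe, eq_comm, QuotientGroup.eq, smul_eq_mul] at h
  rwa [mul_assoc]

theorem unram_entries_of_mem {M : ℕ} {δ : SL(2, ℤ)} (h : δ ∈ Gamma0 M) :
    ∃ x z : ℤ, x * ((δ : Matrix (Fin 2) (Fin 2) ℤ).trace - x) - (M : ℤ) * z = 1 := by
  rw [Gamma0_mem, ZMod.intCast_zmod_eq_zero_iff_dvd] at h
  obtain ⟨c, hc⟩ := h
  have hdet := Matrix.SpecialLinearGroup.det_coe δ
  rw [Matrix.det_fin_two] at hdet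
  refine ⟨δ 0 0, δ 0 1 * c, ?_⟩
  rw [Matrix.trace_fin_two]
  rw [hc] at hdet
  linear_combination hdet

theorem unram_S_smul_ne {M : ℕ} (hM : AdmLevel M) (i : Cos M) : ModularGroup.S • i ≠ i := by
  intro h
  obtain ⟨x, z, hxz⟩ := unram_entries_of_mem (unram_conj_mem_of_smul_eq _ i h)
  rw [unram_trace_conj] at hxz
  have htr : (ModularGroup.S : Matrix (Fin 2) (Fin 2) ℤ).trace = 0 := by
    rw [Matrix.trace_fin_two, ModularGroup.coe_S]; simp
  rw [htr] at hxz
  rcases hM with ⟨c, rfl⟩ | ⟨c, rfl⟩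
  · have h4 : ∀ y : ZMod 4, y * (0 - y) ≠ 1 := by decide
    apply h4 (x : ZMod 4)
    have := congrArg (Int.cast : ℤ → ZMod 4) hxz
    push_cast at this
    rw [show (4 : ZMod 4) = 0 from rfl] at this
    simpa using this
  · have h9 : ∀ y : ZMod 9, y * (0 - y) ≠ 1 := by decide
    apply h9 (x : ZMod 9)
    have := congrArg (Int.cast : ℤ → ZMod 9) hxz
    push_cast at this
    rw [show (9 : ZMod 9) = 0 from rfl] at this
    simpa using this

theorem unram_ST_smul_ne {M : ℕ} (hM : AdmLevel M) (i : Cos M) :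
    (ModularGroup.S * ModularGroup.T) • i ≠ i := by
  intro h
  obtain ⟨x, z, hxz⟩ := unram_entries_of_mem (unram_conj_mem_of_smul_eq _ i h)
  rw [unram_trace_conj] at hxz
  have htr : ((ModularGroup.S * ModularGroup.T : SL(2, ℤ)) : Matrix (Fin 2) (Fin 2) ℤ).trace = 1 := by
    rw [Matrix.trace_fin_two, Matrix.SpecialLinearGroup.coe_mul, ModularGroup.coe_S,
      ModularGroup.coe_T]
    simp [Matrix.mul_apply, Fin.sum_univ_two]
  rw [htr] at hxz
  rcases hM with ⟨c, rfl⟩ | ⟨c, rfl⟩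
  · have h4 : ∀ y : ZMod 4, y * (1 - y) ≠ 1 := by decide
    apply h4 (x : ZMod 4)
    have := congrArg (Int.cast : ℤ → ZMod 4) hxz
    push_cast at this
    rw [show (4 : ZMod 4) = 0 from rfl] at this
    simpa using this
  · have h9 : ∀ y : ZMod 9, y * (1 - y) ≠ 1 := by decide
    apply h9 (x : ZMod 9)
    have := congrArg (Int.cast : ℤ → ZMod 9) hxz
    push_cast at this
    rw [show (9 : ZMod 9) = 0 from rfl] at this
    simpa using this

theorem unram_period_S {M : ℕ} (hM : AdmLevel M) (i : Cos M) :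
    MulAction.period ModularGroup.S i = 2 := by
  have hsq : ModularGroup.S ^ 2 = (-1 : SL(2, ℤ)) := by decide
  have hper : MulAction.period ModularGroup.S i ∣ 2 := by
    rw [← MulAction.pow_smul_eq_iff_period_dvd, hsq, li_neg_one_smul]
  rcases (Nat.dvd_prime Nat.prime_two).mp hper with h | h
  · rw [MulAction.period_eq_one_iff] at h
    exact absurd h (unram_S_smul_ne hM i)
  · exact h

theorem unram_period_ST {M : ℕ} (hM : AdmLevel M) (i : Cos M) :
    MulAction.period (ModularGroup.S * ModularGroup.T) i = 3 := by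
  have hcube : (ModularGroup.S * ModularGroup.T) ^ 3 = (-1 : SL(2, ℤ)) := by decide
  have hper : MulAction.period (ModularGroup.S * ModularGroup.T) i ∣ 3 := by
    rw [← MulAction.pow_smul_eq_iff_period_dvd, hcube, li_neg_one_smul]
  rcases (Nat.dvd_prime Nat.prime_three).mp hper with h | h
  · rw [MulAction.period_eq_one_iff] at h
    exact absurd h (unram_ST_smul_ne hM i)
  · exact h

/-! ### char functions -/

theorem unram_eN_zero (n : ℕ) : eN n 0 = 1 := by
  simp [eN]

/-- a char function is invariant under the elements of `Γ₀(M)` of trace `±2`. -/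
theorem unram_smul_eq_of_trace {M n : ℕ} {c : MerMod M} {P : HPar M n} (hc : IsCharFun M n c P)
    {δ : SL(2, ℤ)} (hδ : δ ∈ Gamma0 M)
    (htr : (δ : Matrix (Fin 2) (Fin 2) ℤ).trace ^ 2 = 4) : δ • c = c := by
  apply Subtype.ext
  funext τ
  rw [smul_MerMod_apply]
  have h1 := hc ⟨δ, hδ⟩ (δ⁻¹ • τ)
  have h2 : (P : Additive (Gamma0 M) →+ ZMod n) (Additive.ofMul ⟨δ, hδ⟩) = 0 := P.2 ⟨δ, hδ⟩ htr
  rw [h2, unram_eN_zero, one_mul] at h1
  rw [← h1]
  simp

theorem unram_trace_T_pow (k : ℕ) :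
    ((ModularGroup.T ^ k : SL(2, ℤ)) : Matrix (Fin 2) (Fin 2) ℤ).trace = 2 := by
  rw [Matrix.trace_fin_two, ← zpow_natCast, ModularGroup.coe_T_zpow]
  simp

/-- `T ^ period` fixes `i.out • c`. -/
theorem unram_T_pow_period_smul {M n : ℕ} {c : MerMod M} {P : HPar M n} (hc : IsCharFun M n c P)
    (i : Cos M) :
    ModularGroup.T ^ (MulAction.period ModularGroup.T i) • (i.out • c) = i.out • c := by
  set k := MulAction.period ModularGroup.T i with hk
  have hfix : ModularGroup.T ^ k • i = i := MulAction.pow_period_smul _ _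
  have hmem := unram_conj_mem_of_smul_eq _ i hfix
  have htr : (((i.out)⁻¹ * ModularGroup.T ^ k * i.out : SL(2, ℤ)) :
      Matrix (Fin 2) (Fin 2) ℤ).trace ^ 2 = 4 := by
    rw [unram_trace_conj, unram_trace_T_pow]; norm_num
  have h := unram_smul_eq_of_trace hc hmem htr
  conv_rhs => rw [← h]
  rw [← mul_smul, ← mul_smul]
  congr 1
  group

/-! ### valuations of constants -/

theorem unram_Wat_algebraMap_C {N : ℕ} [NeZero N] (τ₀ : ℍ) (z : ℂ) (hz : z ≠ 0) :
    Wat N τ₀ (algebraMap ℂ (LL N) z) = 1 := by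
  classical
  rw [IsScalarTower.algebraMap_apply ℂ (MerMod N) (LL N)]
  have hne : algebraMap ℂ (MerMod N) z ≠ 0 := by
    rw [Ne, map_eq_zero_iff _ (algebraMap ℂ (MerMod N)).injective]
    exact hz
  rw [Wat_algebraMap τ₀ _ hne]
  have h1 : evC N (algebraMap ℂ (MerMod N) z) = fun _ => z := rfl
  rw [h1, meromorphicOrderAt_const, if_neg hz]
  simp

theorem unram_Winf_algebraMap_C {N : ℕ} [NeZero N] (z : ℂ) (hz : z ≠ 0) :
    Winf N (algebraMap ℂ (LL N) z) = 1 := by
  classical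
  rw [IsScalarTower.algebraMap_apply ℂ (MerMod N) (LL N)]
  have hne : algebraMap ℂ (MerMod N) z ≠ 0 := by
    rw [Ne, map_eq_zero_iff _ (algebraMap ℂ (MerMod N)).injective]
    exact hz
  rw [Winf_algebraMap _ hne]
  have h1 : evQ N (algebraMap ℂ (MerMod N) z) = fun _ => z := rfl
  rw [h1, meromorphicOrderAt_const, if_neg hz]
  simp

theorem unram_jM_ne_zero (N : ℕ) [NeZero N] : jM N ≠ 0 := by
  intro h
  have h1 := order_evQ_jM N
  rw [h, map_zero] at h1
  have h2 : meromorphicOrderAt (0 : ℂ → ℂ) 0 = ⊤ :=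
    meromorphicOrderAt_eq_top_iff.mpr (Filter.Eventually.of_forall fun _ => rfl)
  rw [h2] at h1
  exact WithTop.top_ne_coe h1

theorem unram_Winf_jM_inv (N : ℕ) [NeZero N] :
    Winf N (algebraMap (MerMod N) (LL N) (jM N))⁻¹ = WithZero.exp (-(N : ℤ)) := by
  rw [map_inv₀, Winf_algebraMap _ (unram_jM_ne_zero N), order_evQ_jM, WithTop.untop₀_coe,
    neg_neg, WithZero.exp_neg]

theorem unram_Wat_jM_sub {N : ℕ} [NeZero N] (τ₀ : ℍ) (z : ℂ) (s : ℕ)
    (hs : meromorphicOrderAt (fun x : ℂ => jFun (ofComplex x) - z) (τ₀ : ℂ) = s) :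
    Wat N τ₀ (algebraMap (MerMod N) (LL N) (jM N) - algebraMap ℂ (LL N) z)
      = WithZero.exp (-(s : ℤ)) := by
  have hev : evC N (jM N - algebraMap ℂ (MerMod N) z) =
      fun x : ℂ => jFun (ofComplex x) - z := rfl
  have hne : jM N - algebraMap ℂ (MerMod N) z ≠ 0 := by
    intro h0
    have h1 : meromorphicOrderAt (evC N (jM N - algebraMap ℂ (MerMod N) z)) (τ₀ : ℂ) = ⊤ := by
      rw [h0, map_zero, meromorphicOrderAt_eq_top_iff]
      exact Filter.Eventually.of_forall fun _ => rfl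
    rw [hev, hs] at h1
    exact absurd h1 (by simp)
  have hphi : algebraMap (MerMod N) (LL N) (jM N) - algebraMap ℂ (LL N) z =
      algebraMap (MerMod N) (LL N) (jM N - algebraMap ℂ (MerMod N) z) := by
    rw [map_sub, ← IsScalarTower.algebraMap_apply ℂ (MerMod N) (LL N)]
  rw [hphi, Wat_algebraMap τ₀ _ hne, hev, hs]
  rfl

/-! ### the core, abstract in the valuation -/

section Core

variable (M n : ℕ) [NeZero M] [NeZero n]
  {K F : Type*} [Field K] [IsAlgClosed K] [CharZero K] [Field F] [Algebra K F] [FF.IsFF1 K F]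
  [Algebra K (LL M)] (ιK : K →+* ℂ)
  (halg : ∀ c : K, algebraMap K (LL M) c = algebraMap ℂ (LL M) (ιK c))
  (φ : Cos M → F →ₐ[K] LL M) (hφ : Function.Injective φ)
  (hsmul : ∀ (g : SL(2, ℤ)) (i : Cos M) (x : F), φ (g • i) x = g • φ i x)
  (w : F) (hw : w ≠ 0) (a b : MerMod M) (ha : a ≠ 0) (hb : b ≠ 0)
  (hwab : φ ((1 : SL(2, ℤ)) : Cos M) w * algebraMap (MerMod M) (LL M) b ^ n
      = algebraMap (MerMod M) (LL M) a ^ n)

omit [NeZero n] [IsAlgClosed K] [CharZero K] [FF.IsFF1 K F] in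
include hsmul hwab in
theorem unram_rel (i : Cos M) :
    φ i w * algebraMap (MerMod M) (LL M) (i.out • b) ^ n
      = algebraMap (MerMod M) (LL M) (i.out • a) ^ n := by
  have h1 : i.out • (((1 : SL(2, ℤ)) : Cos M)) = i := by
    rw [MulAction.Quotient.smul_coe, smul_eq_mul, mul_one]
    exact QuotientGroup.out_eq' i
  have h2 := congrArg (fun x : LL M => i.out • x) hwab
  simp only [smul_mul', smul_pow', smul_algebraMap_LL] at h2
  rw [← hsmul, h1] at h2
  exact h2

omit [NeZero n] in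
include halg hφ hsmul hw hb hwab in
theorem unram_core (W : Valuation (LL M) (WithZero (Multiplicative ℤ)))
    (hWC : ∀ z : ℂ, z ≠ 0 → W (algebraMap ℂ (LL M) z) = 1)
    {t : F} (ht : Transcendental K t) (hφt : ∀ i j, φ i t = φ j t)
    (hI : Nat.card (Cos M) = Module.finrank K⟮t⟯ F)
    (s : ℕ) (hs : 0 < s) (hWt : ∀ i, W (φ i t) = WithZero.exp (-(s : ℤ)))
    (g : SL(2, ℤ)) (hg : ∀ h : LL M, W (g • h) = W h)
    (hdiv : ∀ i (f : F), f ≠ 0 →
      (s : ℤ) ∣ (MulAction.period g i : ℤ) * WithZero.log (W (φ i f)))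
    (hsa : ∀ i : Cos M, (s : ℤ) ∣ (MulAction.period g i : ℤ) *
      WithZero.log (W (algebraMap (MerMod M) (LL M) (i.out • a))))
    (hsb : ∀ i : Cos M, (s : ℤ) ∣ (MulAction.period g i : ℤ) *
      WithZero.log (W (algebraMap (MerMod M) (LL M) (i.out • b)))) :
    ∀ v : Place K F, 0 < v.ord t → (n : ℤ) ∣ v.ord w := by
  have hinj := IsFractionRing.injective (MerMod M) (LL M)
  have hne : ∀ (γ : SL(2, ℤ)) (c : MerMod M), c ≠ 0 →
      W (algebraMap (MerMod M) (LL M) (γ • c)) ≠ 0 := by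
    intro γ c hc
    rw [Valuation.ne_zero_iff, Ne, map_eq_zero_iff _ hinj, smul_eq_zero_iff_eq]
    exact hc
  refine dvd_ord_of_orbits (K := K) (F := F) (𝓛 := LL M) (I := Cos M) (G := SL(2, ℤ)) ht φ hφ hφt hI
    W ?_ s hs hWt g (fun i f => by rw [hsmul, hg]) hdiv n w hw
    (fun i => WithZero.log (W (algebraMap (MerMod M) (LL M) (i.out • a)))
      - WithZero.log (W (algebraMap (MerMod M) (LL M) (i.out • b)))) ?_ ?_
  · intro c hc
    rw [halg]
    exact hWC _ ((map_ne_zero ιK).mpr hc)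
  · intro i
    have h1 := congrArg W (unram_rel M n φ hsmul w a b hwab i)
    rw [map_mul, map_pow, map_pow] at h1
    have hφw : W (φ i w) ≠ 0 := by
      rw [Valuation.ne_zero_iff]
      exact (map_ne_zero _).mpr hw
    have h2 := congrArg WithZero.log h1
    rw [WithZero.log_mul hφw (pow_ne_zero _ (hne _ b hb)), WithZero.log_pow, WithZero.log_pow] at h2
    simp only [nsmul_eq_mul] at h2
    linear_combination h2
  · intro i
    rw [mul_sub]
    exact dvd_sub (hsa i) (hsb i)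

end Core

theorem unram_generic (M n : ℕ) [NeZero M] [NeZero n] (hM : AdmLevel M)
    {K F : Type*} [Field K] [IsAlgClosed K] [CharZero K] [Field F] [Algebra K F] [FF.IsFF1 K F]
    [Algebra K (LL M)] (ιK : K →+* ℂ)
    (halg : ∀ c : K, algebraMap K (LL M) c = algebraMap ℂ (LL M) (ιK c))
    (J : F) (hJ : Transcendental K J)
    (φ : Cos M → F →ₐ[K] LL M) (hφ : Function.Injective φ)
    (hφJ : ∀ i, φ i J = algebraMap (MerMod M) (LL M) (jM M))
    (hcard : Nat.card (Cos M) = Module.finrank K⟮J⟯ F)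
    (hsmul : ∀ (g : SL(2, ℤ)) (i : Cos M) (x : F), φ (g • i) x = g • φ i x)
    (w : F) (hw : w ≠ 0) (a b : MerMod M) (ha : a ≠ 0) (hb : b ≠ 0) (Pa Pb : HPar M n)
    (hPa : IsCharFun M n a Pa) (hPb : IsCharFun M n b Pb)
    (hwab : φ ((1 : SL(2, ℤ)) : Cos M) w * algebraMap (MerMod M) (LL M) b ^ n
      = algebraMap (MerMod M) (LL M) a ^ n) :
    ∀ v : Place K F, (n : ℤ) ∣ v.ord w := by
  intro v
  have hinj := IsFractionRing.injective (MerMod M) (LL M)
  have hneL : ∀ (γ : SL(2, ℤ)) (c : MerMod M), c ≠ 0 →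
      algebraMap (MerMod M) (LL M) (γ • c) ≠ 0 := by
    intro γ c hc
    rw [Ne, map_eq_zero_iff _ hinj, smul_eq_zero_iff_eq]
    exact hc
  rcases lt_or_ge (v.ord J) 0 with hv | hv
  · -- cusps
    refine unram_core M n ιK halg φ hφ hsmul w hw a b hb hwab (Winf M)
      (fun z hz => unram_Winf_algebraMap_C z hz) (t := J⁻¹) (FF.transcendental_inv hJ)
      (fun i j => by rw [map_inv₀, map_inv₀, hφJ, hφJ])
      (by rw [FF.finrank_adjoin_inv, hcard]) M (Nat.pos_of_ne_zero (NeZero.ne M))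
      (fun i => by rw [map_inv₀, hφJ]; exact unram_Winf_jM_inv M)
      ModularGroup.T (fun h => Winf_T_smul h)
      (fun i f hf => dvd_mul_log_Winf (φ i f) (by rwa [Ne, map_eq_zero]) _
        (by rw [← hsmul, MulAction.pow_period_smul]))
      (fun i => dvd_mul_log_Winf _ (hneL _ a ha) _
        (by rw [smul_algebraMap_LL, unram_T_pow_period_smul hPa]))
      (fun i => dvd_mul_log_Winf _ (hneL _ b hb) _
        (by rw [smul_algebraMap_LL, unram_T_pow_period_smul hPb])) v ?_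
    rw [Place.ord_inv]
    omega
  · -- interior points
    obtain ⟨c, hc'⟩ := FF.exists_ord_sub_pos v hv
    have hc : 0 < v.ord (J - algebraMap K F c) := by
      rcases hc' with h | h
      · exact absurd (h ▸ isAlgebraic_algebraMap c) hJ
      · exact h
    have hφt : ∀ i, φ i (J - algebraMap K F c)
        = algebraMap (MerMod M) (LL M) (jM M) - algebraMap ℂ (LL M) (ιK c) := by
      intro i
      rw [map_sub, hφJ, AlgHom.commutes, halg]
    have main : ∀ (τ₀ : ℍ) (s : ℕ) (_ : 0 < s)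
        (_ : meromorphicOrderAt (fun x : ℂ => jFun (ofComplex x) - ιK c) (τ₀ : ℂ) = s)
        (g : SL(2, ℤ)) (_ : g • τ₀ = τ₀) (_ : ∀ i : Cos M, s ∣ MulAction.period g i),
        (n : ℤ) ∣ v.ord w := by
      intro τ₀ s hs0 hs g hg hper
      have hper' : ∀ (i : Cos M) (x : ℤ), (s : ℤ) ∣ (MulAction.period g i : ℤ) * x := fun i x =>
        Dvd.dvd.mul_right (by exact_mod_cast hper i) x
      exact unram_core M n ιK halg φ hφ hsmul w hw a b hb hwab (Wat M τ₀)
        (fun z hz => unram_Wat_algebraMap_C τ₀ z hz) (t := J - algebraMap K F c)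
        (FF.transcendental_sub_algebraMap hJ c)
        (fun i j => by rw [hφt, hφt])
        (by rw [FF.finrank_adjoin_sub_algebraMap, hcard]) s hs0
        (fun i => by rw [hφt]; exact unram_Wat_jM_sub τ₀ _ s hs)
        g (fun h => Wat_smul τ₀ g hg h)
        (fun i f _ => hper' i _) (fun i => hper' i _) (fun i => hper' i _) v hc
    by_cases h0 : ιK c = 0
    · refine main rhoH 3 (by norm_num) ?_ _ ST_smul_rhoH (fun i => ?_)
      · rw [h0]
        exact order_jFun_rhoH
      · rw [unram_period_ST hM]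
    by_cases h1 : ιK c = 1728
    · refine main UpperHalfPlane.I 2 (by norm_num) ?_ _ S_smul_I (fun i => ?_)
      · rw [h1]
        exact order_jFun_sub_I
      · rw [unram_period_S hM]
    · obtain ⟨τ₀, hτ₀⟩ := jFun_surjective (ιK c)
      refine main τ₀ 1 one_pos ?_ 1 (one_smul _ _) (fun i => one_dvd _)
      rw [← hτ₀]
      refine order_jFun_sub_generic τ₀ ?_ ?_
      · rw [hτ₀]; exact h0
      · rw [hτ₀]; exact h1

end Fermat.Agent.GAL.AN
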