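import Fermat.Agent.GAL.AN.CharFun
import Fermat.Agent.GAL.AN.Inv
import Fermat.Agent.GAL.AN.LD
import Fermat.Agent.GAL.AN.PsiC
import Fermat.Agent.GAL.AN.Unram

/-! # GAL / AN-7b : realisable series are everywhere unramified Kummer elements -/

set_option autoImplicit false

open ModularCurve AlgebraicCurve CongruenceSubgroup UpperHalfPlane IntermediateField
open Fermat.Agent.S24
open scoped MatrixGroups

noncomputable section

namespace Fermat.Agent.GAL.AN

theorem kapC_injective (M : ℕ) [NeZero M] : Function.Injective (kapC M) := (kapC M).injective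

theorem iotaS_injective : Function.Injective iotaS := iotaS.injective

/-- the `n`-th power of a realisable series lies in `FL ℂ M`. -/
theorem IsRealC.pow_mem_FL {M n : ℕ} [NeZero M] [NeZero n]
    {H : LaurentSeries ℂ} {Pa Pb : HPar M n} (h : IsRealC M n H Pa Pb) : H ^ n ∈ FL ℂ M := by
  obtain ⟨a, b, ha, hb, hPa, hPb, hab⟩ := h
  have hLb : LamM M b ≠ 0 := fun h0 => hb (LamM_injective M (by rw [h0, map_zero]))
  obtain ⟨xa, hxa, hxa'⟩ := inv_mem_FL M (a ^ n) (isCharFun_zero_iff.mp hPa.pow_self)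
  obtain ⟨xb, hxb, hxb'⟩ := inv_mem_FL M (b ^ n) (isCharFun_zero_iff.mp hPb.pow_self)
  have hHn : H ^ n = xa / xb := by
    apply kapC_injective M
    rw [map_div₀, ← hxa', ← hxb', map_pow, map_pow, map_pow, hab, mul_pow]
    field_simp
  rw [hHn]
  exact div_mem hxa hxb

theorem IsRealC.ne_zero {M n : ℕ} [NeZero M]
    {H : LaurentSeries ℂ} {Pa Pb : HPar M n} (h : IsRealC M n H Pa Pb) : H ≠ 0 := by
  obtain ⟨a, b, ha, hb, hPa, hPb, hab⟩ := h
  rintro rfl
  apply ha
  apply LamM_injective M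
  rw [hab, map_zero, zero_mul, map_zero]

theorem isKum_of_isRealC (M n : ℕ) [NeZero M] [NeZero n] (hM : AdmLevel M)
    {H : LaurentSeries ℂ} {Pa Pb : HPar M n} (h : IsRealC M n H Pa Pb) : IsKum ℂ M n H := by
  have hH := h.ne_zero
  have hf := h.pow_mem_FL
  obtain ⟨a, b, ha, hb, hPa, hPb, hab⟩ := h
  refine ⟨hH, hf, ?_⟩
  refine unram_generic M n hM (RingHom.id ℂ) (fun c => rfl) (JC M) (transcendental_JC M)
    (phiC M) (phiC_injective M) phiC_JC (finrank_FLC M).symm phiC_smul ⟨H ^ n, hf⟩ ?_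
    a b ha hb Pa Pb hPa hPb ?_
  · intro h0
    exact pow_ne_zero n hH (congrArg Subtype.val h0)
  · apply LamL_injective M
    rw [phiC_mk, one_smul, map_mul, LamL_PsiC, map_pow, map_pow, map_pow, LamL_algebraMap,
      LamL_algebraMap, hab, mul_pow]

theorem isKum_of_isReal (M n : ℕ) [NeZero M] [NeZero n] (hM : AdmLevel M)
    {h : LaurentSeries Qb} {Pa Pb : HPar M n} (hr : IsReal M n h Pa Pb) : IsKum Qb M n h := by
  have hH : iotaS h ≠ 0 := IsRealC.ne_zero hr
  have hh : h ≠ 0 := by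
    rintro rfl
    exact hH (map_zero _)
  have hf' : iotaS (h ^ n) ∈ FL ℂ M := by
    rw [map_pow]
    exact IsRealC.pow_mem_FL hr
  have hf : h ^ n ∈ FL Qb M := mem_FL_of_iotaS_mem M hf'
  obtain ⟨a, b, ha, hb, hPa, hPb, hab⟩ := hr
  refine ⟨hh, hf, ?_⟩
  refine unram_generic M n hM (K := Qb) (F := FN M) iota (fun c => ?_) (JJ M) (transcendental_JJ M)
    (phi M) (phi_injective M) phi_JJ (finrank_FN M).symm phi_smul ⟨h ^ n, hf⟩ ?_
    a b ha hb Pa Pb hPa hPb ?_
  · rw [IsScalarTower.algebraMap_apply Kb ℂ (LL M)]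
    rfl
  · intro h0
    exact pow_ne_zero n hh (congrArg Subtype.val h0)
  · apply LamL_injective M
    rw [phi_mk, one_smul, map_mul, LamL_Psi, map_pow (LamL M), map_pow (LamL M), LamL_algebraMap,
      LamL_algebraMap, hab, mul_pow, kap_apply]
    congr 1
    show qExpand ℂ M (coeffMap iota (h ^ n)) = _
    rw [map_pow, map_pow]
    rfl

end Fermat.Agent.GAL.AN
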