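import Fermat.Agent.GAL.AN.IsKum

/-! # GAL / AN-9a : realisable series, the group `Van` and its character -/

set_option autoImplicit false

open ModularCurve AlgebraicCurve CongruenceSubgroup UpperHalfPlane IntermediateField
open Fermat.Agent.S24
open scoped MatrixGroups

noncomputable section

namespace Fermat.Agent.GAL.AN

/-- the underlying homomorphism of an element of `HPar`. -/
abbrev HPar.hom {M n : ℕ} (P : HPar M n) : Additive (Gamma0 M) →+ ZMod n := P.1

theorem HPar.ext' {M n : ℕ} {P Q : HPar M n}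
    (h : ∀ γ : Gamma0 M, HPar.hom P (Additive.ofMul γ) = HPar.hom Q (Additive.ofMul γ)) : P = Q :=
  Subtype.ext (AddMonoidHom.ext fun γ => h (Additive.toMul γ))

theorem LamM_ne_zero {M : ℕ} [NeZero M] {a : MerMod M} (ha : a ≠ 0) : LamM M a ≠ 0 := by
  intro h
  exact ha (LamM_injective M (by rw [h, map_zero]))

theorem IsRealC.one (M n : ℕ) [NeZero M] : IsRealC M n 1 0 0 :=
  ⟨1, 1, one_ne_zero, one_ne_zero, IsCharFun.one M n, IsCharFun.one M n, by simp⟩

variable {M n : ℕ} [NeZero M] [NeZero n]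

theorem IsRealC.mul {H H' : LaurentSeries ℂ} {Pa Pb Pa' Pb' : HPar M n}
    (h : IsRealC M n H Pa Pb) (h' : IsRealC M n H' Pa' Pb') :
    IsRealC M n (H * H') (Pa + Pa') (Pb + Pb') := by
  obtain ⟨a, b, ha, hb, hPa, hPb, hab⟩ := h
  obtain ⟨a', b', ha', hb', hPa', hPb', hab'⟩ := h'
  refine ⟨a * a', b * b', mul_ne_zero ha ha', mul_ne_zero hb hb', hPa.mul hPa', hPb.mul hPb', ?_⟩
  rw [map_mul, map_mul, map_mul, hab, hab']
  ring

omit [NeZero n] in
theorem IsRealC.inv {H : LaurentSeries ℂ} {Pa Pb : HPar M n} (h : IsRealC M n H Pa Pb) :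
    IsRealC M n H⁻¹ Pb Pa := by
  have hH := h.ne_zero
  obtain ⟨a, b, ha, hb, hPa, hPb, hab⟩ := h
  refine ⟨b, a, hb, ha, hPb, hPa, ?_⟩
  have hk : kapC M H ≠ 0 := by
    intro h0
    exact hH (kapC_injective M (by rw [h0, map_zero]))
  rw [hab, map_inv₀, ← mul_assoc, inv_mul_cancel₀ hk, one_mul]

theorem IsRealC.sub_unique {H : LaurentSeries ℂ} {Pa Pb Pa' Pb' : HPar M n}
    (h : IsRealC M n H Pa Pb) (h' : IsRealC M n H Pa' Pb') : Pa - Pb = Pa' - Pb' := by
  obtain ⟨a, b, ha, hb, hPa, hPb, hab⟩ := h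
  obtain ⟨a', b', ha', hb', hPa', hPb', hab'⟩ := h'
  have h1 : a * b' = a' * b := by
    apply LamM_injective M
    rw [map_mul, map_mul, hab, hab']
    ring
  have h2 : Pa + Pb' = Pa' + Pb :=
    IsCharFun.unique (mul_ne_zero ha hb') (hPa.mul hPb') (h1 ▸ hPa'.mul hPb)
  exact (sub_eq_sub_iff_add_eq_add (a := Pa) (b := Pb) (c := Pa') (d := Pb')).mpr h2

omit [NeZero n] in
/-- elements of `FL ℂ M` are realised with trivial characters. -/
theorem isRealC_of_mem_FL {H : LaurentSeries ℂ} (hH : H ∈ FL ℂ M) (h0 : H ≠ 0) :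
    IsRealC M n H 0 0 := by
  obtain ⟨a, b, hb, hia, hib, hab⟩ := exists_ratio (M := M) ⟨H, hH⟩
  have h1 := congrArg (LamL M) hab
  rw [map_mul, LamL_PsiC, LamL_algebraMap, LamL_algebraMap] at h1
  refine ⟨a, b, ?_, hb, isCharFun_zero_iff.mpr hia, isCharFun_zero_iff.mpr hib, h1.symm⟩
  rintro rfl
  rw [map_zero] at h1
  rcases mul_eq_zero.mp h1 with h2 | h2
  · exact h0 (kapC_injective M (by rw [h2, map_zero]))
  · exact LamM_ne_zero hb h2

/-- equal characters: the series lies in `FL ℂ M`. -/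
theorem IsRealC.mem_FL {H : LaurentSeries ℂ} {P : HPar M n} (h : IsRealC M n H P P) :
    H ∈ FL ℂ M := by
  obtain ⟨a, b, ha, hb, hPa, hPb, hab⟩ := h
  have h2 : P + (n - 1) • P = 0 := by
    apply HPar.ext'
    intro γ
    show HPar.hom P (Additive.ofMul γ) + (n - 1) • HPar.hom P (Additive.ofMul γ) = 0
    have h3 : ((n - 1 : ℕ) : ZMod n) = -1 := by
      rw [Nat.cast_sub NeZero.one_le]
      simp
    rw [nsmul_eq_mul, h3]
    ring
  have h1 : IsCharFun M n (a * b ^ (n - 1)) 0 := h2 ▸ hPa.mul (hPb.pow (n - 1))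
  have h3 : IsCharFun M n (b ^ n) 0 := hPb.pow_self
  obtain ⟨x₁, hx₁, e₁⟩ := inv_mem_FL M _ (isCharFun_zero_iff.mp h1)
  obtain ⟨x₂, hx₂, e₂⟩ := inv_mem_FL M _ (isCharFun_zero_iff.mp h3)
  have hx20 : x₂ ≠ 0 := by
    rintro rfl
    rw [map_zero] at e₂
    exact LamM_ne_zero (pow_ne_zero n hb) e₂
  have hbn : b ^ n = b ^ (n - 1) * b := by
    rw [← pow_succ, Nat.sub_add_cancel NeZero.one_le]
  have h4 : x₁ = H * x₂ := by
    apply kapC_injective M
    rw [map_mul, ← e₁, ← e₂, hbn, map_mul, map_mul, hab]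
    ring
  have h5 : H = x₁ / x₂ := by
    rw [h4, mul_div_cancel_right₀ _ hx20]
  rw [h5]
  exact div_mem hx₁ hx₂

/-- the group `Van`. -/
def Van (M n : ℕ) [NeZero M] [NeZero n] : Subgroup (LaurentSeries Qb)ˣ where
  carrier := {u | ∃ Pa Pb : HPar M n, IsReal M n (u : LaurentSeries Qb) Pa Pb}
  mul_mem' := by
    rintro u v ⟨Pa, Pb, h⟩ ⟨Pa', Pb', h'⟩
    refine ⟨Pa + Pa', Pb + Pb', ?_⟩
    have := IsRealC.mul h h'
    unfold IsReal
    rwa [Units.val_mul, map_mul]
  one_mem' := ⟨0, 0, by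
    unfold IsReal
    rw [Units.val_one, map_one]
    exact IsRealC.one M n⟩
  inv_mem' := by
    rintro u ⟨Pa, Pb, h⟩
    refine ⟨Pb, Pa, ?_⟩
    have := IsRealC.inv h
    unfold IsReal
    rwa [Units.val_inv_eq_inv_val, map_inv₀]

theorem mem_Van {u : (LaurentSeries Qb)ˣ} :
    u ∈ Van M n ↔ ∃ Pa Pb : HPar M n, IsReal M n (u : LaurentSeries Qb) Pa Pb := Iff.rfl

/-- the character of an element of `Van`. -/
def chrFun (u : Van M n) : HPar M n := u.2.choose - u.2.choose_spec.choose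

theorem chrFun_eq (u : Van M n) {Pa Pb : HPar M n}
    (h : IsReal M n ((u : (LaurentSeries Qb)ˣ) : LaurentSeries Qb) Pa Pb) : chrFun u = Pa - Pb :=
  IsRealC.sub_unique u.2.choose_spec.choose_spec h

theorem exists_isReal (u : Van M n) : ∃ Pa Pb : HPar M n,
    IsReal M n ((u : (LaurentSeries Qb)ˣ) : LaurentSeries Qb) Pa Pb ∧ chrFun u = Pa - Pb :=
  ⟨_, _, u.2.choose_spec.choose_spec, rfl⟩

theorem chrFun_one : chrFun (1 : Van M n) = 0 :=
  (chrFun_eq (1 : Van M n) (Pa := 0) (Pb := 0) (by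
    unfold IsReal
    simp only [OneMemClass.coe_one, Units.val_one, map_one]
    exact IsRealC.one M n)).trans (sub_self (0 : HPar M n))

theorem chrFun_mul (u v : Van M n) : chrFun (u * v) = chrFun u + chrFun v := by
  obtain ⟨Pa, Pb, hu, eu⟩ := exists_isReal u
  obtain ⟨Pa', Pb', hv, ev⟩ := exists_isReal v
  have huv : chrFun (u * v) = (Pa + Pa') - (Pb + Pb') := chrFun_eq (u * v) (by
    have := IsRealC.mul hu hv
    unfold IsReal
    simp only [Subgroup.coe_mul, Units.val_mul, map_mul]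
    exact this)
  rw [huv, eu, ev]
  exact add_sub_add_comm Pa Pa' Pb Pb'

/-- the character as a homomorphism. -/
def chr (M n : ℕ) [NeZero M] [NeZero n] : Van M n →* Multiplicative (HPar M n) where
  toFun u := Multiplicative.ofAdd (chrFun u)
  map_one' := congrArg Multiplicative.ofAdd chrFun_one
  map_mul' u v := congrArg Multiplicative.ofAdd (chrFun_mul u v)

theorem toAdd_chr (u : Van M n) : Multiplicative.toAdd (chr M n u) = chrFun u := rfl

end Fermat.Agent.GAL.AN
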